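import Fermat.Agent.TWDeg.BaseShap

/-!
# The base level of the Taylor-Wiles modules
-/

set_option autoImplicit false
set_option linter.unusedSectionVars false

noncomputable section

namespace Fermat.Agent.TWDeg

open Fermat.Agent.TW
open Matrix.SpecialLinearGroup CongruenceSubgroup
open scoped MatrixGroups

section LocCongr

variable {B : Type} [CommRing B] (𝔪 : Ideal B) [𝔪.IsPrime] {N N' : Type} [AddCommGroup N]
  [Module B N] [AddCommGroup N'] [Module B N']

/-- functoriality of the localisation for equivalences -/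
def locCongr (e : N ≃ₗ[B] N') : Loc 𝔪 N ≃ₗ[B] Loc 𝔪 N' :=
  LinearEquiv.ofLinearMap (Loc.map 𝔪 e.toLinearMap) (Loc.map 𝔪 e.symm.toLinearMap)
    (by
      rw [← Loc.map_comp]
      have h1 : e.toLinearMap ∘ₗ e.symm.toLinearMap = LinearMap.id := by
        ext x
        exact e.apply_symm_apply x
      rw [h1, Loc.map_id])
    (by
      rw [← Loc.map_comp]
      have h1 : e.symm.toLinearMap ∘ₗ e.toLinearMap = LinearMap.id := by
        ext x
        exact e.symm_apply_apply x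
      rw [h1, Loc.map_id])

theorem locCongr_apply (e : N ≃ₗ[B] N') (x : Loc 𝔪 N) :
    locCongr 𝔪 e x = Loc.map 𝔪 e.toLinearMap x := rfl

/-- if a morphism of degeneracy data is an isomorphism then injectivity and surjectivity
properties can be transported -/
theorem DegHom.down_surjective {N₁ N₂ N₁' N₂' : Type} [AddCommGroup N₁] [Module B N₁]
    [AddCommGroup N₂] [Module B N₂] [AddCommGroup N₁'] [Module B N₁'] [AddCommGroup N₂']
    [Module B N₂'] {D : DegData B N₁ N₂} {D' : DegData B N₁' N₂'} {f₁ : N₁ →ₗ[B] N₁'}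
    {f₂ : N₂ →ₗ[B] N₂'} (h : DegHom D D' f₁ f₂) (h₁ : Function.Injective f₁)
    (h₂ : Function.Surjective f₂) (hs : Function.Surjective D'.down) :
    Function.Surjective D.down := by
  rintro ⟨a, b⟩
  obtain ⟨y, hy⟩ := hs (f₁ a, f₁ b)
  obtain ⟨x, rfl⟩ := h₂ y
  refine ⟨x, ?_⟩
  rw [h.down] at hy
  obtain ⟨h3, h4⟩ := Prod.mk.inj hy
  exact Prod.ext (h₁ h3) (h₁ h4)

theorem DegHom.ker_down {N₁ N₂ N₁' N₂' : Type} [AddCommGroup N₁] [Module B N₁]
    [AddCommGroup N₂] [Module B N₂] [AddCommGroup N₁'] [Module B N₁'] [AddCommGroup N₂']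
    [Module B N₂'] {D : DegData B N₁ N₂} {D' : DegData B N₁' N₂'} {f₁ : N₁ →ₗ[B] N₁'}
    {f₂ : N₂ →ₗ[B] N₂'} (h : DegHom D D' f₁ f₂) (h₂ : Function.Injective f₂)
    (hs : ∀ x, D'.down x = 0 → x = 0) (x : N₂) (hx : D.down x = 0) : x = 0 := by
  apply h₂
  rw [map_zero]
  apply hs
  rw [h.down, hx]
  exact Prod.ext (map_zero f₁) (map_zero f₁)

end LocCongr

/-! ### trivial coefficients and the modulus -/

section Triv

variable {m n M : ℕ} (hn : n ∣ m) (hM : M ∣ m) (R A : Type) [CommRing R] [AddCommGroup A]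
  [Module R A]

/-- for trivial coefficients the modulus does not matter. -/
def trivMod : (Stg.gamma0 n hn hM).H (triv M R A) ≃ₗ[TPoly m R]
    (Stg.gamma0 n hn (one_dvd m)).H (triv 1 R A) :=
  modH (one_dvd M) (Stg.gamma0 n hn (one_dvd m)) hM (triv 1 R A)

end Triv

variable {D : Type} [CommGroup D] (W : TWD D)

section Base

variable {m : ℕ} (hM : W.M ∣ m) (R A : Type) [CommRing R] [AddCommGroup A] [Module R A]

include hM in
theorem dvd_nd : W.N * W.dd ∣ m := hM

/-- **the base level** -/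
def baseTW : (XF hM).H (funRep (M := W.M) R A W.Y0) ≃ₗ[TPoly m R]
    (Stg.gamma0 (W.N * W.dd) (dvd_nd W hM) (one_dvd m)).H (triv 1 R A) :=
  (lvlH W hM R A fun _ => .bor).trans
    ((baseH W R A (one_dvd_m W hM) W.tws.pos W.tws.ndvd rfl (N_dvd_m W hM) (dvd_nd W hM)).trans
      (trivMod (dvd_nd W hM) (one_dvd_m W hM) R A))

theorem lev_toList : lev W.N W.Q.toList = W.N * W.dd := by
  rw [lev_eq, Finset.prod_toList]

theorem twl_toList : TWL W.N 1 W.Q.toList where
  nodup := W.Q.nodup_toList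
  prime q hq := W.tws.prime q (Finset.mem_toList.mp hq)
  cop q hq := (W.tws.coprime_N (Finset.mem_toList.mp hq)).symm
  copM q := fun _ => Nat.coprime_one_right q

/-- equal levels -/
def congrN {m M : ℕ} (hM : M ∣ m) {R : Type} [CommRing R] {V : Type} [AddCommGroup V] [Module R V]
    (ρ : Representation R (Gp M) V) (𝔪 : Ideal (TPoly m R)) [𝔪.IsPrime] {a b : ℕ} (h : a = b)
    (ha : a ∣ m) (hb : b ∣ m) : MN hM ρ 𝔪 a ha ≃ₗ[TPoly m R] MN hM ρ 𝔪 b hb := by
  subst h
  exact LinearEquiv.refl _ _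

/-- **The base level of the Taylor–Wiles modules**: `2 ^ #Q` copies of the module of level
`Γ₀(N)`, when there is no `q`-new part. -/
theorem exists_base (𝔪 : Ideal (TPoly m R)) [𝔪.IsPrime]
    (hdet : ∀ (q : ℕ) (hq : q.Prime) (hqn : q.Coprime W.N) (hqM : q.Coprime 1), q ∈ W.Q →
      Function.Bijective (detN (one_dvd m) (triv 1 R A) 𝔪 W.N (N_dvd_m W hM) hq hqn hqM))
    (hnew : ∀ (n' q : ℕ) (hq : q.Prime) (hqn : q.Coprime n') (hqM : q.Coprime 1) (hn' : n' ∣ m)
      (hnq : n' * q ∣ m), q ∈ W.Q → W.N ∣ n' → n' * q ∣ W.N * W.dd →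
      ∀ x, (degN (one_dvd m) (triv 1 R A) 𝔪 hq hqn hqM hn' hnq rfl).down x = 0 → x = 0) :
    Nonempty (Loc 𝔪 ((XF hM).H (funRep (M := W.M) R A W.Y0)) ≃ₗ[TPoly m R]
      (Fin (2 ^ W.Q.card) → MN (one_dvd m) (triv 1 R A) 𝔪 W.N (N_dvd_m W hM))) := by
  have hlev := lev_toList W
  have hm : lev W.N W.Q.toList ∣ m := by rw [hlev]; exact hM
  obtain ⟨ι, hι, hcard, e, -⟩ := exists_iter (one_dvd m) (triv 1 R A) 𝔪 W.N W.Q.toList
    (twl_toList W) hm (fun _ _ _ _ => rfl)
    (fun q hq hqn hqM hqQ => hdet q hq hqn hqM (Finset.mem_toList.mp hqQ))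
    (fun n' q hq hqn hqM hn' hnq _ hqQ h1 h2 => hnew n' q hq hqn hqM hn' hnq
      (Finset.mem_toList.mp hqQ) h1 (by rw [← hlev]; exact h2))
  rw [Finset.length_toList] at hcard
  exact ⟨(locCongr 𝔪 (baseTW W hM R A)).trans
    ((congrN (one_dvd m) (triv 1 R A) 𝔪 hlev.symm (dvd_nd W hM) hm).trans
      (e.symm.trans (LinearEquiv.funCongrLeft (TPoly m R) _
        (Fintype.equivFinOfCardEq hcard).symm)))⟩

end Base

end Fermat.Agent.TWDeg

end
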