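import Fermat.Agent.TWDeg.BaseTW

/-!
# Level raising maps between Taylor-Wiles modules modulo `(π, I_Δ)`
-/

set_option autoImplicit false
set_option linter.unusedSectionVars false

noncomputable section

namespace Fermat.Agent.TWDeg

open Fermat.Agent.TW
open Matrix.SpecialLinearGroup CongruenceSubgroup
open scoped MatrixGroups

section Alg

variable {B : Type} [CommRing B] {N₁ N₂ N₁' N₂' : Type} [AddCommGroup N₁] [Module B N₁]
    [AddCommGroup N₂] [Module B N₂] [AddCommGroup N₁'] [Module B N₁'] [AddCommGroup N₂']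
    [Module B N₂']

/-- `up` is injective modulo `π`. -/
def UpInj (D : DegData B N₁ N₂) (π : B) : Prop :=
  ∀ a b c, D.up (a, b) = π • c → ∃ a' b', a = π • a' ∧ b = π • b'

theorem UpInj.transport {D : DegData B N₁ N₂} {D' : DegData B N₁' N₂'} {f₁ : N₁ →ₗ[B] N₁'}
    {f₂ : N₂ →ₗ[B] N₂'} (h : DegHom D D' f₁ f₂) (h₁ : Function.Bijective f₁) {π : B}
    (hs : UpInj D' π) : UpInj D π := by
  intro a b c hab
  obtain ⟨a', b', ha, hb⟩ := hs (f₁ a) (f₁ b) (f₂ c) (by rw [h.up, hab, map_smul])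
  obtain ⟨a', rfl⟩ := h₁.2 a'
  obtain ⟨b', rfl⟩ := h₁.2 b'
  exact ⟨a', b', h₁.1 (by rw [map_smul, ha]), h₁.1 (by rw [map_smul, hb])⟩

end Alg

variable {D : Type} [CommGroup D] (W : TWD D) {l : ℕ} (hl : l.Prime) (hlQ : l ∉ W.Q)
  {m : ℕ} (hM : W.M ∣ m) (hM' : (raise W hl hlQ).M ∣ m) (hlN : ¬ l ∣ W.N)

section Base

variable (R A : Type) [CommRing R] [AddCommGroup A] [Module R A]

include hl hlQ hM' in
theorem nd_mul : W.N * W.dd * l ∣ m := by
  have h : W.N * W.dd * l = (raise W hl hlQ).M := (raise_M W hl hlQ).symm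
  rw [h]
  exact hM'

/-- the base level degeneracy data, with modulus `∏ Q` -/
abbrev degB : DegData (TPoly m R)
    ((Stg.gamma0 (W.N * W.dd) (dvd_nd W hM) (one_dvd_m W hM)).H (triv (one W).M R A))
    ((Stg.gamma0 (W.N * W.dd * l) (nd_mul W hl hlQ hM') (one_dvd_m W hM)).H
      (triv (one W).M R A)) :=
  degData (triv (one W).M R A) hl (coprime_M W hl hlQ hlN)
    ((coprime_M W hl hlQ hlN).coprime_dvd_right (one_M_dvd W)) (dvd_nd W hM)
    (nd_mul W hl hlQ hM') (one_dvd_m W hM) rfl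

/-- comparison of the Taylor-Wiles module `Fun(Y_0)` with the base level -/
def cmp₁ : (XF hM).H (funRep (M := W.M) R A W.Y0) ≃ₗ[TPoly m R]
    (Stg.gamma0 (W.N * W.dd) (dvd_nd W hM) (one_dvd_m W hM)).H (triv (one W).M R A) :=
  (lvlH W hM R A fun _ => .bor).trans
    (baseH W R A (one_dvd_m W hM) W.tws.pos W.tws.ndvd rfl (N_dvd_m W hM) (dvd_nd W hM))

/-- comparison of the Taylor-Wiles module `Fun(Y_0)` of level `N l` with the base level -/
def cmp₂ : (XF hM').H (funRep (M := (raise W hl hlQ).M) R A (raise W hl hlQ).Y0) ≃ₗ[TPoly m R]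
    (Stg.gamma0 (W.N * W.dd * l) (nd_mul W hl hlQ hM') (one_dvd_m W hM)).H
      (triv (one W).M R A) :=
  (lvlH' W hl hlQ R A (fun _ => .bor) hM hM').trans
    (baseH W R A (one_dvd_m W hM) (mul_ne_zero W.tws.pos hl.ne_zero)
      (hc_mul W W.tws.ndvd hl hlQ) (hn'_mul W rfl) (N_dvd_m (raise W hl hlQ) hM')
      (nd_mul W hl hlQ hM'))

/-- the comparison is a morphism of degeneracy data -/
theorem degHom_cmp : DegHom (degTW W hl hlQ R A (fun _ => .bor) hM hM' hlN)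
    (degB W hl hlQ hM hM' hlN R A) (cmp₁ W hM R A).toLinearMap
    (cmp₂ W hl hlQ hM hM' R A).toLinearMap := by
  have hB := degHom_base W R A (one_dvd_m W hM) W.tws.pos W.tws.ndvd rfl (N_dvd_m W hM)
    (dvd_nd W hM) hl ((coprime_M W hl hlQ hlN).coprime_dvd_right (one_M_dvd W))
    ((Nat.Prime.coprime_iff_not_dvd hl).mpr hlN) (coprime_M W hl hlQ hlN)
    (N_dvd_m (raise W hl hlQ) hM') (nd_mul W hl hlQ hM') hlQ
  exact
    { q := rfl
      I := fun x => by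
        have h2 := hB.I (lvlH W hM R A (fun _ => .bor) x)
        refine h2.trans ?_
        change _ = baseH W R A _ _ _ _ _ _ (lvlH' W hl hlQ R A (fun _ => .bor) hM hM'
          ((lvlH' W hl hlQ R A (fun _ => .bor) hM hM').symm _))
        rw [LinearEquiv.apply_symm_apply]
        rfl
      W := fun x => by
        have h2 := hB.W (lvlH' W hl hlQ R A (fun _ => .bor) hM hM' x)
        refine h2.trans ?_
        change _ = baseH W R A _ _ _ _ _ _ (lvlH' W hl hlQ R A (fun _ => .bor) hM hM'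
          ((lvlH' W hl hlQ R A (fun _ => .bor) hM hM').symm _))
        rw [LinearEquiv.apply_symm_apply]
        rfl
      J := fun x => by
        have h2 := hB.J (lvlH' W hl hlQ R A (fun _ => .bor) hM hM' x)
        refine h2.trans ?_
        change _ = baseH W R A _ _ _ _ _ _ (lvlH W hM R A (fun _ => .bor)
          ((lvlH W hM R A (fun _ => .bor)).symm _))
        rw [LinearEquiv.apply_symm_apply]
        rfl }

variable (𝔪 : Ideal (TPoly m R)) [𝔪.IsPrime]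

theorem upInj_bor (π : TPoly m R) (h : UpInj ((degB W hl hlQ hM hM' hlN R A).loc 𝔪) π) :
    UpInj ((degTW W hl hlQ R A (fun _ => .bor) hM hM' hlN).loc 𝔪) π :=
  UpInj.transport ((degHom_cmp W hl hlQ hM hM' hlN R A).loc 𝔪)
    (locCongr 𝔪 (cmp₁ W hM R A)).bijective h

theorem down_surj_bor
    (h : Function.Surjective ((degB W hl hlQ hM hM' hlN R A).loc 𝔪).down) :
    Function.Surjective ((degTW W hl hlQ R A (fun _ => .bor) hM hM' hlN).loc 𝔪).down :=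
  DegHom.down_surjective ((degHom_cmp W hl hlQ hM hM' hlN R A).loc 𝔪)
    (locCongr 𝔪 (cmp₁ W hM R A)).injective (locCongr 𝔪 (cmp₂ W hl hlQ hM hM' R A)).surjective h

end Base

section Push

variable {M : ℕ} {R A : Type} [CommRing R] [AddCommGroup A] [Module R A] {Y Y' Δ : Type}
  [MulAction (GL (Fin 2) (ZMod M)) Y] [MulAction (GL (Fin 2) (ZMod M)) Y'] [Fintype Y] [Group Δ]
  [MulAction Δ Y] [SMulCommClass (GL (Fin 2) (ZMod M)) Δ Y] {f : Y → Y'}

open scoped Classical in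
theorem push_actC (hf : IsTorsor (M := M) Δ f) (δ : Δ) (v : Y → A) :
    (push R A f hf.equiv).toLinearMap ((actC M R A Y δ).toLinearMap v) =
      (push R A f hf.equiv).toLinearMap v := by
  ext y
  change (∑ y' : Y, if f y' = y then v (δ⁻¹ • y') else 0) =
    ∑ y' : Y, if f y' = y then v y' else 0
  rw [← Equiv.sum_comp (MulAction.toPerm δ)]
  refine Finset.sum_congr rfl fun y' _ => ?_
  have h1 : f (MulAction.toPerm δ y') = f y' := ((hf.fib _ _).mpr ⟨δ, rfl⟩).symm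
  rw [h1]
  change (if _ then v (δ⁻¹ • δ • y') else 0) = _
  rw [inv_smul_smul]

end Push

section TW

variable {O : Type} [CommRing O] (hM : W.M ∣ m) (hM' : (raise W hl hlQ).M ∣ m) (hlN : ¬ l ∣ W.N)
  [Fintype D] [∀ (W : TWD D) (t : ℕ → LT), Fintype (W.Yt t)]
  (𝔪 : Ideal (TPoly m O)) [𝔪.IsPrime] (A : Type) [AddCommGroup A] [Module O A]

/-- the Taylor-Wiles module of level `N` -/
abbrev MQ : Type := Loc 𝔪 ((XF hM).H (funRep (M := W.M) O A W.YQ))

/-- the degeneracy data of localised Taylor-Wiles modules -/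
abbrev DQ : DegData (TPoly m O) (MQ W hM 𝔪 A) (MQ (raise W hl hlQ) hM' 𝔪 A) :=
  (degTW W hl hlQ O A (fun _ => .chi) hM hM' hlN).loc 𝔪

/-- the degeneracy data of localised modules of level `Γ₀`. -/
abbrev D0 : DegData (TPoly m O) (Loc 𝔪 ((XF hM).H (funRep (M := W.M) O A W.Y0)))
    (Loc 𝔪 ((XF hM').H (funRep (M := (raise W hl hlQ).M) O A (raise W hl hlQ).Y0))) :=
  (degTW W hl hlQ O A (fun _ => .bor) hM hM' hlN).loc 𝔪

/-- push-forward to level `Γ₀` -/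
abbrev pushQ (hM : W.M ∣ m) : MQ W hM 𝔪 A →ₗ[TPoly m O]
    Loc 𝔪 ((XF hM).H (funRep (M := W.M) O A W.Y0)) :=
  Loc.map 𝔪 ((XF hM).map (push O A W.prQ W.isTorsor.equiv))

theorem degHom_pushQ : DegHom (DQ W hl hlQ hM hM' hlN 𝔪 A) (D0 W hl hlQ hM hM' hlN 𝔪 A)
    (pushQ W 𝔪 A hM) (pushQ (raise W hl hlQ) 𝔪 A hM') :=
  (degTW_push W hl hlQ hM hM' hlN).loc 𝔪

variable (hY : GoodFor W.M O W.YQ) (hY0 : GoodFor W.M O W.Y0)
  (hY' : GoodFor (raise W hl hlQ).M O (raise W hl hlQ).YQ)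
  (hY0' : GoodFor (raise W hl hlQ).M O (raise W hl hlQ).Y0)

/-- the augmentation submodule -/
def augS (hM : W.M ∣ m) : Set (MQ W hM 𝔪 A) :=
  {x | ∃ z : (W.Q → D) → MQ W hM 𝔪 A,
    x = ∑ δ : W.Q → D, (repΔ hM O A W.YQ (W.Q → D) 𝔪 δ (z δ) - z δ)}

include hY hY0 in
theorem mem_augS_of_push (x : MQ W hM 𝔪 A) (hx : pushQ W 𝔪 A hM x = 0) :
    x ∈ augS W 𝔪 A hM :=
  ker_push_loc hM W.isTorsor hY hY0 𝔪 A x hx

theorem push_act (x : MQ W hM 𝔪 A) (δ : W.Q → D) :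
    pushQ W 𝔪 A hM (repΔ hM O A W.YQ (W.Q → D) 𝔪 δ x) = pushQ W 𝔪 A hM x := by
  rw [repΔ_apply, ← LinearMap.comp_apply, ← Loc.map_comp]
  congr 2
  refine LinearMap.ext fun x => ?_
  rw [LinearMap.comp_apply]
  exact (XF hM).map_comp' _ _ _ (fun v => push_actC W.isTorsor δ v) x

theorem push_of_mem_augS (x : MQ W hM 𝔪 A) (hx : x ∈ augS W 𝔪 A hM) :
    pushQ W 𝔪 A hM x = 0 := by
  obtain ⟨z, rfl⟩ := hx
  rw [map_sum]
  refine Finset.sum_eq_zero fun δ _ => ?_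
  rw [map_sub, push_act, sub_self]

include hY hY0 in
/-- injectivity of `up` modulo `(π, I_Δ)` -/
theorem up_inj_aug (π : TPoly m O) (h : UpInj (D0 W hl hlQ hM hM' hlN 𝔪 A) π)
    (a b : MQ W hM 𝔪 A) (c w : MQ (raise W hl hlQ) hM' 𝔪 A)
    (hw : w ∈ augS (raise W hl hlQ) 𝔪 A hM')
    (hab : (DQ W hl hlQ hM hM' hlN 𝔪 A).up (a, b) = π • c + w) :
    (∃ a' u, u ∈ augS W 𝔪 A hM ∧ a = π • a' + u) ∧
      ∃ b' u, u ∈ augS W 𝔪 A hM ∧ b = π • b' + u := by
  have hD := degHom_pushQ W hl hlQ hM hM' hlN 𝔪 A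
  obtain ⟨a', b', ha, hb⟩ := h (pushQ W 𝔪 A hM a) (pushQ W 𝔪 A hM b)
    (pushQ (raise W hl hlQ) 𝔪 A hM' c) (by
      rw [hD.up, hab, map_add, map_smul, push_of_mem_augS (raise W hl hlQ) hM' 𝔪 A w hw, add_zero])
  have key : ∀ (x : MQ W hM 𝔪 A) y, pushQ W 𝔪 A hM x = π • y →
      ∃ a' u, u ∈ augS W 𝔪 A hM ∧ x = π • a' + u := by
    intro x y hxy
    obtain ⟨y, rfl⟩ := push_loc_surjective hM W.isTorsor hY hY0 𝔪 A y
    refine ⟨y, x - π • y, mem_augS_of_push W hM 𝔪 A hY hY0 _ ?_, by abel⟩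
    rw [map_sub, map_smul, hxy, sub_self]
  exact ⟨key a a' ha, key b b' hb⟩

include hY hY0 hY' hY0' in
/-- surjectivity of `down` modulo `I_Δ` -/
theorem down_surj_aug (h : Function.Surjective (D0 W hl hlQ hM hM' hlN 𝔪 A).down)
    (a b : MQ W hM 𝔪 A) : ∃ (x : MQ (raise W hl hlQ) hM' 𝔪 A) (u v : MQ W hM 𝔪 A),
      u ∈ augS W 𝔪 A hM ∧ v ∈ augS W 𝔪 A hM ∧
      (DQ W hl hlQ hM hM' hlN 𝔪 A).down x = (a + u, b + v) := by
  have hD := degHom_pushQ W hl hlQ hM hM' hlN 𝔪 A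
  obtain ⟨y, hy⟩ := h (pushQ W 𝔪 A hM a, pushQ W 𝔪 A hM b)
  obtain ⟨x, rfl⟩ := push_loc_surjective hM' (raise W hl hlQ).isTorsor hY' hY0' 𝔪 A y
  have h2 := (hD.down x).symm.trans hy
  rw [Prod.mk.injEq] at h2
  refine ⟨x, ((DQ W hl hlQ hM hM' hlN 𝔪 A).down x).1 - a,
    ((DQ W hl hlQ hM hM' hlN 𝔪 A).down x).2 - b,
    mem_augS_of_push W hM 𝔪 A hY hY0 _ ?_, mem_augS_of_push W hM 𝔪 A hY hY0 _ ?_, ?_⟩
  · rw [map_sub, h2.1, sub_self]
  · rw [map_sub, h2.2, sub_self]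
  · rw [add_sub_cancel, add_sub_cancel]

end TW

end Fermat.Agent.TWDeg

end
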