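import Fermat.Agent.IharaM.Final
import Fermat.Agent.TWDeg.Raise

/-!
# Ihara's lemma for the degeneracy maps between the base levels of Taylor-Wiles levels
-/

set_option autoImplicit false
set_option linter.unusedSectionVars false
set_option linter.unusedVariables false

noncomputable section

namespace Fermat.Agent.TWDeg

open Fermat.Agent.TW IsLocalRing
open scoped MatrixGroups

section Base

variable {D : Type} [CommGroup D] (W : TWD D) {l : ℕ} (hl : l.Prime) (hlQ : l ∉ W.Q)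
  {m : ℕ} (hM : W.M ∣ m) (hM' : (raise W hl hlQ).M ∣ m) (hlN : ¬ l ∣ W.N)
  {O : Type} [CommRing O] [IsDomain O] [CharZero O] [IsDiscreteValuationRing O]
  (𝔪 : Ideal (TPoly m O)) [𝔪.IsPrime] {p : ℕ} (hp : p.Prime) (hp2 : p ≠ 2)
  (hpO : (p : O) ∈ maximalIdeal O) (lam : ℕ → O)
  (hlam : ∀ s : Pr m, (MvPolynomial.X s - MvPolynomial.C (lam s) : TPoly m O) ∈ 𝔪)
  (G2 : IharaM.Supply m l p fun s => residue O (lam s))

include hp hp2 hpO hlam G2 in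
theorem upInj_degB {ϖ : O} (hϖ : Irreducible ϖ) :
    UpInj ((degB W hl hlQ hM hM' hlN O O).loc 𝔪) (MvPolynomial.C ϖ) := by
  intro a b c hab
  obtain ⟨y, hy⟩ := IharaM.ihara_up_dvr (rho := triv (one W).M O O) (fun _ => rfl) hl
    (coprime_M W hl hlQ hlN) ((coprime_M W hl hlQ hlN).coprime_dvd_right (one_M_dvd W))
    (dvd_nd W hM) (nd_mul W hl hlQ hM') (one_dvd_m W hM) rfl 𝔪 hp hp2 hpO
    (Nat.pos_of_ne_zero (NeZero.ne W.M)) ϖ hϖ lam hlam G2 (a, b) c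
    (hab.trans (Loc.C_smul _ _ _))
  refine ⟨y.1, y.2, ?_, ?_⟩
  · rw [Loc.C_smul]
    exact (Prod.mk.inj hy).1
  · rw [Loc.C_smul]
    exact (Prod.mk.inj hy).2

include hp hp2 hpO hlam G2 in
theorem down_surj_degB (hPk : ∀ a ∈ maximalIdeal O, (MvPolynomial.C a : TPoly m O) ∈ 𝔪) :
    Function.Surjective ((degB W hl hlQ hM hM' hlN O O).loc 𝔪).down :=
  IharaM.ihara_down_dvr (rho := triv (one W).M O O) (fun _ => rfl) hl
    (coprime_M W hl hlQ hlN) ((coprime_M W hl hlQ hlN).coprime_dvd_right (one_M_dvd W))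
    (dvd_nd W hM) (nd_mul W hl hlQ hM') (one_dvd_m W hM) rfl 𝔪 hp hp2 hpO
    (Nat.pos_of_ne_zero (NeZero.ne W.M)) hPk lam hlam G2

variable [Fintype D] [∀ (W : TWD D) (t : ℕ → LT), Fintype (W.Yt t)]

include hp hp2 hpO hlam G2 in
/-- **Ihara's lemma**: `up` is injective modulo a uniformiser. -/
theorem upInj_D0 {ϖ : O} (hϖ : Irreducible ϖ) :
    UpInj (D0 W hl hlQ hM hM' hlN 𝔪 O) (MvPolynomial.C ϖ) :=
  upInj_bor W hl hlQ hM hM' hlN O O 𝔪 _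
    (upInj_degB W hl hlQ hM hM' hlN 𝔪 hp hp2 hpO lam hlam G2 hϖ)

include hp hp2 hpO hlam G2 in
/-- **Ihara's lemma**: `down` is surjective. -/
theorem down_surj_D0 (hPk : ∀ a ∈ maximalIdeal O, (MvPolynomial.C a : TPoly m O) ∈ 𝔪) :
    Function.Surjective (D0 W hl hlQ hM hM' hlN 𝔪 O).down :=
  down_surj_bor W hl hlQ hM hM' hlN O O 𝔪
    (down_surj_degB W hl hlQ hM hM' hlN 𝔪 hp hp2 hpO lam hlam G2 hPk)

end Base

section Curve

/-- the supply of primes for an elliptic curve -/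
theorem supply_of_model (W₀ : WeierstrassCurve ℤ) (hΔ : W₀.Δ ≠ 0) {p : ℕ} (hp : p.Prime)
    (hp2 : p ≠ 2) (hirr : W₀.ModRepIsIrreducible p) {m l : ℕ} (hm : m ≠ 0) (hl : l.Prime)
    (O : Type) [CommRing O] [IsLocalRing O] (hpO : (p : O) ∈ maximalIdeal O) :
    IharaM.Supply m l p fun s => residue O ((W₀.apOfModel s : ℤ) : O) := by
  have hpf : Fact p.Prime := ⟨hp⟩
  have hE : (W₀.map (Int.castRingHom ℚ)).IsElliptic := by
    constructor
    have h1 : (W₀.map (Int.castRingHom ℚ)).Δ = ((W₀.Δ : ℤ) : ℚ) := by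
      rw [WeierstrassCurve.map_Δ]; rfl
    rw [h1, isUnit_iff_ne_zero]
    exact_mod_cast hΔ
  have hWE : W₀.IsIntegralModelOf (W₀.map (Int.castRingHom ℚ)) := ⟨1, one_smul _ _⟩
  refine IharaM.supply_of_curve (W₀.map (Int.castRingHom ℚ)) p hWE hirr hp2
    (Nat.pos_of_ne_zero hm) hl ?_ _ fun ℓ _ _ _ _ => map_intCast _ _
  rw [← map_natCast (residue O), residue_eq_zero_iff]
  exact hpO

variable (W₀ : WeierstrassCurve ℤ) (hΔ : W₀.Δ ≠ 0) {p : ℕ} (hp : p.Prime) (hp2 : p ≠ 2)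
  (hirr : W₀.ModRepIsIrreducible p)
  {D : Type} [CommGroup D] (W : TWD D) {l : ℕ} (hl : l.Prime) (hlQ : l ∉ W.Q)
  {m : ℕ} (hm : m ≠ 0) (hM : W.M ∣ m) (hM' : (raise W hl hlQ).M ∣ m) (hlN : ¬ l ∣ W.N)
  {O : Type} [CommRing O] [IsDomain O] [CharZero O] [IsDiscreteValuationRing O]
  (hpO : (p : O) ∈ maximalIdeal O)
  (𝔪 : Ideal (TPoly m O)) [𝔪.IsPrime]
  (hPk : ∀ a ∈ maximalIdeal O, (MvPolynomial.C a : TPoly m O) ∈ 𝔪)
  (hPX : ∀ s : Pr m,
    (MvPolynomial.X s - MvPolynomial.C ((W₀.apOfModel s : ℤ) : O) : TPoly m O) ∈ 𝔪)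
  [Fintype D] [∀ (W : TWD D) (t : ℕ → LT), Fintype (W.Yt t)]

include hΔ hp hp2 hirr hm hpO hPX in
theorem upInj_curve {ϖ : O} (hϖ : Irreducible ϖ) :
    UpInj (D0 W hl hlQ hM hM' hlN 𝔪 O) (MvPolynomial.C ϖ) :=
  upInj_D0 W hl hlQ hM hM' hlN 𝔪 hp hp2 hpO (fun s => ((W₀.apOfModel s : ℤ) : O)) hPX
    (supply_of_model W₀ hΔ hp hp2 hirr hm hl O hpO) hϖ

include hΔ hp hp2 hirr hm hpO hPX hPk in
theorem down_surj_curve : Function.Surjective (D0 W hl hlQ hM hM' hlN 𝔪 O).down :=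
  down_surj_D0 W hl hlQ hM hM' hlN 𝔪 hp hp2 hpO (fun s => ((W₀.apOfModel s : ℤ) : O)) hPX
    (supply_of_model W₀ hΔ hp hp2 hirr hm hl O hpO) hPk

end Curve

end Fermat.Agent.TWDeg

end
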