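import Fermat.Agent.TWDeg.DegLev
import Fermat.Agent.TWDeg.IharaBase

/-!
# Degeneracy data between the Taylor-Wiles levels of an elliptic curve
-/

set_option autoImplicit false
set_option linter.unusedSectionVars false
set_option linter.unusedVariables false

noncomputable section

namespace Fermat.Agent.TWDeg

open Fermat.Agent.TW HeckeHom ModularCurve.Period CongruenceSubgroup IsLocalRing
  Fermat.Agent.DefRing Module Fermat.Agent.RT8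
open scoped MatrixGroups

variable (W₀ : WeierstrassCurve ℤ) (hΔ : W₀.Δ ≠ 0)
    {p n g : ℕ} [hp : Fact p.Prime] (hp2 : p ≠ 2) (hirr : W₀.ModRepIsIrreducible p)
    {D : Type} [CommGroup D] [Fintype D]
    {O : Type} [CommRing O] [IsDomain O] [IsDiscreteValuationRing O]
    [IsAdicComplete (maximalIdeal O) O] [Finite (ResidueField O)] [CharZero O]
    (hpO : (p : O) ∈ maximalIdeal O)
    {rbar : GQ →* M2 (ResidueField O)} {sd : SliceData rbar}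
    (hspan : Submodule.span (ResidueField O) (Set.range rbar) = ⊤)
    {m m' N₁ N₂ : ℕ} [NeZero N₁] [NeZero N₂] {hN₁ : N₁ ∣ m} {hN₂ : N₂ ∣ m}
    {𝔪 : Ideal (TPoly m O)} [𝔪.IsMaximal]
    {R₁ : HRep (m := m) p N₁ sd (Loc 𝔪 (HG m N₁ hN₁ O))}
    {R₂ : HRep (m := m) p N₂ sd (Loc 𝔪 (HG m N₂ hN₂ O))}
    {P : Fin g → TWP rbar} {W : TWD D} {l : ℕ} (hl : l.Prime) (hlQ : l ∉ W.Q)
    {hM : W.M ∣ m'} {hM' : (raise W hl hlQ).M ∣ m'} (hlN : ¬ l ∣ W.N)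
    {𝔪' : Ideal (TPoly m' O)} [𝔪'.IsMaximal] {N₁' N₂' : ℕ}
    {R₁' : HRep (m := m') p N₁' sd (MQ W hM 𝔪' O)}
    {R₂' : HRep (m := m') p N₂' sd (MQ (raise W hl hlQ) hM' 𝔪' O)}
    (hPk : ∀ a ∈ maximalIdeal O, (MvPolynomial.C a : TPoly m' O) ∈ 𝔪')
    (hPX : ∀ s : Pr m',
      (MvPolynomial.X s - MvPolynomial.C ((W₀.apOfModel s : ℤ) : O) : TPoly m' O) ∈ 𝔪')
    (X₁ : TWLev n g R₁ P W hM 𝔪' R₁')
    (X₂ : TWLev n g R₂ P (raise W hl hlQ) hM' 𝔪' R₂')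

include hΔ hp2 hirr hpO hPX X₁ in
theorem upInj_lev {ϖ : O} (hϖ : Irreducible ϖ) :
    UpInj (D0 W hl hlQ hM hM' hlN 𝔪' O) (MvPolynomial.C ϖ) :=
  upInj_curve W₀ hΔ hp.out hp2 hirr W hl hlQ X₁.ne hM hM' hlN hpO 𝔪' hPX hϖ

include hΔ hp2 hirr hpO hPX hPk X₁ in
theorem down_surj_lev : Function.Surjective (D0 W hl hlQ hM hM' hlN 𝔪' O).down :=
  down_surj_curve W₀ hΔ hp.out hp2 hirr W hl hlQ X₁.ne hM hM' hlN hpO 𝔪' hPk hPX

include hΔ hp2 hirr hpO hPX hPk in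
/-- **Degeneracy data between Taylor-Wiles levels**, `l` arbitrary (also `l = p`). -/
def degT_curve : DegT (X₂.tmod hp2 hpO hspan) (X₁.tmod hp2 hpO hspan) (FrobsOut m') :=
  degT hp2 hpO hspan hl hlQ hlN X₁ X₂ (IsDiscreteValuationRing.exists_irreducible O).choose_spec
    (upInj_lev W₀ hΔ hp2 hirr hpO hl hlQ hlN hPX X₁
      (IsDiscreteValuationRing.exists_irreducible O).choose_spec)
    (down_surj_lev W₀ hΔ hp2 hirr hpO hl hlQ hlN hPk hPX X₁)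

theorem degT_curve_up (x y : MQ W hM 𝔪' O) :
    ((degT_curve W₀ hΔ hp2 hirr hpO hspan hl hlQ hlN hPk hPX X₁ X₂).up (x, y) :
      MQ (raise W hl hlQ) hM' 𝔪' O) = (DQ W hl hlQ hM hM' hlN 𝔪' O).up (x, y) := rfl

theorem degT_curve_down (x : MQ (raise W hl hlQ) hM' 𝔪' O) :
    ((degT_curve W₀ hΔ hp2 hirr hpO hspan hl hlQ hlN hPk hPX X₁ X₂).down x :
      MQ W hM 𝔪' O × MQ W hM 𝔪' O) = (DQ W hl hlQ hM hM' hlN 𝔪' O).down x := rfl

variable (hES : ∀ (n : ℕ) [NeZero n], ES n)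

include hES hΔ hirr hp2 hpO hspan hPX X₁ X₂ in
/-- the image of `up` is saturated, `l` arbitrary (also `l = p`). -/
theorem up_sat_curve (o : O) (x : MQ (raise W hl hlQ) hM' 𝔪' O) (ho : o ≠ 0)
    (hx : ∃ y, (DQ W hl hlQ hM hM' hlN 𝔪' O).up y = o • x) :
    ∃ y, (DQ W hl hlQ hM hM' hlN 𝔪' O).up y = x := by
  obtain ⟨ϖ, hϖ⟩ := IsDiscreteValuationRing.exists_irreducible O
  exact up_sat_lev hES hp2 hpO hspan hl hlQ hlN X₁ X₂ hϖ
    (upInj_lev W₀ hΔ hp2 hirr hpO hl hlQ hlN hPX X₁ hϖ) o x ho hx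

variable (hloc : LocNew) (h30 : HeckeGal.S30Statement)

include hES hloc h30 hΔ hp2 hirr hpO hspan hPk hPX X₁ X₂ hlN in
/-- **Degeneracy data with composition formula between Taylor-Wiles levels**, `l ≠ p`. -/
theorem degPT_curve (hpm : p ∣ m') (hlp : l ≠ p) {B : ValuationSubring (AlgebraicClosure ℚ)}
    (hB : B.LiesOverPrime l) {τ : GQ} (hτ : B.IsFrobeniusAt τ l) :
    Nonempty (DegPT (X₂.tmod hp2 hpO hspan) (X₁.tmod hp2 hpO hspan) (FrobsOut m') l τ) := by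
  obtain ⟨ϖ, hϖ⟩ := IsDiscreteValuationRing.exists_irreducible O
  exact ⟨degPT hES hloc h30 hp2 hpO hspan hl hlQ hlN X₁ X₂ hϖ
    (upInj_lev W₀ hΔ hp2 hirr hpO hl hlQ hlN hPX X₁ hϖ)
    (down_surj_lev W₀ hΔ hp2 hirr hpO hl hlQ hlN hPk hPX X₁) hpm hlp hB hτ⟩

end Fermat.Agent.TWDeg

end
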