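import Fermat.Agent.HeckeHom.Basic
import Fermat.Agent.HeckeHom.Theta
import Fermat.Agent.DefRing.Mat

/-!
# Eigenspaces in parabolic homomorphisms and the local statements at primes dividing the level once
-/

set_option autoImplicit false
set_option linter.unusedSectionVars false

noncomputable section

namespace Fermat.Agent.TWDeg

open HeckeHom ModularCurve.Period CongruenceSubgroup IsLocalRing Fermat.Agent.DefRing
open scoped MatrixGroups

section Eig

variable (E : Type) [Field E]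

/-- the eigenspace with eigenvalues `a s`, `s ∤ m` -/
def eigSp (m n : ℕ) (a : ℕ → E) : Submodule E (Additive (Gamma0 n) →+ E) where
  carrier := {φ | φ ∈ parabolicHoms E (Gamma0 n) E ∧
    ∀ (s : ℕ) (hs : s.Prime) (hsn : ¬ s ∣ n), ¬ s ∣ m → heckeHom hs hsn E φ = a s • φ}
  zero_mem' := ⟨Submodule.zero_mem _, fun s hs hsn _ => by rw [map_zero, smul_zero]⟩
  add_mem' := by
    rintro φ ψ ⟨h1, h2⟩ ⟨h3, h4⟩
    exact ⟨Submodule.add_mem _ h1 h3, fun s hs hsn hsm => by
      rw [map_add, h2 s hs hsn hsm, h4 s hs hsn hsm, smul_add]⟩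
  smul_mem' := by
    rintro e φ ⟨h1, h2⟩
    exact ⟨Submodule.smul_mem _ _ h1, fun s hs hsn hsm => by
      rw [heckeHom_smul, h2 s hs hsn hsm, smul_comm]⟩

theorem mem_eigSp {m n : ℕ} {a : ℕ → E} {φ : Additive (Gamma0 n) →+ E} :
    φ ∈ eigSp E m n a ↔ φ ∈ parabolicHoms E (Gamma0 n) E ∧
      ∀ (s : ℕ) (hs : s.Prime) (hsn : ¬ s ∣ n), ¬ s ∣ m → heckeHom hs hsn E φ = a s • φ := Iff.rfl

instance finiteDimensional_homs (n : ℕ) [NeZero n] :
    FiniteDimensional E (Additive (Gamma0 n) →+ E) := by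
  obtain ⟨S, hS⟩ := (inferInstance : AddGroup.FG (Additive (Gamma0 n))).out
  let f : (Additive (Gamma0 n) →+ E) →ₗ[E] (S → E) :=
    { toFun := fun φ s => φ s
      map_add' := fun _ _ => rfl
      map_smul' := fun _ _ => rfl }
  refine FiniteDimensional.of_injective f fun φ ψ h => ?_
  refine AddMonoidHom.eq_of_eqOn_dense hS fun s hs => ?_
  exact congrFun h ⟨s, hs⟩

end Eig

/-- [LOC-new] If the multiplicity of an eigensystem in level `Γ₀(n l)` is greater than twice its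
multiplicity in level `Γ₀(n)`, then the trace of a Frobenius at `l` is `± (l + 1)`. -/
def LocNew : Prop :=
  ∀ (p : ℕ) [Fact p.Prime] (m n l : ℕ) [NeZero n] (_hm : m ≠ 0) (_hpm : p ∣ m)
    (_hnm : ∀ q : ℕ, q.Prime → q ∣ n * l → q ∣ m) (_hl : l.Prime) (_hln : ¬ l ∣ n) (_hlp : l ≠ p)
    (E : Type) [Field E] [CharZero E] [IsAlgClosed E] (a : ℕ → E)
    (A : Type) [CommRing A] [IsDomain A] [IsDiscreteValuationRing A]
    [IsAdicComplete (maximalIdeal A) A] [Finite (ResidueField A)] [CharZero A]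
    (_hpA : (p : A) ∈ maximalIdeal A) (ι : A →+* E) (_hι : Function.Injective ι)
    (r : GQ →* M2 A) (_hr : MatCont A r)
    (_htr : ∀ s : ℕ, s.Prime → ¬ s ∣ m → ∀ B : ValuationSubring (AlgebraicClosure ℚ),
      B.LiesOverPrime s → ∀ τ : GQ, B.IsFrobeniusAt τ s →
        ι (r τ).trace = a s ∧ (r τ).det = (s : A))
    (_hdim : 2 * Module.finrank E (eigSp E m n a) < Module.finrank E (eigSp E m (n * l) a))
    (B : ValuationSubring (AlgebraicClosure ℚ)) (_hB : B.LiesOverPrime l) (τ : GQ)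
    (_hτ : B.IsFrobeniusAt τ l), (r τ).trace ^ 2 = ((l : A) + 1) ^ 2

/-- [LOC-uni] Eigensystems of level `Γ₀(n l)` are unipotent at `l`. -/
def LocUni : Prop :=
  ∀ (p : ℕ) [Fact p.Prime] (m n l : ℕ) [NeZero n] (_hm : m ≠ 0) (_hpm : p ∣ m)
    (_hnm : ∀ q : ℕ, q.Prime → q ∣ n * l → q ∣ m) (_hl : l.Prime) (_hln : ¬ l ∣ n) (_hlp : l ≠ p)
    (E : Type) [Field E] [CharZero E] [IsAlgClosed E] (a : ℕ → E)
    (A : Type) [CommRing A] [IsDomain A] [IsDiscreteValuationRing A]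
    [IsAdicComplete (maximalIdeal A) A] [Finite (ResidueField A)] [CharZero A]
    (_hpA : (p : A) ∈ maximalIdeal A) (ι : A →+* E) (_hι : Function.Injective ι)
    (r : GQ →* M2 A) (_hr : MatCont A r)
    (_htr : ∀ s : ℕ, s.Prime → ¬ s ∣ m → ∀ B : ValuationSubring (AlgebraicClosure ℚ),
      B.LiesOverPrime s → ∀ τ : GQ, B.IsFrobeniusAt τ s →
        ι (r τ).trace = a s ∧ (r τ).det = (s : A))
    (_hne : eigSp E m (n * l) a ≠ ⊥)
    (B : ValuationSubring (AlgebraicClosure ℚ)) (_hB : B.LiesOverPrime l) (τ : GQ)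
    (_hτ : τ ∈ B.inertiaSubgroupIn ℚ), (r τ - 1) * (r τ - 1) = 0

end Fermat.Agent.TWDeg

end
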