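import Fermat.Agent.TWDeg.Comm
import Fermat.Agent.TW.Loc

/-!
# Degeneracy maps as maps of Hecke modules
-/

set_option autoImplicit false

noncomputable section

namespace Fermat.Agent.TWDeg

open Fermat.Agent.TW
open Matrix.SpecialLinearGroup
open scoped MatrixGroups

section Algebra

/-- Abstract degeneracy data: `i₁ = I`, `i₂ = W I`, `j₁ = J`, `j₂ = J W`. -/
structure DegData (B N₁ N₂ : Type) [CommRing B] [AddCommGroup N₁] [Module B N₁]
    [AddCommGroup N₂] [Module B N₂] where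
  /-- restriction -/
  I : N₁ →ₗ[B] N₂
  /-- Atkin-Lehner -/
  W : N₂ →ₗ[B] N₂
  /-- trace -/
  J : N₂ →ₗ[B] N₁
  /-- `T_q` -/
  T : N₁ →ₗ[B] N₁
  /-- the prime -/
  q : ℕ
  JI : ∀ x, J (I x) = (q + 1) • x
  JWI : ∀ x, J (W (I x)) = T x
  WW : ∀ x, W (W x) = x

namespace DegData

variable {B N₁ N₂ : Type} [CommRing B] [AddCommGroup N₁] [Module B N₁]
    [AddCommGroup N₂] [Module B N₂] (D : DegData B N₁ N₂)

/-- `(a, b) ↦ i₁ a + i₂ b` -/
def up : (N₁ × N₁) →ₗ[B] N₂ := LinearMap.coprod D.I (D.W ∘ₗ D.I)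

/-- `x ↦ (j₁ x, j₂ x)` -/
def down : N₂ →ₗ[B] (N₁ × N₁) := LinearMap.prod D.J (D.J ∘ₗ D.W)

theorem up_apply (a b : N₁) : D.up (a, b) = D.I a + D.W (D.I b) := rfl

theorem down_apply (x : N₂) : D.down x = (D.J x, D.J (D.W x)) := rfl

/-- the determinant `(q+1)² - T_q²` -/
def det : N₁ →ₗ[B] N₁ := ((D.q + 1) ^ 2 : ℕ) • LinearMap.id - D.T ∘ₗ D.T

theorem det_apply (x : N₁) : D.det x = ((D.q + 1) ^ 2 : ℕ) • x - D.T (D.T x) := rfl

theorem down_up (a b : N₁) :
    D.down (D.up (a, b)) = ((D.q + 1) • a + D.T b, D.T a + (D.q + 1) • b) := by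
  rw [up_apply, down_apply, map_add, map_add, map_add, D.JI, D.JWI, D.WW, D.JWI, D.JI]

theorem T_det (x : N₁) : D.T (D.det x) = D.det (D.T x) := by
  rw [det_apply, det_apply, map_sub, map_nsmul]

theorem down_up_adj (a b : N₁) :
    D.down (D.up ((D.q + 1) • a - D.T b, (D.q + 1) • b - D.T a)) = (D.det a, D.det b) := by
  rw [down_up]
  refine Prod.ext ?_ ?_
  · change (D.q + 1) • ((D.q + 1) • a - D.T b) + D.T ((D.q + 1) • b - D.T a) = D.det a
    rw [det_apply, map_sub, map_nsmul, smul_sub, smul_smul, ← sq]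
    abel
  · change D.T ((D.q + 1) • a - D.T b) + (D.q + 1) • ((D.q + 1) • b - D.T a) = D.det b
    rw [det_apply, map_sub, map_nsmul, smul_sub, smul_smul, ← sq]
    abel

theorem adj_down_up (a b : N₁) :
    ((D.q + 1) • (D.down (D.up (a, b))).1 - D.T (D.down (D.up (a, b))).2,
      (D.q + 1) • (D.down (D.up (a, b))).2 - D.T (D.down (D.up (a, b))).1) =
      (D.det a, D.det b) := by
  rw [down_up]
  refine Prod.ext ?_ ?_
  · change (D.q + 1) • ((D.q + 1) • a + D.T b) - D.T (D.T a + (D.q + 1) • b) = D.det a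
    rw [det_apply, map_add, map_nsmul, smul_add, smul_smul, ← sq]
    abel
  · change (D.q + 1) • (D.T a + (D.q + 1) • b) - D.T ((D.q + 1) • a + D.T b) = D.det b
    rw [det_apply, map_add, map_nsmul, smul_add, smul_smul, ← sq]
    abel

theorem up_injective (h : Function.Injective D.det) : Function.Injective D.up := by
  rw [← LinearMap.ker_eq_bot, LinearMap.ker_eq_bot']
  rintro ⟨a, b⟩ hab
  have h1 := D.adj_down_up a b
  rw [hab, map_zero] at h1
  have h2 := Prod.mk.inj h1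
  simp only [Prod.fst_zero, Prod.snd_zero, smul_zero, map_zero, sub_zero] at h2
  have ha : a = 0 := h (h2.1.symm.trans (map_zero D.det).symm)
  have hb : b = 0 := h (h2.2.symm.trans (map_zero D.det).symm)
  rw [ha, hb]
  rfl

/-- **decomposition** into the old and the new part. -/
theorem isCompl (h : Function.Bijective D.det) :
    IsCompl (LinearMap.range D.up) (LinearMap.ker D.down) := by
  rw [isCompl_iff, disjoint_iff, codisjoint_iff]
  constructor
  · rw [Submodule.eq_bot_iff]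
    rintro x ⟨⟨⟨a, b⟩, rfl⟩, hx⟩
    have h0 : D.down (D.up (a, b)) = 0 := hx
    have h1 := D.adj_down_up a b
    rw [h0] at h1
    have h2 := Prod.mk.inj h1
    simp only [Prod.fst_zero, Prod.snd_zero, smul_zero, map_zero, sub_zero] at h2
    have ha : a = 0 := h.1 (h2.1.symm.trans (map_zero D.det).symm)
    have hb : b = 0 := h.1 (h2.2.symm.trans (map_zero D.det).symm)
    rw [ha, hb]
    exact map_zero D.up
  · rw [Submodule.eq_top_iff']
    intro x
    obtain ⟨a, ha⟩ := h.2 (D.down x).1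
    obtain ⟨b, hb⟩ := h.2 (D.down x).2
    have h1 := D.down_up_adj a b
    rw [ha, hb] at h1
    refine Submodule.mem_sup.mpr ⟨_, ⟨_, rfl⟩,
      x - D.up ((D.q + 1) • a - D.T b, (D.q + 1) • b - D.T a), ?_, add_sub_cancel _ _⟩
    rw [LinearMap.mem_ker, map_sub, h1, sub_self]

/-- If there is no new part then the degeneracy maps are an isomorphism. -/
theorem up_bijective (h : Function.Bijective D.det) (hnew : ∀ x, D.down x = 0 → x = 0) :
    Function.Bijective D.up := by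
  refine ⟨D.up_injective h.1, LinearMap.range_eq_top.mp ?_⟩
  have h1 := D.isCompl h
  have h2 : LinearMap.ker D.down = ⊥ := LinearMap.ker_eq_bot'.mpr hnew
  rw [h2] at h1
  exact h1.sup_eq_top.symm.trans (by simp) |>.symm

theorem down_bijective (h : Function.Bijective D.det) (hnew : ∀ x, D.down x = 0 → x = 0) :
    Function.Bijective D.down := by
  refine ⟨LinearMap.ker_eq_bot.mp (LinearMap.ker_eq_bot'.mpr hnew), ?_⟩
  rintro ⟨c, d⟩
  obtain ⟨a, ha⟩ := h.2 c
  obtain ⟨b, hb⟩ := h.2 d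
  exact ⟨_, by rw [D.down_up_adj a b, ha, hb]⟩

variable (𝔪 : Ideal B) [𝔪.IsPrime]

/-- localised degeneracy data -/
def loc : DegData B (Loc 𝔪 N₁) (Loc 𝔪 N₂) where
  I := Loc.map 𝔪 D.I
  W := Loc.map 𝔪 D.W
  J := Loc.map 𝔪 D.J
  T := Loc.map 𝔪 D.T
  q := D.q
  JI x := by
    have h1 : D.J ∘ₗ D.I = (D.q + 1) • LinearMap.id := LinearMap.ext D.JI
    rw [← LinearMap.comp_apply, ← Loc.map_comp, h1]
    have h2 : Loc.map 𝔪 ((D.q + 1) • (LinearMap.id : N₁ →ₗ[B] N₁)) =
        (D.q + 1) • Loc.map 𝔪 (LinearMap.id : N₁ →ₗ[B] N₁) := map_nsmul (Loc.mapLin 𝔪) _ _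
    rw [h2, Loc.map_id]
    rfl
  JWI x := by
    have h1 : D.J ∘ₗ D.W ∘ₗ D.I = D.T := LinearMap.ext D.JWI
    rw [← h1, Loc.map_comp, Loc.map_comp]
    rfl
  WW x := by
    have h1 : D.W ∘ₗ D.W = LinearMap.id := LinearMap.ext D.WW
    rw [← LinearMap.comp_apply, ← Loc.map_comp, h1, Loc.map_id]
    rfl

end DegData

end Algebra

section

variable {m n q M : ℕ} {R : Type} [CommRing R] {V : Type} [AddCommGroup V] [Module R V]
  (ρ : Representation R (Gp M) V)

/-- The degeneracy data of the levels `Γ₀(n)` and `Γ₀(nq)`. -/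
def degData (hq : q.Prime) (h : q.Coprime n) (hqM : q.Coprime M) (hn : n ∣ m) (hnq : n * q ∣ m)
    (hM : M ∣ m) (hρ : ρ (scal hq hqM) = 1) :
    DegData (TPoly m R) ((Stg.gamma0 n hn hM).H ρ) ((Stg.gamma0 (n * q) hnq hM).H ρ) where
  I := Stg.polyLin ((cI n q M).map ρ) fun l x =>
    I_T ρ l.2.1 (l.coprime hnq) (l.coprime hM) x
  W := Stg.polyLin ((cW hq h hqM).map ρ) fun l x =>
    W_T ρ hq h hqM l.2.1 (l.coprime hnq) (l.coprime hM) x
  J := Stg.polyLin ((cJ hq h M).map ρ) fun l x =>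
    J_T ρ hq h l.2.1 (l.coprime hnq) (l.coprime hM) x
  T := Stg.polyLin (((Lvl.gamma0 n).corrT M hq hqM (Lvl.ok_gamma0 h)).map ρ) fun l x =>
    (Lvl.gamma0 n).corrT_comm ρ hq hqM (Lvl.ok_gamma0 h) l.2.1 (l.coprime hM)
      (Lvl.ok_gamma0 (l.coprime hn)) x
  q := q
  JI := J_I ρ hq h
  JWI := J_W_I ρ hq h hqM
  WW := W_W ρ hq h hqM hρ

end

end Fermat.Agent.TWDeg

end
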