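import Fermat.Agent.TWDeg.EigSp
import Fermat.Agent.LocEll.Final

/-!
# The local statement at primes dividing the level once
-/

set_option autoImplicit false
set_option linter.unusedSectionVars false

noncomputable section

namespace Fermat.Agent.TWDeg

open HeckeHom ModularCurve.Period CongruenceSubgroup IsLocalRing
  Fermat.Agent.DefRing
open scoped MatrixGroups

section LocNew

theorem finrank_VE {E : Type} [Field E] {n m m' : ℕ} (a : ℕ → E)
    (h : ∀ s : ℕ, s.Prime → (s ∣ m ↔ s ∣ m')) :
    Module.finrank E (LocEll.VE E n m' a) = Module.finrank E (eigSp E m n a) := by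
  have h1 : (LocEll.VE E n m' a).map (parabolicHoms E (Gamma0 n) E).subtype = eigSp E m n a := by
    ext φ
    constructor
    · rintro ⟨ψ, hψ, rfl⟩
      exact ⟨ψ.2, fun s hs hsn hsm => (LocEll.mem_VE.mp hψ) s hs hsn fun h' =>
        hsm ((h s hs).mpr h')⟩
    · rintro ⟨h1, h2⟩
      exact ⟨⟨φ, h1⟩, LocEll.mem_VE.mpr fun s hs hsn hsm => h2 s hs hsn fun h' =>
        hsm ((h s hs).mp h'), rfl⟩
  rw [← h1]
  exact (LinearEquiv.finrank_eq (Submodule.equivMapOfInjective _
    (Submodule.injective_subtype _) _)).symm.symm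

/-- [LOC-new] -/
theorem locNew : LocNew := by
  intro p hp m n l hn hm hpm hnm hl hln hlp E _ _ _ a A _ _ _ _ _ _ hpA ι hι r hr htr hdim B hB τ
    hτ
  have hiff : ∀ s : ℕ, s.Prime → (s ∣ m ↔ s ∣ m * (n * l * p)) := by
    intro s hs
    refine ⟨fun h => h.mul_right _, fun h => ?_⟩
    rcases (Nat.Prime.dvd_mul hs).mp h with h | h
    · exact h
    · rcases (Nat.Prime.dvd_mul hs).mp h with h | h
      · exact hnm s hs h
      · exact h.trans hpm
  have hm' : m * (n * l * p) ≠ 0 := mul_ne_zero hm (mul_ne_zero (mul_ne_zero (NeZero.ne n)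
    hl.ne_zero) hp.out.ne_zero)
  rw [← finrank_VE a hiff, ← finrank_VE a hiff] at hdim
  exact LocEll.loc_new hpA ι hι hl hlp hln hm' (dvd_mul_left _ _) a hdim r hr
    (fun s hs hsm => by
      intro A hA τ hτ
      exact (htr s hs (fun h => hsm ((hiff s hs).mp h)) A hA τ hτ).1) hB hτ

end LocNew

end Fermat.Agent.TWDeg

end
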