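import Fermat.Agent.TWDeg.Twist
import Fermat.Agent.TWDeg.EigSp
import Fermat.Agent.ZTqb.Final

/-!
# Dimensions of eigenspaces of levels `n` and `n l`
-/

set_option autoImplicit false
set_option linter.unusedSectionVars false

noncomputable section

namespace Fermat.Agent.TWDeg

open Fermat.Agent.TW HeckeHom ModularCurve.Period CongruenceSubgroup
open scoped MatrixGroups



section Shap

variable {D : Type} [CommGroup D] {W : TWD D} {t : ℕ → LT} {e : ℕ} (S : W.Shap t e)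
  {m : ℕ} (hM : W.M ∣ m) {O E : Type} [CommRing O] [Field E] [Algebra O E]

/-- eigenvectors, possibly zero -/
def IsE {M : ℕ} (hM : M ∣ m) {Y : Type} [MulAction (GL (Fin 2) (ZMod M)) Y]
    (χ : TPoly m O →ₐ[O] E) (x : (XF hM).H (funRep (M := M) O E Y)) : Prop :=
  ∀ t : TPoly m O, t • x = eAct (XF hM) (χ t) x

theorem equiv_eAct (c : E) (x : (XF hM).H (funRep (M := W.M) O E (W.Yt t))) :
    S.equiv hM O E (eAct (XF hM) c x) = c • S.equiv hM O E x := by
  obtain ⟨f, rfl⟩ := (XF hM).mk_surj x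
  rfl

theorem equiv_symm_smul (c : E) (φ : Additive (Gamma0 (e * W.dd)) →+ E) :
    (S.equiv hM O E).symm (c • φ) = eAct (XF hM) c ((S.equiv hM O E).symm φ) := by
  rw [LinearEquiv.symm_apply_eq, equiv_eAct, LinearEquiv.apply_symm_apply]

/-- the eigenvalues -/
def avec (χ : TPoly m O →ₐ[O] E) (s : ℕ) : E :=
  open scoped Classical in
  if h : s.Prime ∧ ¬ s ∣ m then χ (MvPolynomial.X ⟨s, h⟩) else 0

theorem avec_coe (χ : TPoly m O →ₐ[O] E) (s : Pr m) : avec χ s = χ (MvPolynomial.X s) := by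
  rw [avec, dif_pos s.2]

variable (χ : TPoly m O →ₐ[O] E) [CharZero E] {l₀ : Pr m} (hl₀ : ((l₀ : ℕ) : ZMod W.M) = 1)
  (hχ : χ (eis O l₀) ≠ 0) (hnm : ∀ q : ℕ, q.Prime → q ∣ e * W.dd → q ∣ m)

include hnm hl₀ hχ in
theorem mem_eigSp_iff (x : (XF hM).H (funRep (M := W.M) O E (W.Yt t))) :
    S.equiv hM O E x ∈ eigSp E m (e * W.dd) (avec χ) ↔ IsE hM χ x := by
  rw [mem_eigSp]
  constructor
  · rintro ⟨-, h⟩ p
    induction p using MvPolynomial.induction_on with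
    | C a =>
      rw [C_smul_eq]
      exact congrArg (fun c => eAct (XF hM) c x) (χ.commutes a).symm
    | add p q hp hq =>
      rw [add_smul, hp, hq, map_add]
      exact (congrArg (fun f => f x) (map_add (eRing (XF hM) (O := O) (E := E) (Y := W.Yt t))
        (χ p) (χ q))).symm
    | mul_X p s hp =>
      have h1 : (MvPolynomial.X s : TPoly m O) • x = eAct (XF hM) (χ (MvPolynomial.X s)) x := by
        apply (S.equiv hM O E).injective
        have hsn : ¬ (s : ℕ) ∣ e * W.dd := fun h => s.2.2 (hnm _ s.2.1 h)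
        rw [equiv_eAct, Stg.X_smul, S.equiv_T hM O E s hsn, ← avec_coe]
        exact h s s.2.1 hsn s.2.2
      rw [mul_smul, h1, ← map_smul, hp, map_mul, mul_comm]
      exact (congrArg (fun f => f x) (map_mul (eRing (XF hM) (O := O) (E := E) (Y := W.Yt t))
        (χ (MvPolynomial.X s)) (χ p))).symm
  · intro h
    refine ⟨?_, fun s hs hsn hsm => ?_⟩
    · have h1 := S.parabolic hM O E (fun n a hn h => by
        rw [nsmul_eq_mul, mul_eq_zero, Nat.cast_eq_zero] at h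
        exact h.resolve_left hn) l₀ hl₀ x
      have h2 : (XF hM).T _ l₀ x - ((l₀ : ℕ) + 1) • x = eAct (XF hM) (χ (eis O l₀)) x := by
        rw [← h (eis O l₀), sub_smul, Stg.X_smul, Stg.C_smul, ← Nat.cast_succ,
          Nat.cast_smul_eq_nsmul]
      rw [h2, equiv_eAct] at h1
      have h3 : χ (eis O l₀) • S.equiv hM O E x ∈ parabolicHoms E (Gamma0 (e * W.dd)) E := h1
      have h4 := Submodule.smul_mem _ (χ (eis O l₀))⁻¹ h3
      rwa [smul_smul, inv_mul_cancel₀ hχ, one_smul] at h4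
    · have h1 := S.equiv_T hM O E ⟨s, hs, hsm⟩ hsn x
      rw [← h1, ← Stg.X_smul, h, equiv_eAct]
      exact congrArg (fun c => c • S.equiv hM O E x) (avec_coe χ ⟨s, hs, hsm⟩).symm

end Shap

section Aux

theorem dim_aux {E V₁ V₂ : Type} [Field E] [AddCommGroup V₁] [Module E V₁] [AddCommGroup V₂]
    [Module E V₂] [FiniteDimensional E V₁] [FiniteDimensional E V₂] (A : Submodule E V₁)
    (B : Submodule E V₂) (det : V₁ →ₗ[E] V₁) (down : V₂ →ₗ[E] V₁ × V₁)
    (hdet : ∀ x ∈ A, det x ∈ A) (hinj : ∀ x ∈ A, det x = 0 → x = 0)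
    (hd : ∀ x ∈ B, (down x).1 ∈ A ∧ (down x).2 ∈ A)
    (hup : ∀ a ∈ A, ∀ b ∈ A, ∃ z ∈ B, down z = (det a, det b))
    (hker : ∃ v ∈ B, v ≠ 0 ∧ down v = 0) :
    2 * Module.finrank E A < Module.finrank E B := by
  have hsurj : ∀ φ ∈ A, ∃ ψ ∈ A, det ψ = φ := by
    let dd : A →ₗ[E] A := det.restrict hdet
    have hinj : Function.Injective dd := by
      refine (injective_iff_map_eq_zero dd).mpr fun φ hφ => ?_
      exact Subtype.ext (hinj φ.1 φ.2 (congrArg Subtype.val hφ))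
    intro φ hφ
    obtain ⟨ψ, hψ⟩ := (LinearMap.injective_iff_surjective (f := dd)).mp hinj ⟨φ, hφ⟩
    exact ⟨ψ.1, ψ.2, congrArg Subtype.val hψ⟩
  let f : B →ₗ[E] A × A :=
    ((LinearMap.fst E V₁ V₁ ∘ₗ down).restrict (fun x hx => (hd x hx).1)).prod
      ((LinearMap.snd E V₁ V₁ ∘ₗ down).restrict (fun x hx => (hd x hx).2))
  have hf : Function.Surjective f := by
    rintro ⟨⟨c, hc⟩, ⟨d, hd'⟩⟩
    obtain ⟨a, ha, ha2⟩ := hsurj c hc
    obtain ⟨b, hb, hb2⟩ := hsurj d hd'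
    obtain ⟨z, hz, hz2⟩ := hup a ha b hb
    rw [ha2, hb2] at hz2
    exact ⟨⟨z, hz⟩, Prod.ext (Subtype.ext (congrArg Prod.fst hz2))
      (Subtype.ext (congrArg Prod.snd hz2))⟩
  have hk : 0 < Module.finrank E (LinearMap.ker f) := by
    obtain ⟨v, hv, hv0, hvd⟩ := hker
    have hvk : (⟨v, hv⟩ : B) ∈ LinearMap.ker f := by
      rw [LinearMap.mem_ker]
      exact Prod.ext (Subtype.ext (congrArg Prod.fst hvd)) (Subtype.ext (congrArg Prod.snd hvd))
    have : Nontrivial (LinearMap.ker f) := ⟨⟨_, hvk⟩, 0, fun h => hv0 (congrArg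
      (fun z : LinearMap.ker f => ((z.1 : B) : V₂)) h)⟩
    exact Module.finrank_pos
  have h3 := LinearMap.finrank_range_add_finrank_ker f
  have h4 : Module.finrank E (LinearMap.range f) = 2 * Module.finrank E A := by
    rw [LinearMap.range_eq_top.mpr hf, finrank_top, Module.finrank_prod, two_mul]
  omega

end Aux

section Dim

variable {D : Type} [CommGroup D] (W : TWD D) {l : ℕ} (hl : l.Prime) (hlQ : l ∉ W.Q)
  {m : ℕ} (hM : W.M ∣ m) (hM' : (raise W hl hlQ).M ∣ m) (hlN : ¬ l ∣ W.N)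
  {O E : Type} [CommRing O] [Field E] [Algebra O E]

/-- the degeneracy data at torus level -/
abbrev DT (O E : Type) [CommRing O] [Field E] [Algebra O E] :=
  degTW W hl hlQ O E (fun _ => .tor) hM hM' hlN

theorem DT_eAct (c : E) : DegHom (DT W hl hlQ hM hM' hlN O E) (DT W hl hlQ hM hM' hlN O E)
    (eAct (XF hM) c) (eAct (XF hM') c) :=
  degTW_coef W hl hlQ hM hM' hlN (fun _ => .tor) (LinearMap.mulLeft O c)

/-- Shapiro at level `N` -/
abbrev q₁ (O E : Type) [CommRing O] [Field E] [Algebra O E] :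
    (XF hM).H (funRep (M := W.M) O E (W.Yt fun _ => .tor)) ≃ₗ[O]
      (Additive (Gamma0 (W.N * W.dd * W.dd)) →+ E) := W.shap_tor.equiv hM O E

/-- Shapiro at level `N l` -/
abbrev q₂ (O E : Type) [CommRing O] [Field E] [Algebra O E] :
    (XF hM').H (funRep (M := (raise W hl hlQ).M) O E ((raise W hl hlQ).Yt fun _ => .tor)) ≃ₗ[O]
      (Additive (Gamma0 (W.N * l * W.dd * W.dd)) →+ E) :=
  (raise W hl hlQ).shap_tor.equiv hM' O E

/-- the trace maps on homomorphisms -/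
def downE (O E : Type) [CommRing O] [Field E] [Algebra O E] :
    (Additive (Gamma0 (W.N * l * W.dd * W.dd)) →+ E) →ₗ[E]
      (Additive (Gamma0 (W.N * W.dd * W.dd)) →+ E) ×
      (Additive (Gamma0 (W.N * W.dd * W.dd)) →+ E) where
  toFun φ := (q₁ W hM O E ((DT W hl hlQ hM hM' hlN O E).down
      ((q₂ W hl hlQ hM' O E).symm φ)).1,
    q₁ W hM O E ((DT W hl hlQ hM hM' hlN O E).down ((q₂ W hl hlQ hM' O E).symm φ)).2)
  map_add' φ ψ := by
    rw [map_add, map_add, Prod.fst_add, Prod.snd_add, map_add, map_add]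
    rfl
  map_smul' c φ := by
    have h1 := equiv_symm_smul (raise W hl hlQ).shap_tor hM' (O := O) c φ
    have h2 := (DT_eAct W hl hlQ hM hM' hlN (O := O) c).down ((q₂ W hl hlQ hM' O E).symm φ)
    have h3 := equiv_eAct W.shap_tor hM (O := O) c
    refine Prod.ext ?_ ?_
    · refine (congrArg (fun z => q₁ W hM O E ((DT W hl hlQ hM hM' hlN O E).down z).1) h1).trans ?_
      refine (congrArg (fun z => q₁ W hM O E (Prod.fst z)) h2).trans (h3 _)
    · refine (congrArg (fun z => q₁ W hM O E ((DT W hl hlQ hM hM' hlN O E).down z).2) h1).trans ?_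
      refine (congrArg (fun z => q₁ W hM O E (Prod.snd z)) h2).trans (h3 _)

/-- the determinant on homomorphisms -/
def detE (O E : Type) [CommRing O] [Field E] [Algebra O E] :
    (Additive (Gamma0 (W.N * W.dd * W.dd)) →+ E) →ₗ[E]
      (Additive (Gamma0 (W.N * W.dd * W.dd)) →+ E) where
  toFun φ := q₁ W hM O E ((DT W hl hlQ hM hM' hlN O E).det ((q₁ W hM O E).symm φ))
  map_add' φ ψ := by rw [map_add, map_add, map_add]
  map_smul' c φ := by
    have h1 := equiv_symm_smul W.shap_tor hM (O := O) c φ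
    have h2 := (DT_eAct W hl hlQ hM hM' hlN (O := O) c).det ((q₁ W hM O E).symm φ)
    rw [h1, h2, equiv_eAct]
    rfl

include hl hlQ hlN in
theorem not_dvd_n : ¬ l ∣ W.N * W.dd * W.dd := by
  have h1 : ¬ l ∣ W.dd := fun h =>
    (Nat.Prime.coprime_iff_not_dvd hl).mp (coprime_M W hl hlQ hlN)
      (h.trans (Dvd.intro_left W.N rfl))
  intro h
  rcases (Nat.Prime.dvd_mul hl).mp h with h | h
  · rcases (Nat.Prime.dvd_mul hl).mp h with h | h
    · exact hlN h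
    · exact h1 h
  · exact h1 h

theorem q₁_T (x : (XF hM).H (funRep (M := W.M) O E (W.Yt fun _ => .tor))) :
    q₁ W hM O E ((DT W hl hlQ hM hM' hlN O E).T x) =
      heckeHom hl (not_dvd_n W hl hlQ hlN) E (q₁ W hM O E x) := by
  have h1 := degTW_T W hl hlQ O E (fun _ => .tor) hM hM' hlN x
  have hlM : ¬ l ∣ W.M := (Nat.Prime.coprime_iff_not_dvd hl).mp (coprime_M W hl hlQ hlN)
  have h2 := W.shap_tor.equiv_T (dvd_refl W.M) O E ⟨l, hl, hlM⟩ (not_dvd_n W hl hlQ hlN) x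
  rw [h1]
  exact h2

theorem detE_eq (φ : Additive (Gamma0 (W.N * W.dd * W.dd)) →+ E) :
    detE W hl hlQ hM hM' hlN O E φ = ((l + 1) ^ 2 : ℕ) • φ -
      heckeHom hl (not_dvd_n W hl hlQ hlN) E (heckeHom hl (not_dvd_n W hl hlQ hlN) E φ) := by
  obtain ⟨x, rfl⟩ := (q₁ W hM O E).surjective φ
  change q₁ W hM O E ((DT W hl hlQ hM hM' hlN O E).det ((q₁ W hM O E).symm _)) = _
  rw [LinearEquiv.symm_apply_apply, DegData.det_apply, map_sub, map_nsmul, q₁_T, q₁_T]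
  rfl

variable [CharZero E] [NeZero (W.N * W.dd * W.dd)] (hES : ES (W.N * W.dd * W.dd))

include hES in
theorem detE_injective (φ : Additive (Gamma0 (W.N * W.dd * W.dd)) →+ E)
    (hφ : φ ∈ parabolicHoms E (Gamma0 (W.N * W.dd * W.dd)) E)
    (h : detE W hl hlQ hM hM' hlN O E φ = 0) : φ = 0 := by
  rw [detE_eq, sub_eq_zero] at h
  have h1 := ZTqb.injective hl (not_dvd_n W hl hlQ hlN) hES E ⟨φ, hφ⟩ (by
    rw [← h]
    have e1 : ((l : E) + 1) ^ 2 = (((l + 1) ^ 2 : ℕ) : E) := by push_cast; ring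
    rw [e1, Nat.cast_smul_eq_nsmul])
  exact congrArg Subtype.val h1

theorem IsE.map {X₁ X₂ : Type} {M₁ M₂ : ℕ} {h₁ : M₁ ∣ m} {h₂ : M₂ ∣ m}
    [MulAction (GL (Fin 2) (ZMod M₁)) X₁] [MulAction (GL (Fin 2) (ZMod M₂)) X₂]
    {χ : TPoly m O →ₐ[O] E} {x : (XF h₁).H (funRep (M := M₁) O E X₁)} (hx : IsE h₁ χ x)
    (f : (XF h₁).H (funRep (M := M₁) O E X₁) →ₗ[TPoly m O] (XF h₂).H (funRep (M := M₂) O E X₂))
    (hf : ∀ c x, f (eAct (XF h₁) c x) = eAct (XF h₂) c (f x)) : IsE h₂ χ (f x) := fun t => by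
  rw [← map_smul, hx t, hf]

theorem IsE.add' {X₁ : Type} {M₁ : ℕ} {h₁ : M₁ ∣ m} [MulAction (GL (Fin 2) (ZMod M₁)) X₁]
    {χ : TPoly m O →ₐ[O] E} {x y : (XF h₁).H (funRep (M := M₁) O E X₁)} (hx : IsE h₁ χ x)
    (hy : IsE h₁ χ y) : IsE h₁ χ (x + y) := fun t => by
  rw [smul_add, map_add, hx, hy]

theorem IsE.sub' {X₁ : Type} {M₁ : ℕ} {h₁ : M₁ ∣ m} [MulAction (GL (Fin 2) (ZMod M₁)) X₁]
    {χ : TPoly m O →ₐ[O] E} {x y : (XF h₁).H (funRep (M := M₁) O E X₁)} (hx : IsE h₁ χ x)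
    (hy : IsE h₁ χ y) : IsE h₁ χ (x - y) := fun t => by
  rw [smul_sub, map_sub, hx, hy]

theorem IsE.nsmul' {X₁ : Type} {M₁ : ℕ} {h₁ : M₁ ∣ m} [MulAction (GL (Fin 2) (ZMod M₁)) X₁]
    {χ : TPoly m O →ₐ[O] E} {x : (XF h₁).H (funRep (M := M₁) O E X₁)} (hx : IsE h₁ χ x)
    (n : ℕ) : IsE h₁ χ (n • x) := fun t => by
  rw [smul_comm, map_nsmul, hx]

variable (χ : TPoly m O →ₐ[O] E) {l₀ : Pr m} (hl₀ : ((l₀ : ℕ) : ZMod (raise W hl hlQ).M) = 1)
  (hχ : χ (eis O l₀) ≠ 0)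
  (hnm : ∀ q : ℕ, q.Prime → q ∣ W.N * l * W.dd * W.dd → q ∣ m)

include hl₀ in
theorem hl₀' : ((l₀ : ℕ) : ZMod W.M) = 1 := by
  have h1 : W.M ∣ (raise W hl hlQ).M := ⟨l, raise_M W hl hlQ⟩
  have h2 := congrArg (ZMod.castHom h1 (ZMod W.M)) hl₀
  rwa [map_natCast, map_one] at h2

include hnm in
theorem hnm₁ : ∀ q : ℕ, q.Prime → q ∣ W.N * W.dd * W.dd → q ∣ m := fun q hq h =>
  hnm q hq (h.trans ⟨l, by ring⟩)

include hl₀ hχ hnm hES in
/-- **The dimension inequality.** -/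
theorem dim_lt (v : (XF hM').H (funRep (M := (raise W hl hlQ).M) O E
      ((raise W hl hlQ).Yt fun _ => .tor))) (hv : IsEig hM' v χ)
    (hd : (DT W hl hlQ hM hM' hlN O E).down v = 0) :
    2 * Module.finrank E (eigSp E m (W.N * W.dd * W.dd) (avec χ)) <
      Module.finrank E (eigSp E m (W.N * l * W.dd * W.dd) (avec χ)) := by
  have : NeZero (W.N * l * W.dd * W.dd) := ⟨by
    have h1 : W.N * W.dd * W.dd ≠ 0 := NeZero.ne _
    have h2 : W.N * l * W.dd * W.dd = W.N * W.dd * W.dd * l := by ring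
    rw [h2]
    exact mul_ne_zero h1 hl.ne_zero⟩
  let D := DT W hl hlQ hM hM' hlN O E
  have hN := fun c => DT_eAct W hl hlQ hM hM' hlN (O := O) (E := E) c
  have hl₁ := hl₀' W hl hlQ hl₀
  have hnm' := hnm₁ W hnm
  have m₁ := mem_eigSp_iff W.shap_tor hM χ hl₁ hχ hnm'
  have m₂ := mem_eigSp_iff (raise W hl hlQ).shap_tor hM' χ hl₀ hχ hnm
  -- the maps are compatible with eigenvectors
  have e1 : ∀ x, IsE hM' χ x → IsE hM χ (D.down x).1 := fun x hx =>
    hx.map (LinearMap.fst _ _ _ ∘ₗ D.down) fun c x => congrArg Prod.fst ((hN c).down x)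
  have e2 : ∀ x, IsE hM' χ x → IsE hM χ (D.down x).2 := fun x hx =>
    hx.map (LinearMap.snd _ _ _ ∘ₗ D.down) fun c x => congrArg Prod.snd ((hN c).down x)
  have eT : ∀ x, IsE hM χ x → IsE hM χ (D.T x) := fun x hx =>
    hx.map D.T fun c x => (hN c).T x
  have eI : ∀ x, IsE hM χ x → IsE hM' χ (D.I x) := fun x hx =>
    hx.map D.I fun c x => (hN c).I x
  have eW : ∀ x, IsE hM' χ x → IsE hM' χ (D.W x) := fun x hx =>
    hx.map D.W fun c x => (hN c).W x
  have eup : ∀ x y, IsE hM χ x → IsE hM χ y → IsE hM' χ (D.up (x, y)) := fun x y hx hy =>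
    (eI x hx).add' (eW _ (eI y hy))
  have edet : ∀ x, IsE hM χ x → IsE hM χ (D.det x) := fun x hx =>
    (hx.nsmul' _).sub' (eT _ (eT _ hx))
  have hdd : ∀ x, detE W hl hlQ hM hM' hlN O E (q₁ W hM O E x) = q₁ W hM O E (D.det x) := by
    intro x
    change q₁ W hM O E (D.det ((q₁ W hM O E).symm _)) = _
    rw [LinearEquiv.symm_apply_apply]
  have hdw : ∀ x, downE W hl hlQ hM hM' hlN O E (q₂ W hl hlQ hM' O E x) =
      (q₁ W hM O E (D.down x).1, q₁ W hM O E (D.down x).2) := by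
    intro x
    change (q₁ W hM O E (D.down ((q₂ W hl hlQ hM' O E).symm _)).1,
      q₁ W hM O E (D.down ((q₂ W hl hlQ hM' O E).symm _)).2) = _
    rw [LinearEquiv.symm_apply_apply]
  refine dim_aux (eigSp E m (W.N * W.dd * W.dd) (avec χ))
    (eigSp E m (W.N * l * W.dd * W.dd) (avec χ)) (detE W hl hlQ hM hM' hlN O E)
    (downE W hl hlQ hM hM' hlN O E) ?_ ?_ ?_ ?_ ?_
  · intro φ hφ
    obtain ⟨x, rfl⟩ := (q₁ W hM O E).surjective φ
    rw [hdd]
    exact (m₁ _).mpr (edet _ ((m₁ x).mp hφ))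
  · intro φ hφ h
    exact detE_injective W hl hlQ hM hM' hlN (O := O) hES φ hφ.1 h
  · intro φ hφ
    obtain ⟨x, rfl⟩ := (q₂ W hl hlQ hM' O E).surjective φ
    have hx := (m₂ x).mp hφ
    rw [hdw]
    exact ⟨(m₁ _).mpr (e1 _ hx), (m₁ _).mpr (e2 _ hx)⟩
  · intro a ha b hb
    obtain ⟨x, rfl⟩ := (q₁ W hM O E).surjective a
    obtain ⟨y, rfl⟩ := (q₁ W hM O E).surjective b
    have hx := (m₁ x).mp ha
    have hy := (m₁ y).mp hb
    refine ⟨q₂ W hl hlQ hM' O E (D.up ((D.q + 1) • x - D.T y, (D.q + 1) • y - D.T x)),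
      (m₂ _).mpr (eup _ _ ((hx.nsmul' _).sub' (eT _ hy)) ((hy.nsmul' _).sub' (eT _ hx))), ?_⟩
    rw [hdw, D.down_up_adj x y, hdd, hdd]
  · refine ⟨q₂ W hl hlQ hM' O E v, (m₂ v).mpr hv.eig, fun h => hv.ne ?_, ?_⟩
    · exact (LinearEquiv.map_eq_zero_iff _).mp h
    · rw [hdw, hd]
      exact Prod.ext (map_zero _) (map_zero _)

end Dim

end Fermat.Agent.TWDeg

end
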