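import Fermat.Agent.TWDeg.EigTW
import Fermat.Agent.S22

/-!
# Eigensystems in the cohomology of Taylor-Wiles levels
-/

set_option autoImplicit false
set_option linter.unusedSectionVars false

noncomputable section

namespace Fermat.Agent.TWDeg

open Fermat.Agent.TW HeckeHom
open scoped MatrixGroups

section

variable {m M : ℕ} {hM : M ∣ m} {O E Y : Type} [CommRing O] [Field E]
  [Algebra O E] [MulAction (GL (Fin 2) (ZMod M)) Y]

/-- eigenvectors -/
structure IsEig (hM : M ∣ m) (v : (XF hM).H (funRep (M := M) O E Y)) (χ : TPoly m O →ₐ[O] E) :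
    Prop where
  ne : v ≠ 0
  eig : ∀ t : TPoly m O, t • v = eAct (XF hM) (χ t) v

theorem eAct_ne {e : E} (he : e ≠ 0) {v : (XF hM).H (funRep (M := M) O E Y)} (hv : v ≠ 0) :
    eAct (XF hM) e v ≠ 0 := by
  intro h
  have h1 : eRing (XF hM) (e⁻¹ * e) v = 0 := by
    rw [map_mul, Module.End.mul_apply]
    change eRing (XF hM) e⁻¹ (eAct (XF hM) e v) = 0
    rw [h, map_zero]
  rw [inv_mul_cancel₀ he, map_one] at h1
  exact hv h1

namespace IsEig

variable {v : (XF hM).H (funRep (M := M) O E Y)} {χ : TPoly m O →ₐ[O] E} (h : IsEig hM v χ)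

include h

theorem eq_zero {t : TPoly m O} (ht : t • v = 0) : χ t = 0 := by
  by_contra hne
  rw [h.eig] at ht
  exact eAct_ne hne h.ne ht

theorem rel {l : Pr m} (hl : χ (eis O l) ≠ 0) {k : ℕ} {p : TPoly m O}
    (hp : (eis O l ^ k * p) • v = 0) : χ p = 0 := by
  have h1 := h.eq_zero hp
  rw [map_mul, map_pow] at h1
  exact (mul_eq_zero.mp h1).resolve_left (pow_ne_zero _ hl)

end IsEig

end

section Hecke

variable {m n : ℕ} [NeZero n] (hnm : ∀ q : ℕ, q.Prime → q ∣ n → q ∣ m) {O E : Type} [CommRing O]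
  [Field E] [Algebra O E] (χ : TPoly m O →ₐ[O] E)
  (hχ : ∀ p : TPoly m ℤ, polyHecke hnm p = 0 → χ (TWD.Shap.pz m O p) = 0)

include hχ in
/-- the character of the Hecke algebra -/
theorem exists_char : ∃ φ : CuspForm.heckeAlgebra n 2 (SS m) →+* E,
    ∀ p : TPoly m ℤ, φ (polyHecke hnm p) = χ (TWD.Shap.pz m O p) := by
  let f : TPoly m ℤ →+* E := (χ : TPoly m O →+* E).comp (TWD.Shap.pz m O)
  have hs : Function.Surjective (polyHecke (m := m) (n := n) hnm : TPoly m ℤ →+*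
    CuspForm.heckeAlgebra n 2 (SS m)) := polyHecke_surjective hnm
  have hk : RingHom.ker (polyHecke (m := m) (n := n) hnm : TPoly m ℤ →+*
    CuspForm.heckeAlgebra n 2 (SS m)) ≤ RingHom.ker f := fun p hp => hχ p hp
  refine ⟨RingHom.liftOfSurjective _ hs ⟨f, hk⟩, fun p => ?_⟩
  exact RingHom.liftOfSurjective_comp_apply _ hs ⟨f, hk⟩ p

theorem integral_X (φ : CuspForm.heckeAlgebra n 2 (SS m) →+* E)
    (hφ : ∀ p : TPoly m ℤ, φ (polyHecke hnm p) = χ (TWD.Shap.pz m O p)) (l : Pr m) :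
    IsIntegral ℤ (χ (MvPolynomial.X l)) := by
  have hfin : Module.Finite ℤ (CuspForm.heckeAlgebra n 2 (SS m)) := S22.result n 2 (SS m)
  have h1 : IsIntegral ℤ (polyHecke (n := n) hnm (MvPolynomial.X l)) := IsIntegral.of_finite ℤ _
  have h2 := h1.map φ.toIntAlgHom
  have h3 : φ.toIntAlgHom (polyHecke (n := n) hnm (MvPolynomial.X l)) =
      χ (MvPolynomial.X l) := by
    change φ _ = _
    rw [hφ, MvPolynomial.map_X]
  rwa [h3] at h2

theorem integral_chi (φ : CuspForm.heckeAlgebra n 2 (SS m) →+* E)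
    (hφ : ∀ p : TPoly m ℤ, φ (polyHecke hnm p) = χ (TWD.Shap.pz m O p)) (t : TPoly m O) :
    IsIntegral O (χ t) := by
  induction t using MvPolynomial.induction_on with
  | C a =>
    have h1 : χ (MvPolynomial.C a) = algebraMap O E a := χ.commutes a
    rw [h1]
    exact isIntegral_algebraMap
  | add p q hp hq => rw [map_add]; exact hp.add hq
  | mul_X p l hp =>
    rw [map_mul]
    exact hp.mul (integral_X hnm χ φ hφ l).tower_top

end Hecke

section Rel

variable {D : Type} [CommGroup D] [Fintype D] (W : TWD D) {m : ℕ} (hM : W.M ∣ m)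
  (hnm : ∀ q : ℕ, q.Prime → q ∣ W.N * W.dd * W.dd → q ∣ m)
  {O E : Type} [CommRing O] [Field E] [Algebra O E] [CharZero E] [IsAlgClosed E]
  [NeZero (W.N * W.dd * W.dd)]

/-- relations over `E` at the Taylor-Wiles level -/
theorem rel_YQ_E (hES : ES (W.N * W.dd * W.dd)) (l : Pr m) (hl : ((l : ℕ) : ZMod W.M) = 1)
    (p : TPoly m ℤ) (hp : polyHecke hnm p = 0)
    (x : (XF hM).H (funRep (M := W.M) O E W.YQ)) :
    (eis O l ^ (W.Q.card + 1) * TWD.Shap.pz m O p) • x = 0 := by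
  have h1 := W.shap_tor.kill_E hM hnm O E hES p hp l hl
  have h2 := kill_chi W hM O E _ h1 l hl x
  rw [← h2]
  congr 1
  ring

theorem rel_tor_E (hES : ES (W.N * W.dd * W.dd)) (l : Pr m) (hl : ((l : ℕ) : ZMod W.M) = 1)
    (p : TPoly m ℤ) (hp : polyHecke hnm p = 0)
    (x : (XF hM).H (funRep (M := W.M) O E (W.Yt fun _ => .tor))) :
    (eis O l ^ 1 * TWD.Shap.pz m O p) • x = 0 := by
  have h1 := W.shap_tor.kill_E hM hnm O E hES p hp l hl x
  rw [← h1]
  congr 1
  ring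

theorem rel_bor_E [NeZero (W.N * W.dd)] (hnm' : ∀ q : ℕ, q.Prime → q ∣ W.N * W.dd → q ∣ m)
    (hES : ES (W.N * W.dd)) (l : Pr m) (hl : ((l : ℕ) : ZMod W.M) = 1)
    (p : TPoly m ℤ) (hp : polyHecke hnm' p = 0)
    (x : (XF hM).H (funRep (M := W.M) O E (W.Yt fun _ => .bor))) :
    (eis O l ^ 1 * TWD.Shap.pz m O p) • x = 0 := by
  have h1 := W.shap_bor.kill_E hM hnm' O E hES p hp l hl x
  rw [← h1]
  congr 1
  ring

end Rel

end Fermat.Agent.TWDeg

end
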