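import Fermat.Agent.TW.HMod
import Fermat.Agent.TWDeg.Chi
import Fermat.Agent.QuadRep.DVRExt

/-!
# `p`-adic points with values in an algebraically closed field and their Galois representations
-/

set_option autoImplicit false
set_option linter.unusedSectionVars false

noncomputable section

namespace Fermat.Agent.TWDeg

open IsLocalRing Fermat.Agent.TW Fermat.Agent.DefRing Polynomial

section TrEq

variable {A : Type} [CommRing A] [IsLocalRing A] [IsNoetherianRing A]

/-- **Traces of continuous representations agree if they do on Frobenius elements.** -/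
theorem trace_eq_of_frob_cont {r r' : GQ →* M2 A} (hc : MatCont A r) (hc' : MatCont A r')
    (S : Finset ℕ)
    (h : ∀ l : ℕ, l.Prime → l ∉ S → ∀ B : ValuationSubring (AlgebraicClosure ℚ),
      B.LiesOverPrime l → ∀ τ : GQ, B.IsFrobeniusAt τ l → (r τ).trace = (r' τ).trace) (σ : GQ) :
    (r σ).trace = (r' σ).trace := by
  have key : ∀ (ρ : GQ →* M2 A) (n : ℕ) (L : IntermediateField ℚ (AlgebraicClosure ℚ)),
      (∀ σ : GQ, (∀ x ∈ L, σ x = x) → ∀ i j, (ρ σ - 1) i j ∈ maximalIdeal A ^ n) →
      ∀ τ : GQ, (∀ x ∈ L, τ x = σ x) → (ρ σ).trace - (ρ τ).trace ∈ maximalIdeal A ^ n := by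
    intro ρ n L hL τ hτ
    have h1 := hL (σ⁻¹ * τ) (fun x hx => by
      rw [AlgEquiv.mul_apply, hτ x hx, ← AlgEquiv.mul_apply, inv_mul_cancel, AlgEquiv.one_apply])
    have h2 : ρ σ - ρ τ = - (ρ σ * (ρ (σ⁻¹ * τ) - 1)) := by
      rw [mul_sub, mul_one, ← map_mul, mul_inv_cancel_left]
      abel
    rw [← Matrix.trace_sub, h2, Matrix.trace_neg, neg_mem_iff, Matrix.trace]
    refine Ideal.sum_mem _ fun i _ => ?_
    rw [Matrix.diag_apply, Matrix.mul_apply]
    exact Ideal.sum_mem _ fun j _ => Ideal.mul_mem_left _ _ (h1 j i)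
  have hmem : (r σ).trace - (r' σ).trace ∈ (⨅ n : ℕ, maximalIdeal A ^ n : Ideal A) := by
    rw [Ideal.mem_iInf]
    intro n
    obtain ⟨L, hL, hL1⟩ := hc n
    obtain ⟨L', hL', hL1'⟩ := hc' n
    have hfin : FiniteDimensional ℚ (L ⊔ L' : IntermediateField ℚ (AlgebraicClosure ℚ)) :=
      inferInstance
    obtain ⟨l, hl, hlS, -, B, hB, τ, hτ, hτσ⟩ := Cheb.exists_frobenius_eq _ hfin σ S
    have h1 := key r n L hL1 τ fun x hx => hτσ x ((le_sup_left : L ≤ L ⊔ L') hx)
    have h2 := key r' n L' hL1' τ fun x hx => hτσ x ((le_sup_right : L' ≤ L ⊔ L') hx)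
    have h3 := h l hl hlS B hB τ hτ
    have h4 : (r σ).trace - (r' σ).trace =
        ((r σ).trace - (r τ).trace) - ((r' σ).trace - (r' τ).trace) := by
      rw [h3]; ring
    rw [h4]
    exact Ideal.sub_mem _ h1 h2
  rw [Ideal.iInf_pow_eq_bot_of_isLocalRing _ (Ideal.IsPrime.ne_top inferInstance)] at hmem
  exact sub_eq_zero.mp hmem

end TrEq

/-- A complete discrete valuation ring, finite over `O`, embedded in `E`. -/
structure EPt (O E : Type) [CommRing O] [Field E] [Algebra O E] : Type 1 where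
  /-- the ring -/
  A : Type
  [commRing : CommRing A]
  [isDomain : IsDomain A]
  [isDVR : IsDiscreteValuationRing A]
  [isAdicComplete : IsAdicComplete (maximalIdeal A) A]
  [finiteResidueField : Finite (ResidueField A)]
  [charZero : CharZero A]
  [algebra : Algebra O A]
  [finite : Module.Finite O A]
  [isLocalHom : IsLocalHom (algebraMap O A)]
  /-- the embedding -/
  ι : A →ₐ[O] E
  inj : Function.Injective ι

attribute [instance] EPt.commRing EPt.isDomain EPt.isDVR EPt.isAdicComplete
  EPt.finiteResidueField EPt.charZero EPt.algebra EPt.finite EPt.isLocalHom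

section Ex

variable {O E : Type} [CommRing O] [IsDomain O] [IsDiscreteValuationRing O]
  [IsAdicComplete (maximalIdeal O) O] [Finite (ResidueField O)] [CharZero O]
  [Field E] [Algebra O E] (hOE : Function.Injective (algebraMap O E))

include hOE in
theorem exists_ept_aux (K : Type) [Field K] [Algebra O K] [IsFractionRing O K] [Algebra K E]
    [IsScalarTower O K E] (V : Subalgebra O E) [Module.Finite O V] :
    ∃ P : EPt O E, ∀ x ∈ V, x ∈ P.ι.range := by
  obtain ⟨s, hs⟩ := (Module.Finite.iff_fg (N := Subalgebra.toSubmodule V)).mp ‹_›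
  have hint : ∀ x ∈ V, IsIntegral O x := by
    intro x hx
    have h1 : IsIntegral O (⟨x, hx⟩ : V) := IsIntegral.of_finite O _
    exact h1.map V.val
  have hsV : ∀ x ∈ (s : Set E), x ∈ V := by
    intro x hx
    have h1 : x ∈ Subalgebra.toSubmodule V := by
      rw [← hs]
      exact Submodule.subset_span hx
    exact h1
  let L : IntermediateField K E := IntermediateField.adjoin K (s : Set E)
  have hLfin : FiniteDimensional K L := IntermediateField.finiteDimensional_adjoin
    fun x hx => (hint x (hsV x hx)).tower_top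
  have hVL' : ∀ x ∈ Submodule.span O (s : Set E), x ∈ L := by
    intro x h1
    induction h1 using Submodule.span_induction with
    | mem x hx => exact IntermediateField.subset_adjoin K _ hx
    | zero => exact L.zero_mem
    | add x y _ _ hx hy => exact L.add_mem hx hy
    | smul a x _ hx =>
      rw [Algebra.smul_def, IsScalarTower.algebraMap_apply O K E]
      exact L.mul_mem (L.algebraMap_mem _) hx
  have hVL : ∀ x ∈ V, x ∈ L := by
    intro x hx
    apply hVL'
    rw [hs]
    exact hx
  have hloc := QuadRep.isLocalRing_integralClosure O K L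
  have hdvr := QuadRep.isDiscreteValuationRing_integralClosure O K L
  have hcomp := QuadRep.isAdicComplete_integralClosure O K L
  have hfin := QuadRep.finite_residueField_integralClosure O K L
  have hfin' := QuadRep.finite_integralClosure O K L
  have hch := QuadRep.charZero_integralClosure O K L
  have hlochom := QuadRep.isLocalHom_integralClosure O K L
  let ι : integralClosure O L →ₐ[O] E := (L.val.restrictScalars O).comp (integralClosure O L).val
  refine ⟨{ A := integralClosure O L
            ι := ι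
            inj := fun x y h => Subtype.ext (Subtype.ext h) }, fun x hx => ?_⟩
  refine ⟨⟨⟨x, hVL x hx⟩, ?_⟩, rfl⟩
  have h1 := hint x hx
  have h2 : IsIntegral O (L.val.restrictScalars O ⟨x, hVL x hx⟩) := h1
  exact (isIntegral_algHom_iff (L.val.restrictScalars O)
    (fun x y h => Subtype.ext h)).mp h2

include hOE in
theorem exists_ept (V : Subalgebra O E) [Module.Finite O V] :
    ∃ P : EPt O E, ∀ x ∈ V, x ∈ P.ι.range := by
  have : FaithfulSMul O E := (faithfulSMul_iff_algebraMap_injective O E).mpr hOE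
  let _ : Algebra (FractionRing O) E := FractionRing.liftAlgebra O E
  have : IsScalarTower O (FractionRing O) E := inferInstance
  exact exists_ept_aux hOE (FractionRing O) V

/-- extension of the embedding -/
theorem EPt.exists_ext [IsAlgClosed E] (P : EPt O E) (A' : Type) [CommRing A'] [IsDomain A']
    [Algebra P.A A'] [Module.Finite P.A A'] (hinj : Function.Injective (algebraMap P.A A')) :
    ∃ f : A' →+* E, Function.Injective f ∧ ∀ x, f (algebraMap P.A A' x) = P.ι x := by
  let _ : Algebra P.A E := (P.ι : P.A →+* E).toAlgebra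
  have h1 : FaithfulSMul P.A A' := (faithfulSMul_iff_algebraMap_injective _ _).mpr hinj
  have h2 : FaithfulSMul P.A E := (faithfulSMul_iff_algebraMap_injective _ _).mpr P.inj
  have h3 : Module.IsTorsionFree P.A A' := inferInstance
  have h4 : Module.IsTorsionFree P.A E := inferInstance
  have h5 : Algebra.IsAlgebraic P.A A' := inferInstance
  let f : A' →ₐ[P.A] E := IsAlgClosed.lift
  refine ⟨f, ?_, fun x => f.commutes x⟩
  have hint : Algebra.IsIntegral P.A A' := inferInstance
  have h6 : RingHom.ker (f : A' →+* E) = ⊥ := by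
    apply Ideal.eq_bot_of_comap_eq_bot (R := P.A)
    rw [eq_bot_iff]
    intro x hx
    have h7 : f (algebraMap P.A A' x) = 0 := hx
    rw [f.commutes] at h7
    exact P.inj (h7.trans (map_zero _).symm)
  exact (RingHom.injective_iff_ker_eq_bot _).mpr h6

end Ex

section Gal

variable {n m : ℕ} [NeZero n] (hnm : ∀ q : ℕ, q.Prime → q ∣ n → q ∣ m)
  {O : Type} [CommRing O] {E : Type} [Field E] [Algebra O E]
  (χ : TPoly m O →ₐ[O] E)
  (hχ : ∀ P : TPoly m ℤ, polyHecke (n := n) hnm P = 0 → χ (TWD.Shap.pz m O P) = 0)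

include hχ in
theorem finite_range : Module.Finite O χ.range := by
  obtain ⟨φ, hφ⟩ := exists_char hnm χ hχ
  have hfin : Module.Finite ℤ (CuspForm.heckeAlgebra n 2 (SS m)) := S22.result n 2 (SS m)
  obtain ⟨s, hs⟩ := hfin.fg_top
  have hA : ∀ h, φ h ∈ Submodule.span O (φ '' (s : Set _)) := by
    intro h
    have h1 : h ∈ Submodule.span ℤ (s : Set (CuspForm.heckeAlgebra n 2 (SS m))) := by
      rw [hs]; trivial
    induction h1 using Submodule.span_induction with
    | mem x hx => exact Submodule.subset_span ⟨x, hx, rfl⟩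
    | zero => rw [map_zero]; exact Submodule.zero_mem _
    | add x y _ _ hx hy => rw [map_add]; exact Submodule.add_mem _ hx hy
    | smul a x _ hx => rw [map_zsmul]; exact zsmul_mem hx a
  have hB : ∀ t, χ t ∈ Submodule.span O (Set.range φ) := by
    intro t
    induction t using MvPolynomial.induction_on with
    | C a =>
      have h1 : χ (MvPolynomial.C a) = a • φ 1 := by
        rw [map_one, ← Algebra.algebraMap_eq_smul_one]
        exact χ.commutes a
      rw [h1]
      exact Submodule.smul_mem _ _ (Submodule.subset_span ⟨1, rfl⟩)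
    | add p q hp hq => rw [map_add]; exact Submodule.add_mem _ hp hq
    | mul_X p l hp =>
      have h2 : χ (MvPolynomial.X l) = φ (polyHecke hnm (MvPolynomial.X l)) := by
        rw [hφ, MvPolynomial.map_X]
      rw [map_mul, h2]
      clear h2
      generalize χ p = y at hp
      induction hp using Submodule.span_induction with
      | mem x hx =>
        obtain ⟨h, rfl⟩ := hx
        rw [← map_mul]
        exact Submodule.subset_span ⟨_, rfl⟩
      | zero => rw [zero_mul]; exact Submodule.zero_mem _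
      | add x y _ _ hx hy => rw [add_mul]; exact Submodule.add_mem _ hx hy
      | smul a x _ hx => rw [smul_mul_assoc]; exact Submodule.smul_mem _ _ hx
  have hC : Subalgebra.toSubmodule χ.range = Submodule.span O (φ '' (s : Set _)) := by
    apply le_antisymm
    · rintro _ ⟨t, rfl⟩
      have h1 := hB t
      refine (Submodule.span_le.mpr ?_) h1
      rintro _ ⟨h, rfl⟩
      exact hA h
    · rw [Submodule.span_le]
      rintro _ ⟨h, -, rfl⟩
      obtain ⟨p, rfl⟩ := polyHecke_surjective hnm h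
      exact ⟨TWD.Shap.pz m O p, (hφ p).symm⟩
  have hD : Module.Finite O (Subalgebra.toSubmodule χ.range) := by
    rw [Module.Finite.iff_fg, hC]
    exact Submodule.fg_span (s.finite_toSet.image _)
  exact hD

variable [IsDomain O] [IsDiscreteValuationRing O]
  [IsAdicComplete (maximalIdeal O) O] [Finite (ResidueField O)] [CharZero O]
  (hOE : Function.Injective (algebraMap O E))

/-- lifting a homomorphism to a point -/
theorem EPt.exists_lift {B : Type} [CommRing B] [Algebra O B] (P : EPt O E) (f : B →ₐ[O] E)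
    (h : ∀ b, f b ∈ P.ι.range) : ∃ g : B →ₐ[O] P.A, ∀ b, P.ι (g b) = f b := by
  let e : P.A ≃ₐ[O] P.ι.range := AlgEquiv.ofInjective P.ι P.inj
  refine ⟨(e.symm : P.ι.range →ₐ[O] P.A).comp (f.codRestrict P.ι.range h), fun b => ?_⟩
  have h1 : e (e.symm (f.codRestrict P.ι.range h b)) = f.codRestrict P.ι.range h b :=
    e.apply_symm_apply _
  exact congrArg Subtype.val h1

variable (h30 : HeckeGal.S30Statement) {p : ℕ} [Fact p.Prime] (hm : m ≠ 0)
  (hpm : p ∣ m) (hpO : (p : O) ∈ maximalIdeal O) [IsAlgClosed E]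

include hOE hχ h30 hm hpm hpO in
/-- **The Galois representation attached to an eigensystem.** -/
theorem exists_gal : ∃ (P : EPt O E) (χ' : TPoly m O →ₐ[O] P.A), (∀ t, P.ι (χ' t) = χ t) ∧
    ∃ r : GQ →* M2 P.A, MatCont P.A r ∧
      (∀ (l : Pr m) (B : ValuationSubring (AlgebraicClosure ℚ)), B.LiesOverPrime l → ∀ τ : GQ,
        B.IsFrobeniusAt τ l → (r τ).trace = χ' (MvPolynomial.X l) ∧ (r τ).det = (l : ℕ)) ∧
      UnrNp p n r := by
  have hfr := finite_range hnm χ hχ
  obtain ⟨P, hP⟩ := exists_ept hOE χ.range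
  obtain ⟨χ₁, hχ₁⟩ := P.exists_lift χ (fun t => hP _ ⟨t, rfl⟩)
  obtain ⟨f, hf, hfT, hf0⟩ := exists_polyHecke (n := n) hnm _ (coe_divisors hm)
  let f₀ : TPoly m ℤ →+* CuspForm.heckeAlgebra n 2 ((m.divisors : Finset ℕ) : Set ℕ) := f
  let π₀ : TPoly m ℤ →+* P.A := (χ₁ : TPoly m O →+* P.A).comp (TWD.Shap.pz m O)
  have hker : RingHom.ker f₀ ≤ RingHom.ker π₀ := by
    intro Q hQ
    have h1 : f Q = 0 := hQ
    rw [hf0] at h1
    rw [RingHom.mem_ker]
    apply P.inj
    rw [map_zero]
    exact (hχ₁ _).trans (hχ Q h1)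
  let π : CuspForm.heckeAlgebra n 2 ((m.divisors : Finset ℕ) : Set ℕ) →+* P.A :=
    f₀.liftOfSurjective hf ⟨π₀, hker⟩
  have hπ : ∀ Q, π (f Q) = χ₁ (TWD.Shap.pz m O Q) := fun Q =>
    RingHom.liftOfRightInverse_comp_apply _ _ _ ⟨π₀, hker⟩ Q
  have hpA : (p : P.A) ∈ maximalIdeal P.A := by
    have h1 : (p : P.A) = algebraMap O P.A (p : O) := by rw [map_natCast]
    rw [h1]
    exact map_nonunit (algebraMap O P.A) _ hpO
  have hlm' : ∀ l : ℕ, l ∉ ((m.divisors : Finset ℕ) : Set ℕ) ↔ ¬ l ∣ m := by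
    intro l
    rw [coe_divisors hm]
    exact Iff.rfl
  obtain ⟨O'', i1, i2, i3, i4, i5, i6, i7, i8, i9, hinj, ρ, hρ, hunr⟩ :=
    h30 p n m.divisors (Nat.mem_divisors.mpr ⟨hpm, hm⟩)
      (fun q hq h => Nat.mem_divisors.mpr ⟨hnm q hq h, hm⟩) P.A hpA π
  let _ : Algebra O O'' := ((algebraMap P.A O'').comp (algebraMap O P.A)).toAlgebra
  have htow : IsScalarTower O P.A O'' := IsScalarTower.of_algebraMap_eq fun _ => rfl
  have hfin : Module.Finite O O'' := Module.Finite.trans P.A O''
  have hloc : IsLocalHom (algebraMap O O'') :=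
    inferInstanceAs (IsLocalHom ((algebraMap P.A O'').comp (algebraMap O P.A)))
  obtain ⟨g, hg, hgι⟩ := P.exists_ext O'' hinj
  let ι' : O'' →ₐ[O] E := { g with
    commutes' := fun o => by
      have h1 : algebraMap O O'' o = algebraMap P.A O'' (algebraMap O P.A o) := rfl
      change g (algebraMap O O'' o) = _
      rw [h1, hgι, AlgHom.commutes] }
  let P' : EPt O E := { A := O'', ι := ι', inj := hg }
  let χ' : TPoly m O →ₐ[O] O'' := (IsScalarTower.toAlgHom O P.A O'').comp χ₁
  obtain ⟨b⟩ := exists_basis ρ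
  refine ⟨P', χ', fun t => (hgι _).trans (hχ₁ t), matOf ρ b, matOf_cont ρ b, ?_, ?_⟩
  · intro l B hB τ hτ
    have hln : ¬ (l : ℕ) ∣ n := fun h => l.2.2 (hnm _ l.2.1 h)
    have h1 := trace_det_of_charpoly ρ b τ (hρ l l.2.1 hln ((hlm' _).mpr l.2.2) B hB τ hτ)
    rw [← hfT l l.2.1 hln ((hlm' _).mpr l.2.2) l.2.2, hπ, MvPolynomial.map_X] at h1
    exact h1
  · intro q hq hqN hqp B hB σ hσ
    rw [matOf_apply, hunr q hq hqN hqp B hB σ hσ]
    exact map_one (LinearMap.toMatrixAlgEquiv b)

end Gal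

section Compare

/-- inclusion of primes -/
def Pr.incl {m m' : ℕ} (h : m' ∣ m) (s : Pr m) : Pr m' :=
  ⟨s.1, s.2.1, fun hs => s.2.2 (hs.trans h)⟩

/-- inclusion of Hecke polynomials -/
abbrev incl {m m' : ℕ} (h : m' ∣ m) (R : Type) [CommRing R] : TPoly m R →ₐ[R] TPoly m' R :=
  MvPolynomial.rename (Pr.incl h)

theorem incl_X {m m' : ℕ} (h : m' ∣ m) (R : Type) [CommRing R] (s : Pr m) :
    incl h R (MvPolynomial.X s) = MvPolynomial.X (Pr.incl h s) := MvPolynomial.rename_X _ _

variable {O : Type} [CommRing O] {T A : Type} [CommRing T] [Algebra O T] [CommRing A] [Algebra O A]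

/-- lifting through a surjection -/
theorem exists_algLift {B : Type} [CommRing B] [Algebra O B] (φ : B →ₐ[O] T)
    (hφ : Function.Surjective φ) (f : B →ₐ[O] A) (h : ∀ b, φ b = 0 → f b = 0) :
    ∃ g : T →ₐ[O] A, ∀ b, g (φ b) = f b := by
  let g : T →+* A := (φ : B →+* T).liftOfSurjective hφ ⟨(f : B →+* A), fun b hb => h b hb⟩
  have hg : ∀ b, g (φ b) = f b := fun b =>
    RingHom.liftOfRightInverse_comp_apply _ _ _ ⟨(f : B →+* A), _⟩ b
  exact ⟨{ g with
    commutes' := fun o => by
      have h1 := hg (algebraMap O B o)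
      rw [AlgHom.commutes, AlgHom.commutes] at h1
      exact h1 }, hg⟩

variable [IsDomain O] [IsDiscreteValuationRing O]
  [IsAdicComplete (maximalIdeal O) O] [Finite (ResidueField O)] [CharZero O]
  [IsLocalRing T] [Module.Finite O T]
  {E : Type} [Field E] [Algebra O E] [IsAlgClosed E]
  (hOE : Function.Injective (algebraMap O E))
  (h30 : HeckeGal.S30Statement) {n m m' : ℕ} (hmm : m' ∣ m) (hm : m ≠ 0) [NeZero n]
  (hnm : ∀ q : ℕ, q.Prime → q ∣ n → q ∣ m') {p : ℕ} [Fact p.Prime]
  (hpm : p ∣ m') (hpO : (p : O) ∈ maximalIdeal O)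
  (φ : TPoly m O →ₐ[O] T) (hφ : Function.Surjective φ) {r : GQ →* M2 T} (hc : MatCont T r)
  (htr : ∀ (l : Pr m) (B : ValuationSubring (AlgebraicClosure ℚ)), B.LiesOverPrime l →
    ∀ τ : GQ, B.IsFrobeniusAt τ l → (r τ).trace = φ (MvPolynomial.X l))
  (χ : TPoly m' O →ₐ[O] E)
  (hχ : ∀ P : TPoly m' ℤ, polyHecke (n := n) hnm P = 0 → χ (TWD.Shap.pz m' O P) = 0)
  (hker : ∀ P : TPoly m O, φ P = 0 → χ (incl hmm O P) = 0)

include hOE h30 hm hpm hpO hφ hc htr hχ hker in
/-- **`T_l` is the trace of Frobenius at `l`**, pointwise. -/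
theorem X_eq_trace (l : Pr m') (B : ValuationSubring (AlgebraicClosure ℚ))
    (hB : B.LiesOverPrime l) (τ : GQ) (hτ : B.IsFrobeniusAt τ l) (P : TPoly m O)
    (hP : φ P = (r τ).trace) : χ (incl hmm O P) = χ (MvPolynomial.X l) := by
  have hm' : m' ≠ 0 := fun h => hm (by rw [h] at hmm; exact zero_dvd_iff.mp hmm)
  obtain ⟨Q, χ', hχ', r', hc', htr', -⟩ := exists_gal hnm χ hχ hOE h30 hm' hpm hpO
  obtain ⟨ψ, hψ⟩ := exists_algLift φ hφ (χ'.comp (incl hmm O)) (fun b hb => by
    apply Q.inj
    rw [map_zero]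
    exact (hχ' _).trans (hker b hb))
  have hψl := isLocalHom_of_algHom ψ
  have h1 := trace_eq_of_frob_cont (mapRep_cont (ψ : T →+* Q.A) hψl r hc) hc' m.divisors
    (fun s hs hsm B hB τ hτ => by
      have hsm' : ¬ s ∣ m := fun h => hsm (Nat.mem_divisors.mpr ⟨h, hm⟩)
      have h2 := (htr' (Pr.incl hmm ⟨s, hs, hsm'⟩) B hB τ hτ).1
      rw [h2, trace_mapRep, htr ⟨s, hs, hsm'⟩ B hB τ hτ]
      refine (hψ _).trans ?_
      change χ' (incl hmm O _) = _
      rw [incl_X]) τ
  rw [trace_mapRep, (htr' l B hB τ hτ).1, ← hP] at h1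
  have h2 := (hψ P).symm.trans h1
  have h3 := congrArg Q.ι h2
  rw [hχ'] at h3
  rw [← h3]
  exact (hχ' _).symm

end Compare

end Fermat.Agent.TWDeg

end
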