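import Fermat.Agent.TWDeg.Gen
import Fermat.Agent.TWDeg.Pts
import Fermat.Agent.TWDeg.Dims
import Fermat.Agent.TWDeg.Raise

/-!
# The new part is killed by `(tr r(φ_l))² - (l+1)²`
-/

set_option autoImplicit false
set_option linter.unusedSectionVars false

noncomputable section

namespace Fermat.Agent.TWDeg

open Fermat.Agent.TW HeckeHom ModularCurve.Period CongruenceSubgroup IsLocalRing
  Fermat.Agent.DefRing
open scoped MatrixGroups

section Kill

variable (hES : ∀ (n : ℕ) [NeZero n], ES n) (hloc : LocNew) {D : Type} [CommGroup D] [Fintype D] (W : TWD D) {l : ℕ} (hl : l.Prime) (hlQ : l ∉ W.Q)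
  {m : ℕ} (hM : W.M ∣ m) (hM' : (raise W hl hlQ).M ∣ m) (hlN : ¬ l ∣ W.N) (hm : m ≠ 0)
  {p : ℕ} [Fact p.Prime] (hpm : p ∣ m) (hlp : l ≠ p)
  {O : Type} [CommRing O] [IsDomain O] [IsDiscreteValuationRing O]
  [IsAdicComplete (maximalIdeal O) O] [Finite (ResidueField O)] [CharZero O]
  (hpO : (p : O) ∈ maximalIdeal O)
  {T : Type} [CommRing T] [IsLocalRing T] [Algebra O T] [Module.Finite O T]
  (φ : TPoly m O →ₐ[O] T) (hφ : Function.Surjective φ) {r : GQ →* M2 T} (hc : MatCont T r)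
  (htr : ∀ (s : Pr m) (B : ValuationSubring (AlgebraicClosure ℚ)), B.LiesOverPrime s →
    ∀ τ : GQ, B.IsFrobeniusAt τ s → (r τ).trace = φ (MvPolynomial.X s) ∧ (r τ).det = (s : ℕ))
  {B : ValuationSubring (AlgebraicClosure ℚ)} (hB : B.LiesOverPrime l) {τ : GQ}
  (hτ : B.IsFrobeniusAt τ l) {β : TPoly m O}
  (hβ : φ β = (r τ).trace ^ 2 - ((l : T) + 1) ^ 2)

section Pt

variable {E : Type} [Field E] [Algebra O E] [CharZero E] [IsAlgClosed E]
  (hOE : Function.Injective (algebraMap O E))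

include hES hloc hm hpm hlp hpO hφ hc htr hB hτ hβ hOE in
/-- the pointwise statement -/
theorem chi_beta (v : (XF hM').H (funRep (M := (raise W hl hlQ).M) O E (raise W hl hlQ).YQ))
    {χ : TPoly m O →ₐ[O] E} (hv : IsEig hM' v χ)
    (hd : (degTW W hl hlQ O E (fun _ => .chi) hM hM' hlN).down v = 0)
    (l₀ : Pr m) (hl₀ : ((l₀ : ℕ) : ZMod (raise W hl hlQ).M) = 1) (hχ : χ (eis O l₀) ≠ 0)
    (hker : ∀ P, φ P = 0 → χ P = 0) : χ β = 0 := by
  have hl₁ := hl₀' W hl hlQ hl₀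
  have hl₂ : ((l₀ : ℕ) : ZMod (one W).M) = 1 := by
    have h2 := congrArg (ZMod.castHom (one_M_dvd W) (ZMod (one W).M)) hl₁
    rwa [map_natCast, map_one] at h2
  obtain ⟨v', hv', hd'⟩ := exists_tor W hl hlQ hM hM' hlN l₀ hl₂ hχ v hv hd
  have hdim := dim_lt W hl hlQ hM hM' hlN (hES _) χ hl₀ hχ (hnm_of (raise W hl hlQ) hM')
    v' hv' hd'
  obtain ⟨χ', hχ'⟩ := exists_algLift φ hφ χ hker
  have hfin : Module.Finite O χ'.range := Module.Finite.of_surjective
    χ'.rangeRestrict.toLinearMap χ'.rangeRestrict_surjective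
  obtain ⟨P, hP⟩ := exists_ept hOE χ'.range
  obtain ⟨ψ, hψ⟩ := P.exists_lift χ' (fun t => hP _ ⟨t, rfl⟩)
  have hψl := isLocalHom_of_algHom ψ
  have hpA : (p : P.A) ∈ maximalIdeal P.A := by
    have h1 : (p : P.A) = algebraMap O P.A (p : O) := by rw [map_natCast]
    rw [h1]
    exact map_nonunit (algebraMap O P.A) _ hpO
  have e1 : W.N * l * W.dd * W.dd = W.N * W.dd * W.dd * l := by ring
  have e2 : ∀ a b : ℕ, a = b → Module.finrank E (eigSp E m a (avec χ)) =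
      Module.finrank E (eigSp E m b (avec χ)) := by rintro a _ rfl; rfl
  rw [e2 _ _ e1] at hdim
  have key := hloc p m (W.N * W.dd * W.dd) l hm hpm (fun q hq h => by
      rw [← e1] at h
      exact hnm_of (raise W hl hlQ) hM' q hq h) hl (not_dvd_n W hl hlQ hlN) hlp E (avec χ) P.A hpA
    (P.ι : P.A →+* E) P.inj (mapRep (ψ : T →+* P.A) r) (mapRep_cont (ψ : T →+* P.A) hψl r hc)
    (fun s hs hsm B hB τ hτ => by
      obtain ⟨h1, h2⟩ := htr ⟨s, hs, hsm⟩ B hB τ hτ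
      constructor
      · rw [trace_mapRep, h1]
        have h3 := avec_coe χ ⟨s, hs, hsm⟩
        rw [show avec χ s = χ (MvPolynomial.X ⟨s, hs, hsm⟩) from h3, ← hχ']
        exact hψ _
      · have h3 : (mapRep (ψ : T →+* P.A) r τ).det = ψ (r τ).det :=
          (RingHom.map_det (ψ : T →+* P.A) (r τ)).symm
        rw [h3, h2, map_natCast]) hdim B hB τ hτ
  rw [trace_mapRep] at key
  have h4 : ψ (φ β) = 0 := by
    rw [hβ, map_sub, map_pow, map_pow, map_add, map_natCast, map_one, sub_eq_zero]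
    exact key
  have h5 := congrArg P.ι h4
  rw [hψ, hχ', map_zero] at h5
  exact h5

end Pt

variable (𝔪 : Ideal (TPoly m O)) [𝔪.IsPrime] (hE : NonEis (raise W hl hlQ).M 𝔪)
  (hker : ∀ P, φ P = 0 → ∀ x : MQ (raise W hl hlQ) hM' 𝔪 O, P • x = 0)

include hES hloc hm hpm hlp hpO hφ hc htr hB hτ hβ hE hker in
/-- **The new part is killed by `(tr r(φ_l))² - (l+1)²`.** -/
theorem kill_ker_down (x : MQ (raise W hl hlQ) hM' 𝔪 O)
    (hx : (DQ W hl hlQ hM hM' hlN 𝔪 O).down x = 0) : β • x = 0 := by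
  by_contra hne
  obtain ⟨l₀, hl₀, hl𝔪⟩ := hE
  let E := AlgebraicClosure (FractionRing O)
  have : CharZero E := charZero_of_injective_algebraMap
    (algebraMap (FractionRing O) E).injective
  have hOE : Function.Injective (algebraMap O E) := by
    rw [IsScalarTower.algebraMap_eq O (FractionRing O) E]
    exact (algebraMap (FractionRing O) E).injective.comp (IsFractionRing.injective O _)
  obtain ⟨s, hs, h, hh⟩ := Loc.exists_smul x
  have hd0 : (DQ W hl hlQ hM hM' hlN 𝔪 O).down (Loc.mk 𝔪 _ h) = 0 := by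
    rw [← hh, map_smul, hx, smul_zero]
  rw [DegData.down_apply, Prod.mk_eq_zero] at hd0
  let DD := degTW W hl hlQ O O (fun _ => .chi) hM hM' hlN
  have hd1 : Loc.mk 𝔪 _ (DD.J h) = 0 := (Loc.map_mk 𝔪 DD.J h).symm.trans hd0.1
  have hd2 : Loc.mk 𝔪 _ (DD.J (DD.W h)) = 0 := by
    refine Eq.trans ?_ hd0.2
    change _ = Loc.map 𝔪 DD.J (Loc.map 𝔪 DD.W (Loc.mk 𝔪 _ h))
    rw [Loc.map_mk, Loc.map_mk]
  obtain ⟨s₁, hs₁, h1⟩ := Loc.mk_eq_zero.mp hd1
  obtain ⟨s₂, hs₂, h2⟩ := Loc.mk_eq_zero.mp hd2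
  have hs12 : s₁ * s₂ ∉ 𝔪 := fun h' => (Ideal.IsPrime.mem_or_mem inferInstance h').elim hs₁ hs₂
  have hd' : DD.down ((s₁ * s₂) • h) = 0 := by
    rw [map_smul, DegData.down_apply]
    refine Prod.ext ?_ ?_
    · change (s₁ * s₂) • DD.J h = 0
      rw [mul_comm, mul_smul, h1, smul_zero]
    · change (s₁ * s₂) • DD.J (DD.W h) = 0
      rw [mul_smul, h2, smul_zero]
  -- the kernel over `E`
  let DE := degTW W hl hlQ O E (fun _ => .chi) hM hM' hlN
  have hext := (degTW_coef W hl hlQ hM hM' hlN (fun _ => .chi) (Algebra.linearMap O E)).down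
    ((s₁ * s₂) • h)
  have hK : ext O E (raise W hl hlQ).YQ hM' ((s₁ * s₂) • h) ∈ LinearMap.ker DE.down := by
    rw [LinearMap.mem_ker]
    refine hext.trans ?_
    refine Prod.ext ?_ ?_
    · have h3 := congrArg Prod.fst hd'
      exact (congrArg _ h3).trans (map_zero _)
    · have h3 := congrArg Prod.snd hd'
      exact (congrArg _ h3).trans (map_zero _)
  have hKE : ∀ (e : E), ∀ x ∈ LinearMap.ker DE.down, eAct (XF hM') e x ∈ LinearMap.ker DE.down := by
    intro e x hx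
    rw [LinearMap.mem_ker] at hx ⊢
    have h3 := (degTW_coef W hl hlQ hM hM' hlN (fun _ => .chi) (LinearMap.mulLeft O e)).down x
    refine h3.trans ?_
    refine Prod.ext ?_ ?_
    · exact (congrArg _ (congrArg Prod.fst hx)).trans (map_zero _)
    · exact (congrArg _ (congrArg Prod.snd hx)).trans (map_zero _)
  have hb : β • ((s₁ * s₂) • h) ∉ torS 𝔪.primeCompl ((XF hM').H
      (funRep (M := (raise W hl hlQ).M) O O (raise W hl hlQ).YQ)) := by
    rintro ⟨s', hs', h'⟩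
    apply hne
    apply Loc.eq_zero_of_smul hs
    apply Loc.eq_zero_of_smul hs12
    apply Loc.eq_zero_of_smul (show s' ∉ 𝔪 from hs')
    have h4 := congrArg (Loc.mk 𝔪 _) h'
    rw [map_smul, map_smul, map_smul, ← hh, map_zero] at h4
    rw [← h4, smul_comm s β, smul_comm (s₁ * s₂) β]
  obtain ⟨v, hvK, χ, hv, hχβ, hχS, -, hχt⟩ := exists_isEig (relE_YQ (raise W hl hlQ) hES hM' O E) hOE
    𝔪.primeCompl l₀ hl₀ hl𝔪 (LinearMap.ker DE.down) hKE ((s₁ * s₂) • h) hK β hb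
  refine hχβ (chi_beta hES hloc W hl hlQ hM hM' hlN hm hpm hlp hpO φ hφ hc htr hB hτ hβ hOE v hv
    (LinearMap.mem_ker.mp hvK) l₀ hl₀ (hχS _ hl𝔪) fun P hP => hχt P ?_)
  have h5 := hker P hP (Loc.mk 𝔪 _ ((s₁ * s₂) • h))
  rw [← map_smul] at h5
  obtain ⟨s', hs', h'⟩ := Loc.mk_eq_zero.mp h5
  exact ⟨s', hs', h'⟩

end Kill

end Fermat.Agent.TWDeg

end
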