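import Fermat.Agent.TWDeg.PtH

/-!
# Generalities on Taylor-Wiles levels
-/

set_option autoImplicit false
set_option linter.unusedSectionVars false

noncomputable section

namespace Fermat.Agent.TWDeg

open Fermat.Agent.TW HeckeHom
open scoped MatrixGroups

section Gen

variable {D : Type} [CommGroup D] (W : TWD D)

instance neZero_n : NeZero (W.N * W.dd * W.dd) :=
  ⟨mul_ne_zero (mul_ne_zero W.tws.pos W.dd_ne_zero) W.dd_ne_zero⟩

theorem hnm_of {m : ℕ} (hM : W.M ∣ m) : ∀ q : ℕ, q.Prime → q ∣ W.N * W.dd * W.dd → q ∣ m := by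
  intro q hq h
  have h1 : W.M = W.N * W.dd := rfl
  rcases (Nat.Prime.dvd_mul hq).mp h with h | h
  · rw [← h1] at h
    exact h.trans hM
  · exact (h.trans (Dvd.intro_left W.N rfl)).trans hM

theorem relE_YQ (hES : ∀ (n : ℕ) [NeZero n], ES n) [Fintype D] {m : ℕ} (hM : W.M ∣ m) (O E : Type) [CommRing O] [IsDomain O]
    [Field E] [Algebra O E] [CharZero E] [IsAlgClosed E] :
    RelE hM (n := W.N * W.dd * W.dd) (hnm_of W hM) O E W.YQ :=
  ⟨W.Q.card + 1, fun l hl p hp x =>
    rel_YQ_E W hM (hnm_of W hM) (hES _) l hl p hp x⟩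

end Gen

end Fermat.Agent.TWDeg

end
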