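import Fermat.Agent.TW.TQLoc
import Fermat.Agent.TWDeg.Raise
import Fermat.Agent.TWDeg.Gen
import Fermat.Agent.ZTqb.Final

/-!
# `T_l` is the trace of Frobenius on Taylor-Wiles modules; `T_l² - (l+1)²` is injective
-/

set_option autoImplicit false
set_option linter.unusedSectionVars false

noncomputable section

namespace Fermat.Agent.TWDeg

open Fermat.Agent.TW HeckeHom ModularCurve.Period CongruenceSubgroup IsLocalRing
  Fermat.Agent.DefRing
open scoped MatrixGroups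

section Rel

/-- a relation expressing that `T_l² - (l+1)²` is not a zero divisor -/
theorem exists_rel_det {n m : ℕ} [NeZero n] (hnm : ∀ q : ℕ, q.Prime → q ∣ n → q ∣ m)
    (l : Pr m) : ∃ c : ℤ, c ≠ 0 ∧ ∃ P : TPoly m ℤ, polyHecke (n := n) hnm
      (P * (MvPolynomial.X l ^ 2 - MvPolynomial.C ((((l : ℕ) : ℤ) + 1) ^ 2)) -
        MvPolynomial.C c) = 0 := by
  have hln : ¬ (l : ℕ) ∣ n := fun h => l.2.2 (hnm _ l.2.1 h)
  have hfin : Module.Finite ℤ (CuspForm.heckeAlgebra n 2 (SS m)) := S22.result n 2 (SS m)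
  set a : CuspForm.heckeAlgebra n 2 (SS m) := polyHecke (n := n) hnm
    (MvPolynomial.X l ^ 2 - MvPolynomial.C ((((l : ℕ) : ℤ) + 1) ^ 2)) with ha
  have hacoe : ∀ f, (a : Module.End ℂ (CuspForm (Gamma0 n) 2)) f =
      CuspForm.heckeTLin 2 l.2.1 hln (CuspForm.heckeTLin 2 l.2.1 hln f) -
        ((((l : ℕ) : ℂ) + 1) ^ 2) • f := by
    intro f
    have h1 : a = CuspForm.heckeAlgebra.T l.2.1 hln l.2.2 ^ 2 -
        algebraMap ℤ (CuspForm.heckeAlgebra n 2 (SS m)) ((((l : ℕ) : ℤ) + 1) ^ 2) := by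
      rw [ha, map_sub, map_pow, polyHecke_X, MvPolynomial.algHom_C]
    rw [h1, AddSubgroupClass.coe_sub, SubmonoidClass.coe_pow, sq, LinearMap.sub_apply,
      Module.End.mul_apply]
    congr 1
    have h2 : ((algebraMap ℤ (CuspForm.heckeAlgebra n 2 (SS m)) ((((l : ℕ) : ℤ) + 1) ^ 2) :
        CuspForm.heckeAlgebra n 2 (SS m)) : Module.End ℂ (CuspForm (Gamma0 n) 2)) =
        algebraMap ℤ (Module.End ℂ (CuspForm (Gamma0 n) 2)) ((((l : ℕ) : ℤ) + 1) ^ 2) := rfl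
    rw [h2, Module.algebraMap_end_apply]
    rw [← Int.cast_smul_eq_zsmul ℂ]
    congr 1
    push_cast
    ring
  have hreg : a ∈ nonZeroDivisors (CuspForm.heckeAlgebra n 2 (SS m)) := by
    rw [mem_nonZeroDivisors_iff_right]
    intro b hb
    apply Subtype.ext
    refine LinearMap.ext fun f => ?_
    have h1 : (a * b : CuspForm.heckeAlgebra n 2 (SS m)) = 0 := by rw [mul_comm]; exact hb
    have h2 := congrArg (fun z : CuspForm.heckeAlgebra n 2 (SS m) =>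
      (z : Module.End ℂ (CuspForm (Gamma0 n) 2)) f) h1
    have h3 : (a : Module.End ℂ (CuspForm (Gamma0 n) 2)) ((b : Module.End ℂ
      (CuspForm (Gamma0 n) 2)) f) = 0 := h2
    rw [hacoe, sub_eq_zero] at h3
    exact ZTqb.cusp_eq_zero _ l.2.1 hln h3
  obtain ⟨c, hc, y, hy⟩ := (Algebra.IsAlgebraic.isAlgebraic (R := ℤ) a).exists_nonzero_dvd hreg
  obtain ⟨P, rfl⟩ := polyHecke_surjective hnm y
  refine ⟨c, hc, P, ?_⟩
  rw [map_sub, map_mul, ← ha, mul_comm, ← hy, MvPolynomial.algHom_C, sub_self]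

end Rel

section TF

variable {m M : ℕ} {hM : M ∣ m} {O Y : Type} [CommRing O] [IsDomain O] [CharZero O] [Finite Y]
  [MulAction (GL (Fin 2) (ZMod M)) Y]

/-- localised cohomology at a non-Eisenstein ideal is torsion free -/
theorem loc_smul_eq_zero (𝔪 : Ideal (TPoly m O)) [𝔪.IsPrime] (hE : NonEis M 𝔪) (a : O)
    (x : Loc 𝔪 ((XF hM).H (funRep (M := M) O O Y))) (ha : a ≠ 0) (h : a • x = 0) : x = 0 := by
  obtain ⟨l, hl, hl𝔪⟩ := hE
  obtain ⟨s, hs, y, hy⟩ := Loc.exists_smul x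
  have h1 : Loc.mk 𝔪 _ ((MvPolynomial.C a : TPoly m O) • y) = 0 := by
    rw [map_smul, ← hy, smul_comm, Loc.C_smul, h, smul_zero]
  obtain ⟨t, ht, h2⟩ := Loc.mk_eq_zero.mp h1
  have hinj : Function.Injective (algebraMap O (FractionRing O)) := IsFractionRing.injective O _
  have h3 : eAct (XF hM) (algebraMap O (FractionRing O) a)
      (ext O (FractionRing O) Y hM (t • y)) = 0 := by
    rw [← C_smul_eq, ← map_smul, smul_comm, h2, map_zero]
  have h4 : ext O (FractionRing O) Y hM (t • y) = 0 := by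
    by_contra hne
    exact eAct_ne (fun h5 => ha (hinj (h5.trans (map_zero _).symm))) hne h3
  have h5 := eis_of_ext hM hinj l hl _ h4
  apply Loc.eq_zero_of_smul hs
  apply Loc.eq_zero_of_smul ht
  apply Loc.eq_zero_of_smul hl𝔪
  rw [hy, ← map_smul, ← map_smul]
  have h6 := congrArg (Loc.mk 𝔪 _) h5
  rwa [map_zero] at h6

end TF

section Res

variable {m m' M : ℕ} (hmm : m' ∣ m) (hM : M ∣ m) (hM₁ : M ∣ m') {R : Type} [CommRing R]
  {V : Type} [AddCommGroup V] [Module R V] (ρ : Representation R (Gp M) V)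

/-- change of the modulus -/
def chgM : (XF hM).H ρ ≃+ (XF hM₁).H ρ :=
  (AddEquiv.refl (H1 (Lvl.full.ι M) ρ) : H1 (Lvl.full.ι M) ρ ≃+ H1 (Lvl.full.ι M) ρ)

theorem chgM_smul (P : TPoly m R) (x : (XF hM).H ρ) :
    chgM hM hM₁ ρ (P • x) = inc hmm R P • chgM hM hM₁ ρ x := by
  induction P using MvPolynomial.induction_on generalizing x with
  | C a =>
    rw [inc_C, Stg.C_smul, Stg.C_smul]
    rfl
  | add p q hp hq => rw [add_smul, map_add, hp, hq, map_add, add_smul]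
  | mul_X p s hp =>
    rw [mul_smul, hp, map_mul, mul_smul, inc_X, Stg.X_smul, Stg.X_smul]
    rfl

end Res

section Small

/-- the part of the modulus prime to `l` -/
theorem exists_small {m M p l : ℕ} (hm : m ≠ 0) (hM : M ∣ m) (hl : l.Prime) (hlM : l.Coprime M)
    (hp : p.Prime) (hpm : p ∣ m) (hlp : l ≠ p) :
    ∃ m', m' ∣ m ∧ M ∣ m' ∧ ¬ l ∣ m' ∧ p ∣ m' ∧ m' ≠ 0 := by
  refine ⟨ordCompl[l] m, Nat.ordCompl_dvd m l, ?_, Nat.not_dvd_ordCompl hl hm, ?_,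
    (Nat.ordCompl_pos l hm).ne'⟩
  · have h1 : M ∣ ordProj[l] m * ordCompl[l] m := by
      rw [Nat.ordProj_mul_ordCompl_eq_self]
      exact hM
    exact (Nat.Coprime.pow_right _ hlM.symm).dvd_of_dvd_mul_left h1
  · have h1 : p ∣ ordProj[l] m * ordCompl[l] m := by
      rw [Nat.ordProj_mul_ordCompl_eq_self]
      exact hpm
    exact (Nat.Coprime.pow_right _ ((Nat.coprime_primes hp hl).mpr hlp.symm)).dvd_of_dvd_mul_left h1

end Small

section Main

instance finiteXF {m M : ℕ} {hM : M ∣ m} {O Y : Type} [CommRing O] [IsNoetherianRing O] [Finite Y]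
    [MulAction (GL (Fin 2) (ZMod M)) Y] :
    Module.Finite O ((XF hM).H (funRep (M := M) O O Y)) :=
  have := Fintype.ofFinite Y
  finite_H hM O

variable (hES : ∀ (n : ℕ) [NeZero n], ES n) {D : Type} [CommGroup D] [Fintype D] (W : TWD D) {l : ℕ} (hl : l.Prime) (hlQ : l ∉ W.Q)
  {m : ℕ} (hM : W.M ∣ m) (hM' : (raise W hl hlQ).M ∣ m) (hlN : ¬ l ∣ W.N) (hm : m ≠ 0)
  {p : ℕ} [hp : Fact p.Prime] (hpm : p ∣ m) (hlp : l ≠ p)
  {O : Type} [CommRing O] [IsDomain O] [IsDiscreteValuationRing O]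
  [IsAdicComplete (maximalIdeal O) O] [Finite (ResidueField O)] [CharZero O]
  (hpO : (p : O) ∈ maximalIdeal O)
  (𝔪 : Ideal (TPoly m O)) [𝔪.IsMaximal] (hE : NonEis W.M 𝔪)

variable {m' : ℕ} (hmm : m' ∣ m) (hM₁ : W.M ∣ m')

/-- the quotient module over the larger polynomial ring -/
abbrev QM : Type := QLoc hmm (chgM hM hM₁ (funRep (M := W.M) O O W.YQ))
  (chgM_smul hmm hM hM₁ (funRep (M := W.M) O O W.YQ)) 𝔪

include hES hE in
/-- relations on the quotient module -/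
theorem qloc_rel (P : TPoly m' ℤ)
    (hP : polyHecke (n := W.N * W.dd * W.dd) (hnm_of W hM₁) P = 0)
    (x : QM W hM (O := O) 𝔪 hmm hM₁) : TWD.Shap.pz m' O P • x = 0 := by
  obtain ⟨l₀, hl₀, hl𝔪⟩ := hE
  let E := AlgebraicClosure (FractionRing O)
  have : CharZero E := charZero_of_injective_algebraMap
    (algebraMap (FractionRing O) E).injective
  have hOE : Function.Injective (algebraMap O E) := by
    rw [IsScalarTower.algebraMap_eq O (FractionRing O) E]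
    exact (algebraMap (FractionRing O) E).injective.comp (IsFractionRing.injective O _)
  obtain ⟨k, hk⟩ := (relE_YQ W hES hM₁ O E).base hOE
  obtain ⟨y, rfl⟩ := Submodule.Quotient.mk_surjective _ x
  rw [← Submodule.Quotient.mk_smul, Submodule.Quotient.mk_eq_zero, mem_kerLoc]
  refine ⟨eis O l₀ ^ k, fun h => hl𝔪 ((inferInstance : 𝔪.IsPrime).mem_of_pow_mem _ h), ?_⟩
  apply (chgM hM hM₁ (funRep (M := W.M) O O W.YQ)).injective
  have h1 := hk (incP hmm l₀) hl₀ P hP y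
  rw [chgM_smul hmm, AddEquiv.apply_symm_apply, map_zero, ← mul_smul, map_pow]
  have h2 : inc hmm O (eis O l₀) = eis O (incP hmm l₀) := by
    rw [map_sub, inc_X, inc_C]
    rfl
  rw [h2]
  exact h1

/-- the operator `T_l` -/
def Tl : (XF hM).H (funRep (M := W.M) O O W.YQ) →ₗ[TPoly m O]
    (XF hM).H (funRep (M := W.M) O O W.YQ) :=
  (degTW W hl hlQ O O (fun _ => .chi) hM hM' hlN).T

theorem mk_Tl (hlm : ¬ l ∣ m') (y : (XF hM).H (funRep (M := W.M) O O W.YQ)) :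
    qlocE hmm (chgM hM hM₁ (funRep (M := W.M) O O W.YQ))
      (chgM_smul hmm hM hM₁ (funRep (M := W.M) O O W.YQ)) 𝔪
      ((DQ W hl hlQ hM hM' hlN 𝔪 O).T (Loc.mk 𝔪 _ y)) =
    (MvPolynomial.X ⟨l, hl, hlm⟩ : TPoly m' O) •
      qlocE hmm (chgM hM hM₁ (funRep (M := W.M) O O W.YQ))
        (chgM_smul hmm hM hM₁ (funRep (M := W.M) O O W.YQ)) 𝔪 (Loc.mk 𝔪 _ y) := by
  have h1 : (DQ W hl hlQ hM hM' hlN 𝔪 O).T (Loc.mk 𝔪 _ y) =
      Loc.mk 𝔪 _ ((degTW W hl hlQ O O (fun _ => .chi) hM hM' hlN).T y) := Loc.map_mk 𝔪 _ _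
  rw [h1, qlocE_mk, qlocE_mk, ← Submodule.Quotient.mk_smul, Stg.X_smul]
  congr 1
  exact degTW_T W hl hlQ O O (fun _ => .chi) hM hM' hlN y

include hES hm hpm hlp hE in
/-- **`T_l² - (l+1)²` is injective** on the Taylor-Wiles module. -/
theorem det_injective (x : MQ W hM 𝔪 O)
    (hx : (DQ W hl hlQ hM hM' hlN 𝔪 O).det x = 0) : x = 0 := by
  obtain ⟨m', hmm, hM₁, hlm, hpm', hm'⟩ := exists_small hm hM hl (coprime_M W hl hlQ hlN) hp.out
    hpm hlp
  let e := qlocE hmm (chgM hM hM₁ (funRep (M := W.M) O O W.YQ))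
      (chgM_smul hmm hM hM₁ (funRep (M := W.M) O O W.YQ)) 𝔪
  have heT : ∀ y, e ((DQ W hl hlQ hM hM' hlN 𝔪 O).T y) =
      (MvPolynomial.X ⟨l, hl, hlm⟩ : TPoly m' O) • e y := by
    intro y
    have hsurj : Function.Surjective (Loc.mk 𝔪 ((XF hM).H (funRep (M := W.M) O O W.YQ))) :=
      Loc.mk_surjective 𝔪
    obtain ⟨y, rfl⟩ := hsurj y
    exact mk_Tl W hl hlQ hM hM' hlN 𝔪 hmm hM₁ hlm y
  obtain ⟨c, hc, P, hP⟩ := exists_rel_det (n := W.N * W.dd * W.dd) (hnm_of W hM₁) ⟨l, hl, hlm⟩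
  have h1 := qloc_rel hES W hM 𝔪 hE hmm hM₁ _ hP (e x)
  have h2 : (MvPolynomial.X ⟨l, hl, hlm⟩ ^ 2 - MvPolynomial.C (((l : O) + 1) ^ 2) : TPoly m' O) •
      e x = 0 := by
    rw [DegData.det_apply, sub_eq_zero] at hx
    have h3 := congrArg e hx
    rw [heT, heT, map_nsmul] at h3
    rw [sub_smul, sq, mul_smul, ← h3, sub_eq_zero]
    have h4 : (MvPolynomial.C (((l : O) + 1) ^ 2) : TPoly m' O) = (((l + 1) ^ 2 : ℕ) : TPoly m' O) := by
      push_cast
      simp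
    rw [h4, Nat.cast_smul_eq_nsmul]
    rfl
  rw [map_sub, map_mul, map_sub, map_pow, MvPolynomial.map_X, MvPolynomial.map_C,
    MvPolynomial.map_C, sub_smul, mul_smul] at h1
  have h5 : (Int.castRingHom O) ((((l : ℕ) : ℤ) + 1) ^ 2) = ((l : O) + 1) ^ 2 := by
    push_cast
    simp
  rw [show ((((⟨l, hl, hlm⟩ : Pr m') : ℕ) : ℤ) + 1) ^ 2 = (((l : ℕ) : ℤ) + 1) ^ 2 from rfl, h5, h2,
    smul_zero, zero_sub, neg_eq_zero] at h1
  have h6 : e ((c : O) • x) = 0 := by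
    rw [← Loc.C_smul]
    have h7 := qlocE_smul hmm (chgM hM hM₁ (funRep (M := W.M) O O W.YQ))
      (chgM_smul hmm hM hM₁ (funRep (M := W.M) O O W.YQ)) 𝔪 (MvPolynomial.C (c : O)) x
    refine h7.trans ?_
    rw [inc_C]
    exact h1
  have h7 : (c : O) • x = 0 := e.injective (h6.trans (map_zero e).symm)
  exact loc_smul_eq_zero 𝔪 hE (c : O) x (by exact_mod_cast hc) h7

variable (h30 : HeckeGal.S30Statement) {rbar : GQ →* M2 (ResidueField O)} {sd : SliceData rbar}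
  {n' : ℕ} (R : HRep (m := m) p n' sd (MQ W hM 𝔪 O))

include hES h30 hm hpm hlp hpO hE in
/-- **`T_l` acts as the trace of Frobenius at `l`.** -/
theorem Tl_eq_trace (B : ValuationSubring (AlgebraicClosure ℚ)) (hB : B.LiesOverPrime l) (τ : GQ)
    (hτ : B.IsFrobeniusAt τ l) (P : TPoly m O) (hP : R.φ P = (R.C.r τ).trace)
    (x : MQ W hM 𝔪 O) : (DQ W hl hlQ hM hM' hlN 𝔪 O).T x = P • x := by
  obtain ⟨m', hmm, hM₁, hlm, hpm', hm'⟩ := exists_small hm hM hl (coprime_M W hl hlQ hlN) hp.out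
    hpm hlp
  have hsurj : Function.Surjective (Loc.mk 𝔪 ((XF hM).H (funRep (M := W.M) O O W.YQ))) :=
    Loc.mk_surjective 𝔪
  obtain ⟨y, rfl⟩ := hsurj x
  have heq := mk_Tl W hl hlQ hM hM' hlN 𝔪 hmm hM₁ hlm y
  have htow : IsScalarTower O (TPoly m' O) (QM W hM (O := O) 𝔪 hmm hM₁) := inferInstance
  have hC : ∀ (a : O) (x : QM W hM (O := O) 𝔪 hmm hM₁), a • x =
    (MvPolynomial.C a : TPoly m' O) • x := fun a x => (algebraMap_smul (TPoly m' O) a x).symm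
  set e := qlocE hmm (chgM hM hM₁ (funRep (M := W.M) O O W.YQ))
      (chgM_smul hmm hM hM₁ (funRep (M := W.M) O O W.YQ)) 𝔪 with he_def
  have he : ∀ (P : TPoly m O) (x : MQ W hM 𝔪 O), e (P • x) = inc hmm O P • e x :=
    qlocE_smul hmm _ _ 𝔪
  have heO : ∀ (a : O) (x : MQ W hM 𝔪 O), e (a • x) = a • e x := by
    intro a x
    rw [← Loc.C_smul, he, inc_C, hC]
  let eL : MQ W hM 𝔪 O ≃ₗ[O] QM W hM (O := O) 𝔪 hmm hM₁ := { e with map_smul' := heO }
  have hfL : Module.Finite O (MQ W hM 𝔪 O) := Loc.finite 𝔪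
  have hfin : Module.Finite O (QM W hM (O := O) 𝔪 hmm hM₁) := Module.Finite.equiv eL
  have htfQ : ∀ (a : O) (x : QM W hM (O := O) 𝔪 hmm hM₁), a ≠ 0 → a • x = 0 → x = 0 := by
    intro a x ha hx
    obtain ⟨y, rfl⟩ := eL.surjective x
    rw [← map_smul] at hx
    have h1 : a • y = 0 := eL.injective (hx.trans (map_zero _).symm)
    rw [loc_smul_eq_zero 𝔪 hE a y ha h1, map_zero]
  apply e.injective
  rw [heq, he]
  exact X_smul_eq (n := W.N * W.dd * W.dd) h30 hm' hpm' (hnm_of W hM₁) hmm hm hpO htfQ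
    (qloc_rel hES W hM 𝔪 hE hmm hM₁) e he R ⟨l, hl, hlm⟩ B hB τ hτ P hP _

end Main

end Fermat.Agent.TWDeg

end
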