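import Fermat.Agent.TWDeg.LvlNat
import Fermat.Agent.TWDeg.Stg

/-!
# Degeneracy maps between Taylor-Wiles modules of levels `N` and `N l`
-/

set_option autoImplicit false
set_option linter.unusedSectionVars false

noncomputable section

namespace Fermat.Agent.TWDeg

open Fermat.Agent.TW
open Matrix.SpecialLinearGroup CongruenceSubgroup
open scoped MatrixGroups

section Algebra

variable {B N₁ N₂ N₁' N₂' : Type} [CommRing B] [AddCommGroup N₁] [Module B N₁]
    [AddCommGroup N₂] [Module B N₂] [AddCommGroup N₁'] [Module B N₁']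
    [AddCommGroup N₂'] [Module B N₂']

/-- transport of degeneracy data -/
def DegData.conj (D : DegData B N₁ N₂) (e₁ : N₁' ≃ₗ[B] N₁) (e₂ : N₂' ≃ₗ[B] N₂) :
    DegData B N₁' N₂' where
  I := e₂.symm.toLinearMap ∘ₗ D.I ∘ₗ e₁.toLinearMap
  W := e₂.symm.toLinearMap ∘ₗ D.W ∘ₗ e₂.toLinearMap
  J := e₁.symm.toLinearMap ∘ₗ D.J ∘ₗ e₂.toLinearMap
  T := e₁.symm.toLinearMap ∘ₗ D.T ∘ₗ e₁.toLinearMap
  q := D.q
  JI x := by simp [D.JI]
  JWI x := by simp [D.JWI]
  WW x := by simp [D.WW]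

/-- morphisms of degeneracy data -/
structure DegHom (D : DegData B N₁ N₂) (D' : DegData B N₁' N₂') (f₁ : N₁ →ₗ[B] N₁')
    (f₂ : N₂ →ₗ[B] N₂') : Prop where
  q : D.q = D'.q
  I : ∀ x, D'.I (f₁ x) = f₂ (D.I x)
  W : ∀ x, D'.W (f₂ x) = f₂ (D.W x)
  J : ∀ x, D'.J (f₂ x) = f₁ (D.J x)

namespace DegHom

variable {D : DegData B N₁ N₂} {D' : DegData B N₁' N₂'} {f₁ : N₁ →ₗ[B] N₁'} {f₂ : N₂ →ₗ[B] N₂'}
  (h : DegHom D D' f₁ f₂)

include h

theorem T (x : N₁) : D'.T (f₁ x) = f₁ (D.T x) := by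
  rw [← D'.JWI, ← D.JWI, h.I, h.W, h.J]

theorem det (x : N₁) : D'.det (f₁ x) = f₁ (D.det x) := by
  rw [DegData.det_apply, DegData.det_apply, h.T, h.T, map_sub, map_nsmul, h.q]

theorem up (a b : N₁) : D'.up (f₁ a, f₁ b) = f₂ (D.up (a, b)) := by
  rw [DegData.up_apply, DegData.up_apply, h.I, h.I, h.W, map_add]

theorem down (x : N₂) : D'.down (f₂ x) = (f₁ (D.down x).1, f₁ (D.down x).2) := by
  rw [DegData.down_apply, DegData.down_apply, h.W, h.J, h.J]

theorem loc (𝔪 : Ideal B) [𝔪.IsPrime] : DegHom (D.loc 𝔪) (D'.loc 𝔪) (Loc.map 𝔪 f₁) (Loc.map 𝔪 f₂) where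
  q := h.q
  I x := by
    have h1 : D'.I ∘ₗ f₁ = f₂ ∘ₗ D.I := LinearMap.ext h.I
    have h2 := congrArg (Loc.map 𝔪) h1
    rw [Loc.map_comp, Loc.map_comp] at h2
    exact LinearMap.congr_fun h2 x
  W x := by
    have h1 : D'.W ∘ₗ f₂ = f₂ ∘ₗ D.W := LinearMap.ext h.W
    have h2 := congrArg (Loc.map 𝔪) h1
    rw [Loc.map_comp, Loc.map_comp] at h2
    exact LinearMap.congr_fun h2 x
  J x := by
    have h1 : D'.J ∘ₗ f₂ = f₁ ∘ₗ D.J := LinearMap.ext h.J
    have h2 := congrArg (Loc.map 𝔪) h1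
    rw [Loc.map_comp, Loc.map_comp] at h2
    exact LinearMap.congr_fun h2 x

end DegHom

/-- transport of morphisms of degeneracy data -/
theorem DegHom.conj {D : DegData B N₁ N₂} {D' : DegData B N₁' N₂'} {f₁ : N₁ →ₗ[B] N₁'}
    {f₂ : N₂ →ₗ[B] N₂'} (h : DegHom D D' f₁ f₂) {P₁ P₂ P₁' P₂' : Type} [AddCommGroup P₁]
    [Module B P₁] [AddCommGroup P₂] [Module B P₂] [AddCommGroup P₁'] [Module B P₁']
    [AddCommGroup P₂'] [Module B P₂'] (e₁ : P₁ ≃ₗ[B] N₁) (e₂ : P₂ ≃ₗ[B] N₂) (e₁' : P₁' ≃ₗ[B] N₁')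
    (e₂' : P₂' ≃ₗ[B] N₂') (g₁ : P₁ →ₗ[B] P₁') (g₂ : P₂ →ₗ[B] P₂')
    (h₁ : ∀ x, e₁' (g₁ x) = f₁ (e₁ x)) (h₂ : ∀ x, e₂' (g₂ x) = f₂ (e₂ x)) :
    DegHom (D.conj e₁ e₂) (D'.conj e₁' e₂') g₁ g₂ where
  q := h.q
  I x := by
    change e₂'.symm (D'.I (e₁' (g₁ x))) = g₂ (e₂.symm (D.I (e₁ x)))
    rw [h₁, h.I, LinearEquiv.symm_apply_eq, h₂, LinearEquiv.apply_symm_apply]
  W x := by
    change e₂'.symm (D'.W (e₂' (g₂ x))) = g₂ (e₂.symm (D.W (e₂ x)))
    rw [h₂, h.W, LinearEquiv.symm_apply_eq, h₂, LinearEquiv.apply_symm_apply]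
  J x := by
    change e₁'.symm (D'.J (e₂' (g₂ x))) = g₁ (e₁.symm (D.J (e₂ x)))
    rw [h₂, h.J, LinearEquiv.symm_apply_eq, h₁, LinearEquiv.apply_symm_apply]

end Algebra

section Nat

variable {m n q M : ℕ} {R : Type} [CommRing R] {V V' : Type} [AddCommGroup V] [Module R V]
  [AddCommGroup V'] [Module R V'] {ρ : Representation R (Gp M) V}
  {ρ' : Representation R (Gp M) V'}

/-- naturality of the degeneracy data -/
theorem degData_hom (hq : q.Prime) (h : q.Coprime n) (hqM : q.Coprime M) (hn : n ∣ m)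
    (hnq : n * q ∣ m) (hM : M ∣ m) (hρ : ρ (scal hq hqM) = 1) (hρ' : ρ' (scal hq hqM) = 1)
    (f : CHom ρ ρ') :
    DegHom (degData ρ hq h hqM hn hnq hM hρ) (degData ρ' hq h hqM hn hnq hM hρ')
      ((Stg.gamma0 n hn hM).map f) ((Stg.gamma0 (n * q) hnq hM).map f) where
  q := rfl
  I x := ((cI n q M).map_natural f x).symm
  W x := ((cW hq h hqM).map_natural f x).symm
  J x := ((cJ hq h M).map_natural f x).symm

end Nat

/-! ### Taylor-Wiles data of level `N l` -/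

variable {D : Type} [CommGroup D] (W : TWD D) {l : ℕ} (hl : l.Prime) (hlQ : l ∉ W.Q)

/-- the datum of level `N l` -/
def raise : TWD D where
  N := W.N * l
  Q := W.Q
  χ := W.χ
  tws := ⟨mul_ne_zero W.tws.pos hl.ne_zero, W.tws.prime, fun q hq h => by
    rcases (Nat.Prime.dvd_mul (W.tws.prime q hq)).mp h with h1 | h1
    · exact W.tws.ndvd q hq h1
    · rw [Nat.prime_dvd_prime_iff_eq (W.tws.prime q hq) hl] at h1
      exact hlQ (h1 ▸ hq)⟩
  surj := W.surj
  odd := W.odd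

theorem one_raise : one (raise W hl hlQ) = one W := rfl

theorem raise_M : (raise W hl hlQ).M = W.M * l := by
  change W.N * l * ∏ q ∈ W.Q, q = W.N * (∏ q ∈ W.Q, q) * l
  ring

include hl hlQ in
theorem coprime_M (hlN : ¬ l ∣ W.N) : l.Coprime W.M := by
  refine Nat.Coprime.mul_right ((Nat.Prime.coprime_iff_not_dvd hl).mpr hlN) ?_
  refine Nat.Coprime.prod_right fun q hq => ?_
  exact (Nat.coprime_primes hl (W.tws.prime q hq)).mpr fun h => hlQ (h ▸ hq)

section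

variable (R A : Type) [CommRing R] [AddCommGroup A] [Module R A] (t : ℕ → LT)

theorem isGd_scal_mem {A : M2Z} (hA : A = !![(l : ℤ), 0; 0, l]) (hgd : IsGd W.M A) :
    (toGp W.M A hgd).2 ∈ W.K t := by
  subst hA
  have key : ∀ n (hn : n ∣ W.M) i j, red hn (toGp W.M _ hgd).2 i j =
      ((!![(l : ℤ), 0; 0, l] i j : ℤ) : ZMod n) := by
    intro n hn i j
    rw [red_apply]
    change ZMod.castHom hn (ZMod n) ((_ : ℤ) : ZMod W.M) = _
    rw [map_intCast]
  refine ⟨?_, fun q hq => ?_⟩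
  · rw [mem_upB, key]
    simp
  · have h1 : red (q_dvd W.N hq) (toGp W.M _ hgd).2 ∈ lowB (ZMod q) := by
      rw [mem_lowB, key]
      simp
    have h2 : red (q_dvd W.N hq) (toGp W.M _ hgd).2 ∈ upB (ZMod q) := by
      rw [mem_upB, key]
      simp
    have h3 : rat (⟨_, h1⟩ : lowB (ZMod q)) = 1 := by
      rw [rat_apply, div_eq_one]
      apply Units.ext
      change red (q_dvd W.N hq) (toGp W.M _ hgd).2 0 0 = red (q_dvd W.N hq) (toGp W.M _ hgd).2 1 1
      rw [key, key]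
      simp
    cases htq : t q with
    | bor => exact h1
    | chi => exact mem_Kloc_chi.mpr ⟨h1, by rw [h3, map_one]⟩
    | tor => exact ⟨h1, h2⟩

theorem scal_smul (hlM : l.Coprime W.M) (y : W.Yt t) : (scal hl hlM).2 • y = y := by
  induction y using QuotientGroup.induction_on with
  | H x =>
    change (((scal hl hlM).2 * x : GL (Fin 2) (ZMod W.M)) : W.Yt t) = x
    have h1 : (scal hl hlM).2 * x = x * (scal hl hlM).2 :=
      congrArg Prod.snd (scal_comm hl hlM ((1, x) : Gp W.M))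
    rw [h1]
    exact QuotientGroup.mk_mul_of_mem x (isGd_scal_mem W t rfl _)

theorem scal_funRep (hlM : l.Coprime W.M) : funRep (M := W.M) R A (W.Yt t) (scal hl hlM) = 1 := by
  refine LinearMap.ext fun F => funext fun y => ?_
  change F ((scal hl hlM).2⁻¹ • y) = F y
  rw [inv_smul_eq_iff.mpr (scal_smul W hl t hlM y).symm]

variable {m : ℕ} (hM : W.M ∣ m) (hM' : (raise W hl hlQ).M ∣ m) (hlN : ¬ l ∣ W.N)

/-- the level change for `N l` -/
def lvlH' : (XF hM').H (funRep (M := (raise W hl hlQ).M) R A ((raise W hl hlQ).Yt t))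
    ≃ₗ[TPoly m R] (Stg.gamma0 (W.N * l) (N_dvd_m (raise W hl hlQ) hM') (one_dvd_m W hM)).H
      (V1 W R A t) :=
  lvlH (raise W hl hlQ) hM' R A t

/-- **The degeneracy data of the Taylor-Wiles modules of levels `N` and `N l`.** -/
def degTW : DegData (TPoly m R) ((XF hM).H (funRep (M := W.M) R A (W.Yt t)))
    ((XF hM').H (funRep (M := (raise W hl hlQ).M) R A ((raise W hl hlQ).Yt t))) :=
  (degData (V1 W R A t) hl ((Nat.Prime.coprime_iff_not_dvd hl).mpr hlN)
    ((coprime_M W hl hlQ hlN).coprime_dvd_right (one_M_dvd W)) (N_dvd_m W hM)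
    (N_dvd_m (raise W hl hlQ) hM') (one_dvd_m W hM)
    (scal_funRep (one W) hl R A t _)).conj (lvlH W hM R A t) (lvlH' W hl hlQ R A t hM hM')

/-- the operator `T` of the degeneracy data is the Hecke operator `T_l`. -/
theorem degTW_T (x : (XF hM).H (funRep (M := W.M) R A (W.Yt t))) :
    (degTW W hl hlQ R A t hM hM' hlN).T x =
      (Lvl.full.corrT W.M hl (coprime_M W hl hlQ hlN) (Lvl.ok_full l)).map _ x := by
  change (lvlH W hM R A t).symm (((Lvl.gamma0 W.N).corrT (one W).M hl _ _).map _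
    (lvlH W hM R A t x)) = _
  rw [LinearEquiv.symm_apply_eq, lvlH_corrT]

theorem degTW_q : (degTW W hl hlQ R A t hM hM' hlN).q = l := rfl

end

section Naturality

variable {R A A' : Type} [CommRing R] [AddCommGroup A] [Module R A] [AddCommGroup A'] [Module R A']
  {m : ℕ} (hM : W.M ∣ m) (hM' : (raise W hl hlQ).M ∣ m) (hlN : ¬ l ∣ W.N)

/-- the degeneracy maps are `Δ_Q`-equivariant -/
theorem degTW_act (δ : W.Q → D) :
    DegHom (degTW W hl hlQ R A (fun _ => .chi) hM hM' hlN)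
      (degTW W hl hlQ R A (fun _ => .chi) hM hM' hlN)
      ((XF hM).map (actC W.M R A W.YQ δ))
      ((XF hM').map (actC (raise W hl hlQ).M R A (raise W hl hlQ).YQ
        (Δ := (raise W hl hlQ).Q → D) δ)) :=
  (degData_hom hl _ _ _ _ _ _ _ (actC (one W).M R A (one W).YQ (Δ := (one W).Q → D) δ)).conj
    _ _ _ _ _ _ (lvlH_act W hM δ) (lvlH_act (raise W hl hlQ) hM' δ)

/-- the degeneracy maps commute with the change of coefficients -/
theorem degTW_coef (t : ℕ → LT) (a : A →ₗ[R] A') :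
    DegHom (degTW W hl hlQ R A t hM hM' hlN) (degTW W hl hlQ R A' t hM hM' hlN)
      ((XF hM).map (coef (W.Yt t) a)) ((XF hM').map (coef ((raise W hl hlQ).Yt t) a)) :=
  (degData_hom hl _ _ _ _ _ _ _ (coef ((one W).Yt t) a)).conj
    _ _ _ _ _ _ (lvlH_coef W hM t a) (lvlH_coef (raise W hl hlQ) hM' t a)

/-- the degeneracy maps commute with the projection to level `Γ₀` -/
theorem degTW_push [Fintype W.YQ] [Fintype (raise W hl hlQ).YQ] [Fintype (one W).YQ]
    [Fintype (W.Q → D)] :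
    DegHom (degTW W hl hlQ R A (fun _ => .chi) hM hM' hlN)
      (degTW W hl hlQ R A (fun _ => .bor) hM hM' hlN)
      ((XF hM).map (push R A W.prQ W.isTorsor.equiv))
      ((XF hM').map (push R A (raise W hl hlQ).prQ (raise W hl hlQ).isTorsor.equiv)) :=
  letI : Fintype (one (raise W hl hlQ)).YQ := inferInstanceAs (Fintype (one W).YQ)
  letI : Fintype ((raise W hl hlQ).Q → D) := inferInstanceAs (Fintype (W.Q → D))
  (degData_hom hl _ _ _ _ _ _ _ (push R A (one W).prQ (one W).isTorsor.equiv)).conj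
    _ _ _ _ _ _ (lvlH_push W hM) (lvlH_push (raise W hl hlQ) hM')

/-- the degeneracy maps commute with the pull-back -/
theorem degTW_pull {t t' : ℕ → LT} (h : W.K t ≤ W.K t') (h1 : (one W).K t ≤ (one W).K t')
    (h2 : (raise W hl hlQ).K t ≤ (raise W hl hlQ).K t') :
    DegHom (degTW W hl hlQ R A t' hM hM' hlN) (degTW W hl hlQ R A t hM hM' hlN)
      ((XF hM).map (pull R A (NormD.pr h) (NormD.pr_smul h)))
      ((XF hM').map (pull R A (NormD.pr h2) (NormD.pr_smul h2))) :=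
  (degData_hom hl _ _ _ _ _ _ _ (pull R A (NormD.pr h1) (NormD.pr_smul h1))).conj
    _ _ _ _ _ _ (lvlH_pull W hM h h1) (lvlH_pull (raise W hl hlQ) hM' h2 h1)

end Naturality

end Fermat.Agent.TWDeg

end
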