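import Fermat.Agent.TWDeg.AnyL
import Fermat.Agent.TW.TMod

/-!
# Degeneracy data between the Taylor-Wiles levels `TWLev.tmod`
-/

set_option autoImplicit false
set_option linter.unusedSectionVars false
set_option linter.unusedVariables false

noncomputable section

namespace Fermat.Agent.TWDeg

open Fermat.Agent.TW HeckeHom ModularCurve.Period CongruenceSubgroup IsLocalRing
  Fermat.Agent.DefRing Module Fermat.Agent.RT8
open scoped MatrixGroups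

section Real

variable {p n g : ℕ} [hp : Fact p.Prime] (hp2 : p ≠ 2) {D : Type} [CommGroup D] [Fintype D]
    {O : Type} [CommRing O] [IsDomain O] [IsDiscreteValuationRing O]
    [IsAdicComplete (maximalIdeal O) O] [Finite (ResidueField O)] [CharZero O]
    (hpO : (p : O) ∈ maximalIdeal O)
    {rbar : GQ →* M2 (ResidueField O)} {sd : SliceData rbar}
    (hspan : Submodule.span (ResidueField O) (Set.range rbar) = ⊤)
    {m m' N : ℕ} [NeZero N] {hN : N ∣ m} {𝔪 : Ideal (TPoly m O)} [𝔪.IsMaximal]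
    {R : HRep (m := m) p N sd (Loc 𝔪 (HG m N hN O))} {P : Fin g → TWP rbar} {W : TWD D}
    {hM : W.M ∣ m'} {𝔪' : Ideal (TPoly m' O)} [𝔪'.IsMaximal] {N' : ℕ}
    {R' : HRep (m := m') p N' sd (MQ W hM 𝔪' O)} (X : TWLev n g R P W hM 𝔪' R')

theorem TWLev.e_C (o : O) (x : Loc 𝔪' ((XF hM).H (funRep (M := W.M) O O W.Y0))) :
    X.e ((MvPolynomial.C o : TPoly m' O) • x) = o • X.e x := by
  rw [X.e_smul, inc_C]
  refine funext fun i => ?_
  rw [Pi.smul_apply, Pi.smul_apply, Loc.C_smul]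

theorem mapRep_refl {A : Type} [CommRing A] [Algebra O A] (r : GQ →* M2 A) :
    mapRep ((AlgEquiv.refl : A ≃ₐ[O] A) : A →+* A) r = r := by
  refine MonoidHom.ext fun σ => Matrix.ext fun i j => ?_
  rw [mapRep_apply]
  rfl

/-- The module `tmod` is realised by the cohomology. -/
def realT : RealT (X.tmod hp2 hpO hspan) W hM 𝔪' R' where
  c := (AlgEquiv.refl : R'.C.T ≃ₐ[O] R'.C.T)
  hr := mapRep_refl R'.C.r
  e := AddEquiv.refl (MQ W hM 𝔪' O)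
  smul := fun Q x => X.tmod_φ_smul hp2 hpO hspan Q x
  e₀ := X.e
  e₀O := fun o x => TWLev.e_C X o x
  hπ := fun x => rfl

end Real

section Lev

variable (hES : ∀ (n : ℕ) [NeZero n], ES n) (hloc : LocNew) (h30 : HeckeGal.S30Statement)
    {p n g : ℕ} [hp : Fact p.Prime] (hp2 : p ≠ 2) {D : Type} [CommGroup D] [Fintype D]
    {O : Type} [CommRing O] [IsDomain O] [IsDiscreteValuationRing O]
    [IsAdicComplete (maximalIdeal O) O] [Finite (ResidueField O)] [CharZero O]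
    (hpO : (p : O) ∈ maximalIdeal O)
    {rbar : GQ →* M2 (ResidueField O)} {sd : SliceData rbar}
    (hspan : Submodule.span (ResidueField O) (Set.range rbar) = ⊤)
    {m m' N₁ N₂ : ℕ} [NeZero N₁] [NeZero N₂] {hN₁ : N₁ ∣ m} {hN₂ : N₂ ∣ m}
    {𝔪 : Ideal (TPoly m O)} [𝔪.IsMaximal]
    {R₁ : HRep (m := m) p N₁ sd (Loc 𝔪 (HG m N₁ hN₁ O))}
    {R₂ : HRep (m := m) p N₂ sd (Loc 𝔪 (HG m N₂ hN₂ O))}
    {P : Fin g → TWP rbar} {W : TWD D} {l : ℕ} (hl : l.Prime) (hlQ : l ∉ W.Q)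
    {hM : W.M ∣ m'} {hM' : (raise W hl hlQ).M ∣ m'} (hlN : ¬ l ∣ W.N)
    {𝔪' : Ideal (TPoly m' O)} [𝔪'.IsMaximal] {N₁' N₂' : ℕ}
    {R₁' : HRep (m := m') p N₁' sd (MQ W hM 𝔪' O)}
    {R₂' : HRep (m := m') p N₂' sd (MQ (raise W hl hlQ) hM' 𝔪' O)}
    (X₁ : TWLev n g R₁ P W hM 𝔪' R₁')
    (X₂ : TWLev n g R₂ P (raise W hl hlQ) hM' 𝔪' R₂')
    {ϖ : O} (hϖ : Irreducible ϖ)
    (hinj : UpInj (D0 W hl hlQ hM hM' hlN 𝔪' O) (MvPolynomial.C ϖ))
    (hsurj : Function.Surjective (D0 W hl hlQ hM hM' hlN 𝔪' O).down)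

/-- **Degeneracy data between Taylor-Wiles levels**, `l` arbitrary. -/
def degT : DegT (X₂.tmod hp2 hpO hspan) (X₁.tmod hp2 hpO hspan) (FrobsOut m') :=
  mkDegT W hl hlQ hM hM' hlN hpO 𝔪' (realT hp2 hpO hspan X₁) (realT hp2 hpO hspan X₂) hϖ hinj hsurj

theorem degT_up (x y : MQ W hM 𝔪' O) :
    ((degT hp2 hpO hspan hl hlQ hlN X₁ X₂ hϖ hinj hsurj).up (x, y) :
      MQ (raise W hl hlQ) hM' 𝔪' O) = (DQ W hl hlQ hM hM' hlN 𝔪' O).up (x, y) := rfl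

theorem degT_down (x : MQ (raise W hl hlQ) hM' 𝔪' O) :
    ((degT hp2 hpO hspan hl hlQ hlN X₁ X₂ hϖ hinj hsurj).down x :
      MQ W hM 𝔪' O × MQ W hM 𝔪' O) = (DQ W hl hlQ hM hM' hlN 𝔪' O).down x := rfl

include hES hp2 hpO hspan X₁ X₂ hϖ hinj in
/-- the image of `up` is saturated, `l` arbitrary. -/
theorem up_sat_lev (o : O) (x : MQ (raise W hl hlQ) hM' 𝔪' O) (ho : o ≠ 0)
    (hx : ∃ y, (DQ W hl hlQ hM hM' hlN 𝔪' O).up y = o • x) :
    ∃ y, (DQ W hl hlQ hM hM' hlN 𝔪' O).up y = x :=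
  up_sat₀ hES W hl hlQ hM hM' hlN X₁.ne hpO 𝔪' X₁.nonEis X₂.nonEis hspan
    (realT hp2 hpO hspan X₁) (realT hp2 hpO hspan X₂) hϖ hinj o x ho hx

/-- **Degeneracy data with composition formula between Taylor-Wiles levels**, `l ≠ p`. -/
def degPT (hpm : p ∣ m') (hlp : l ≠ p) {B : ValuationSubring (AlgebraicClosure ℚ)}
    (hB : B.LiesOverPrime l) {τ : GQ} (hτ : B.IsFrobeniusAt τ l) :
    DegPT (X₂.tmod hp2 hpO hspan) (X₁.tmod hp2 hpO hspan) (FrobsOut m') l τ :=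
  mkDegPT hES hloc h30 W hl hlQ hM hM' hlN X₁.ne hpm hlp hpO 𝔪' X₁.nonEis X₂.nonEis hspan
    (realT hp2 hpO hspan X₁) (realT hp2 hpO hspan X₂) hϖ hinj hsurj hB hτ

end Lev

end Fermat.Agent.TWDeg

end
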