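import Fermat.Agent.TWDeg.Asm

/-!
# Saturation of the image of `up`, for an arbitrary prime `l` (also `l = p`)
-/

set_option autoImplicit false
set_option linter.unusedSectionVars false
set_option linter.unusedVariables false

noncomputable section

namespace Fermat.Agent.TWDeg

open Fermat.Agent.TW HeckeHom ModularCurve.Period CongruenceSubgroup IsLocalRing
  Fermat.Agent.DefRing Module Fermat.Agent.RT8
open scoped MatrixGroups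

/-- the part of the modulus prime to `l` -/
theorem exists_small₀ {m M l : ℕ} (hm : m ≠ 0) (hM : M ∣ m) (hl : l.Prime) (hlM : l.Coprime M) :
    ∃ m', m' ∣ m ∧ M ∣ m' ∧ ¬ l ∣ m' ∧ m' ≠ 0 := by
  refine ⟨ordCompl[l] m, Nat.ordCompl_dvd m l, ?_, Nat.not_dvd_ordCompl hl hm,
    (Nat.ordCompl_pos l hm).ne'⟩
  have h1 : M ∣ ordProj[l] m * ordCompl[l] m := by
    rw [Nat.ordProj_mul_ordCompl_eq_self]
    exact hM
  exact (Nat.Coprime.pow_right _ hlM.symm).dvd_of_dvd_mul_left h1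

section Main

variable (hES : ∀ (n : ℕ) [NeZero n], ES n)
  {D : Type} [CommGroup D] [Fintype D]
  (W : TWD D) {l : ℕ} (hl : l.Prime) (hlQ : l ∉ W.Q)
  {m : ℕ} (hM : W.M ∣ m) (hM' : (raise W hl hlQ).M ∣ m) (hlN : ¬ l ∣ W.N) (hm : m ≠ 0)
  {p : ℕ} [hp : Fact p.Prime]
  {O : Type} [CommRing O] [IsDomain O] [IsDiscreteValuationRing O]
  [IsAdicComplete (maximalIdeal O) O] [Finite (ResidueField O)] [CharZero O]
  (hpO : (p : O) ∈ maximalIdeal O)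
  (𝔪 : Ideal (TPoly m O)) [𝔪.IsMaximal] (hE : NonEis W.M 𝔪)
  (hE' : NonEis (raise W hl hlQ).M 𝔪)
  {rbar : GQ →* M2 (ResidueField O)} {sd : SliceData rbar} {n₁ n₂ : ℕ}
  (R₁ : HRep (m := m) p n₁ sd (MQ W hM 𝔪 O))
  (R₂ : HRep (m := m) p n₂ sd (MQ (raise W hl hlQ) hM' 𝔪 O))

include hES hm hE in
/-- **`T_l² - (l+1)²` is injective** on the Taylor-Wiles module. -/
theorem det_injective₀ (x : MQ W hM 𝔪 O)
    (hx : (DQ W hl hlQ hM hM' hlN 𝔪 O).det x = 0) : x = 0 := by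
  obtain ⟨m', hmm, hM₁, hlm, hm'⟩ := exists_small₀ hm hM hl (coprime_M W hl hlQ hlN)
  let e := qlocE hmm (chgM hM hM₁ (funRep (M := W.M) O O W.YQ))
      (chgM_smul hmm hM hM₁ (funRep (M := W.M) O O W.YQ)) 𝔪
  have heT : ∀ y, e ((DQ W hl hlQ hM hM' hlN 𝔪 O).T y) =
      (MvPolynomial.X ⟨l, hl, hlm⟩ : TPoly m' O) • e y := by
    intro y
    have hsurj : Function.Surjective (Loc.mk 𝔪 ((XF hM).H (funRep (M := W.M) O O W.YQ))) :=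
      Loc.mk_surjective 𝔪
    obtain ⟨y, rfl⟩ := hsurj y
    exact mk_Tl W hl hlQ hM hM' hlN 𝔪 hmm hM₁ hlm y
  obtain ⟨c, hc, P, hP⟩ := exists_rel_det (n := W.N * W.dd * W.dd) (hnm_of W hM₁) ⟨l, hl, hlm⟩
  have h1 := qloc_rel hES W hM 𝔪 hE hmm hM₁ _ hP (e x)
  have h2 : (MvPolynomial.X ⟨l, hl, hlm⟩ ^ 2 - MvPolynomial.C (((l : O) + 1) ^ 2) : TPoly m' O) •
      e x = 0 := by
    rw [DegData.det_apply, sub_eq_zero] at hx
    have h3 := congrArg e hx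
    rw [heT, heT, map_nsmul] at h3
    rw [sub_smul, sq, mul_smul, ← h3, sub_eq_zero]
    have h4 : (MvPolynomial.C (((l : O) + 1) ^ 2) : TPoly m' O) = (((l + 1) ^ 2 : ℕ) : TPoly m' O) := by
      push_cast
      simp
    rw [h4, Nat.cast_smul_eq_nsmul]
    rfl
  rw [map_sub, map_mul, map_sub, map_pow, MvPolynomial.map_X, MvPolynomial.map_C,
    MvPolynomial.map_C, sub_smul, mul_smul] at h1
  have h5 : (Int.castRingHom O) ((((l : ℕ) : ℤ) + 1) ^ 2) = ((l : O) + 1) ^ 2 := by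
    push_cast
    simp
  rw [show ((((⟨l, hl, hlm⟩ : Pr m') : ℕ) : ℤ) + 1) ^ 2 = (((l : ℕ) : ℤ) + 1) ^ 2 from rfl, h5, h2,
    smul_zero, zero_sub, neg_eq_zero] at h1
  have h6 : e ((c : O) • x) = 0 := by
    rw [← Loc.C_smul]
    have h7 := qlocE_smul hmm (chgM hM hM₁ (funRep (M := W.M) O O W.YQ))
      (chgM_smul hmm hM hM₁ (funRep (M := W.M) O O W.YQ)) 𝔪 (MvPolynomial.C (c : O)) x
    refine h7.trans ?_
    rw [inc_C]
    exact h1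
  have h7 : (c : O) • x = 0 := e.injective (h6.trans (map_zero e).symm)
  exact loc_smul_eq_zero 𝔪 hE (c : O) x (by exact_mod_cast hc) h7

include hES hm hE in
theorem up_injective₀ : Function.Injective (DQ W hl hlQ hM hM' hlN 𝔪 O).up :=
  (DQ W hl hlQ hM hM' hlN 𝔪 O).up_injective
    ((injective_iff_map_eq_zero _).mpr
      (det_injective₀ hES W hl hlQ hM hM' hlN hm 𝔪 hE))

include hES hm hE hlN in
theorem ker_le₀ (P : TPoly m O) (hP : R₂.φ P = 0) : R₁.φ P = 0 := by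
  rw [R₂.ker] at hP
  rw [R₁.ker]
  intro x
  have h1 := up_injective₀ hES W hl hlQ hM hM' hlN hm 𝔪 hE
  have h2 : (DQ W hl hlQ hM hM' hlN 𝔪 O).up (P • x, 0) = 0 := by
    have h3 := map_smul (DQ W hl hlQ hM hM' hlN 𝔪 O).up P (x, (0 : MQ W hM 𝔪 O))
    rw [hP, Prod.smul_mk, smul_zero] at h3
    exact h3
  exact (Prod.mk.inj (h1 (h2.trans (map_zero _).symm))).1

include hES hm hE hlN in
/-- the map between the Hecke algebras -/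
theorem exists_T_map₀ : ∃ g : R₂.C.T →ₐ[O] R₁.C.T, (∀ P, g (R₂.φ P) = R₁.φ P) ∧
    ∀ σ : GQ, g (R₂.C.r σ).trace = (R₁.C.r σ).trace := by
  obtain ⟨g, hg⟩ := exists_algLift R₂.φ R₂.surj R₁.φ
    (ker_le₀ hES W hl hlQ hM hM' hlN hm 𝔪 hE R₁ R₂)
  refine ⟨g, hg, fun σ => ?_⟩
  have hgl := isLocalHom_of_algHom g
  have hnoeth : IsNoetherianRing R₁.C.T := IsNoetherianRing.of_finite O R₁.C.T
  have h1 := trace_eq_of_frob_cont (mapRep_cont (g : R₂.C.T →+* R₁.C.T) hgl R₂.C.r R₂.C.cont)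
    R₁.C.cont m.divisors (fun s hs hsm A hA τ hτ => by
      have hsm' : ¬ s ∣ m := fun h => hsm (Nat.mem_divisors.mpr ⟨h, hm⟩)
      rw [trace_mapRep, (R₁.tr ⟨s, hs, hsm'⟩ A hA τ hτ).1, (R₂.tr ⟨s, hs, hsm'⟩ A hA τ hτ).1]
      exact hg _) σ
  rwa [trace_mapRep] at h1


end Main

section Lin

variable (hES : ∀ (n : ℕ) [NeZero n], ES n)
  {D : Type} [CommGroup D] [Fintype D] [∀ (W : TWD D) (t : ℕ → LT), Fintype (W.Yt t)]
  (W : TWD D) {l : ℕ} (hl : l.Prime) (hlQ : l ∉ W.Q)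
  {m : ℕ} (hM : W.M ∣ m) (hM' : (raise W hl hlQ).M ∣ m) (hlN : ¬ l ∣ W.N) (hm : m ≠ 0)
  {p : ℕ} [hp : Fact p.Prime]
  {O : Type} [CommRing O] [IsDomain O] [IsDiscreteValuationRing O]
  [IsAdicComplete (maximalIdeal O) O] [Finite (ResidueField O)] [CharZero O]
  (hpO : (p : O) ∈ maximalIdeal O)
  (𝔪 : Ideal (TPoly m O)) [𝔪.IsMaximal] (hE : NonEis W.M 𝔪)
  (hE' : NonEis (raise W hl hlQ).M 𝔪)
  {rbar : GQ →* M2 (ResidueField O)} {sd : SliceData rbar}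
  (hspan : Submodule.span (ResidueField O) (Set.range rbar) = ⊤)
  {g n : ℕ} {P : Fin g → TWP rbar} {n₁ n₂ : ℕ}
  {R₁ : HRep (m := m) p n₁ sd (MQ W hM 𝔪 O)}
  {R₂ : HRep (m := m) p n₂ sd (MQ (raise W hl hlQ) hM' 𝔪 O)}
  {B₁ B₂ : BMod sd} {L₁ : TMod p P n B₁} {L₂ : TMod p P n B₂}
  (a₁ : RealT L₁ W hM 𝔪 R₁) (a₂ : RealT L₂ (raise W hl hlQ) hM' 𝔪 R₂)

include hES hm hE hlN hspan in
/-- the map between the Hecke algebras -/
theorem exists_TA₀ : ∃ g' : L₂.C.T →ₐ[O] L₁.C.T,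
    (∀ Q, g' (a₂.c (R₂.φ Q)) = a₁.c (R₁.φ Q)) ∧
    mapRep (g' : L₂.C.T →+* L₁.C.T) L₂.C.r = L₁.C.r := by
  obtain ⟨g₀, hg, hgt⟩ := exists_T_map₀ hES W hl hlQ hM hM' hlN hm 𝔪 hE R₁ R₂
  obtain ⟨g', h1⟩ := exists_conjA a₂.c a₁.c g₀
  refine ⟨g', fun Q => by rw [h1, hg], ?_⟩
  have hgl := isLocalHom_of_algHom g'
  refine norm_unique sd hspan (mapRep_cont (g' : L₂.C.T →+* L₁.C.T) hgl L₂.C.r L₂.C.cont)
    L₁.C.cont (red_mapRep g' hgl L₂.C.red) L₁.C.red (L₂.C.norm.map g')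
    L₁.C.norm ∅ fun s _ _ A _ τ _ => ?_
  rw [trace_mapRep, a₁.tr, a₂.tr, ← hgt]
  exact h1 _

include hES hm hE hlN hspan in
theorem upA_lam₀ (b : Lam p g O n) (x y : L₁.M) :
    upA W hl hlQ hM hM' hlN 𝔪 a₁ a₂ (b • x, b • y) =
      b • upA W hl hlQ hM hM' hlN 𝔪 a₁ a₂ (x, y) := by
  have : NeZero p := ⟨hp.out.ne_zero⟩
  obtain ⟨g', hg, hr⟩ := exists_TA₀ hES W hl hlQ hM hM' hlN hm 𝔪 hE hspan a₁ a₂
  have h1 : g'.comp L₂.γ = L₁.γ := by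
    refine gam_unique fun i => ?_
    show g' (L₂.γ (delm p g O n i)) = L₁.γ (delm p g O n i)
    rw [L₂.γ_delm, L₁.γ_delm, map_sub, map_one, map_theta (P i) g' hr L₂.C.red L₁.C.red]
  obtain ⟨Q, hQ⟩ := a₂.exists_poly (L₂.γ b)
  have h2 : L₁.γ b = a₁.c (R₁.φ Q) := by
    rw [← h1, ← hg, hQ]
    rfl
  rw [← L₁.γ_smul, ← L₁.γ_smul, h2, upA_smul, hQ, L₂.γ_smul]

include hES hm hE hlN hspan in
/-- `up` is linear over the group algebra -/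
theorem exists_upL₀ : ∃ f : (L₁.M × L₁.M) →ₗ[Lam p g O n] L₂.M, ∀ x,
    f x = upA W hl hlQ hM hM' hlN 𝔪 a₁ a₂ x :=
  ⟨{ toFun := upA W hl hlQ hM hM' hlN 𝔪 a₁ a₂
     map_add' := map_add _
     map_smul' := fun b x =>
       upA_lam₀ hES W hl hlQ hM hM' hlN hm 𝔪 hE hspan a₁ a₂ b x.1 x.2 }, fun _ => rfl⟩

variable {ϖ : O} (hϖ : Irreducible ϖ)
  (hinj : UpInj (D0 W hl hlQ hM hM' hlN 𝔪 O) (MvPolynomial.C ϖ))
  (hsurj : Function.Surjective (D0 W hl hlQ hM hM' hlN 𝔪 O).down)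

include hES hm hE hlN hspan hϖ hinj hpO in
/-- `up` has a left inverse over the group algebra -/
theorem exists_upL_inv₀ : ∃ h : L₂.M →ₗ[Lam p g O n] (L₁.M × L₁.M), ∀ x,
    h (upA W hl hlQ hM hM' hlN 𝔪 a₁ a₂ x) = x := by
  have : NeZero p := ⟨hp.out.ne_zero⟩
  obtain ⟨f, hf⟩ := exists_upL₀ hES W hl hlQ hM hM' hlN hm 𝔪 hE hspan a₁ a₂
  have hac := isAdicComplete_Lam (𝒪 := O) (g := g) hp.out hpO n
  obtain ⟨h, hh⟩ := exists_left_inverse (kapL p g O n) kapL_surjective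
    (by rw [ker_kapL]; exact IsAdicComplete.le_jacobson_bot (JLam p g O n))
    ((L₁.b hp.out hpO).prod (L₁.b hp.out hpO)) (L₂.b hp.out hpO) f (fun x hx => by
      rw [ker_kapL] at hx ⊢
      rw [hf] at hx
      obtain ⟨h1, h2⟩ := upA_inj W hl hlQ hM hM' hlN 𝔪 a₁ a₂ hϖ hinj x.1 x.2 hx
      exact mem_smul_top_prod _ h1 h2)
  exact ⟨h, fun x => by rw [← hf, hh]⟩

include hES hm hE hE' hlN hspan hϖ hinj hpO a₁ a₂ in
/-- the image of `up` is saturated -/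
theorem up_sat₀ (o : O) (x : MQ (raise W hl hlQ) hM' 𝔪 O) (ho : o ≠ 0)
    (hx : ∃ y, (DQ W hl hlQ hM hM' hlN 𝔪 O).up y = o • x) :
    ∃ y, (DQ W hl hlQ hM hM' hlN 𝔪 O).up y = x := by
  obtain ⟨h, hh⟩ := exists_upL_inv₀ hES W hl hlQ hM hM' hlN hm hpO 𝔪 hE hspan a₁ a₂ hϖ
    hinj
  obtain ⟨y, hy⟩ := hx
  obtain ⟨u, hu⟩ := a₁.e.surjective y.1
  obtain ⟨v, hv⟩ := a₁.e.surjective y.2
  obtain ⟨x', rfl⟩ := a₂.e.surjective x
  have h1 : upA W hl hlQ hM hM' hlN 𝔪 a₁ a₂ (u, v) = algebraMap O L₂.C.T o • x' := by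
    apply a₂.e.injective
    rw [e_upA, hu, hv, a₂.e_algebraMap, Loc.C_smul]
    exact hy
  have h2 : upA W hl hlQ hM hM' hlN 𝔪 a₁ a₂ (u, v) = algebraMap O (Lam p g O n) o • x' := by
    rw [h1, ← L₂.γ_smul, AlgHom.commutes]
  have h3 := congrArg h h2
  rw [hh, map_smul] at h3
  have h4 := Prod.mk.inj h3
  refine ⟨(a₁.e (h x').1, a₁.e (h x').2), ?_⟩
  rw [← e_upA W hl hlQ hM hM' hlN 𝔪 a₁ a₂]
  have h5 : algebraMap O L₂.C.T o • upA W hl hlQ hM hM' hlN 𝔪 a₁ a₂ ((h x').1, (h x').2) =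
      algebraMap O L₂.C.T o • x' := by
    rw [← h1, ← AlgHom.commutes L₂.γ, L₂.γ_smul,
      ← upA_lam₀ hES W hl hlQ hM hM' hlN hm 𝔪 hE hspan a₁ a₂]
    rw [h4.1, h4.2]
  have h6 := congrArg a₂.e h5
  rw [a₂.e_algebraMap, a₂.e_algebraMap, Loc.C_smul, Loc.C_smul, ← sub_eq_zero, ← smul_sub] at h6
  exact sub_eq_zero.mp (loc_smul_eq_zero 𝔪 hE' o _ ho h6)


end Lin

end Fermat.Agent.TWDeg

end
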