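import Fermat.Agent.TWDeg.NewKill
import Fermat.Agent.TWDeg.TlTr

/-!
# `(tr r(φ_l))² - (l+1)²` maps into the old part
-/

set_option autoImplicit false
set_option linter.unusedSectionVars false

noncomputable section

namespace Fermat.Agent.TWDeg

open Fermat.Agent.TW HeckeHom ModularCurve.Period CongruenceSubgroup IsLocalRing
  Fermat.Agent.DefRing
open scoped MatrixGroups

section Alg

/-- an injective endomorphism of a finite free module has torsion cokernel -/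
theorem exists_smul_mem_range {O M : Type} [CommRing O] [IsDomain O] [AddCommGroup M] [Module O M]
    [Module.Free O M] [Module.Finite O M] (f : M →ₗ[O] M) (hf : Function.Injective f) :
    ∃ o : O, o ≠ 0 ∧ ∀ y, ∃ z, f z = o • y := by
  classical
  let b := Module.finBasis O M
  refine ⟨LinearMap.det f, ?_, fun y => ?_⟩
  · rw [← LinearMap.det_toMatrix b]
    intro h
    rw [← Matrix.exists_mulVec_eq_zero_iff] at h
    obtain ⟨v, hv, h⟩ := h
    apply hv
    have h1 := LinearMap.toMatrix_mulVec_repr b b f (b.equivFun.symm v)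
    have h2 : (b.repr (b.equivFun.symm v) : Fin (Module.finrank O M) → O) = v :=
      b.equivFun.apply_symm_apply v
    rw [h2, h] at h1
    have h3 : f (b.equivFun.symm v) = 0 := by
      apply b.equivFun.injective
      rw [map_zero]
      exact h1.symm
    have h4 := hf (h3.trans (map_zero f).symm)
    have h5 := congrArg b.equivFun h4
    rwa [LinearEquiv.apply_symm_apply, map_zero] at h5
  · refine ⟨Matrix.toLin b b (LinearMap.toMatrix b b f).adjugate y, ?_⟩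
    have h1 : f ∘ₗ Matrix.toLin b b (LinearMap.toMatrix b b f).adjugate =
        LinearMap.det f • LinearMap.id := by
      apply (LinearMap.toMatrix b b).injective
      rw [LinearMap.toMatrix_comp b b b, LinearMap.toMatrix_toLin, Matrix.mul_adjugate,
        LinearMap.det_toMatrix, map_smul, LinearMap.toMatrix_id]
    exact LinearMap.congr_fun h1 y

/-- saturation from injectivity modulo a uniformiser -/
theorem sat_of_unif {O M M' : Type} [CommRing O] [IsDomain O] [IsDiscreteValuationRing O]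
    [AddCommGroup M] [Module O M] [AddCommGroup M'] [Module O M'] (f : M' →ₗ[O] M) (ϖ : O)
    (hϖ : Irreducible ϖ) (htf : ∀ x : M, ϖ • x = 0 → x = 0)
    (h : ∀ x y, f x = ϖ • y → ∃ x', x = ϖ • x') (o : O) (x : M) (ho : o ≠ 0)
    (hx : ∃ y, f y = o • x) : ∃ y, f y = x := by
  obtain ⟨n, u, rfl⟩ := IsDiscreteValuationRing.eq_unit_mul_pow_irreducible ho hϖ
  clear ho
  induction n generalizing x with
  | zero =>
    obtain ⟨y, hy⟩ := hx
    refine ⟨((u⁻¹ : Oˣ) : O) • y, ?_⟩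
    rw [map_smul, hy, pow_zero, mul_one, smul_smul, Units.inv_mul, one_smul]
  | succ n ih =>
    obtain ⟨y, hy⟩ := hx
    obtain ⟨y', rfl⟩ := h y (((u : O) * ϖ ^ n) • x) (by rw [hy, smul_smul]; ring_nf)
    refine ih x ⟨y', ?_⟩
    rw [map_smul] at hy
    have h1 : ϖ • (f y' - ((u : O) * ϖ ^ n) • x) = 0 := by
      rw [smul_sub, hy, smul_smul, pow_succ]
      rw [sub_eq_zero]
      congr 1
      ring
    exact sub_eq_zero.mp (htf _ h1)

end Alg

section Main

variable (hES : ∀ (n : ℕ) [NeZero n], ES n) (hloc : LocNew) (h30 : HeckeGal.S30Statement)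
  {D : Type} [CommGroup D] [Fintype D] (W : TWD D) {l : ℕ} (hl : l.Prime) (hlQ : l ∉ W.Q)
  {m : ℕ} (hM : W.M ∣ m) (hM' : (raise W hl hlQ).M ∣ m) (hlN : ¬ l ∣ W.N) (hm : m ≠ 0)
  {p : ℕ} [Fact p.Prime] (hpm : p ∣ m) (hlp : l ≠ p)
  {O : Type} [CommRing O] [IsDomain O] [IsDiscreteValuationRing O]
  [IsAdicComplete (maximalIdeal O) O] [Finite (ResidueField O)] [CharZero O]
  (hpO : (p : O) ∈ maximalIdeal O)
  (𝔪 : Ideal (TPoly m O)) [𝔪.IsMaximal] (hE : NonEis W.M 𝔪)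
  (hE' : NonEis (raise W hl hlQ).M 𝔪)
  {rbar : GQ →* M2 (ResidueField O)} {sd : SliceData rbar} {n₁ n₂ : ℕ}
  (R₁ : HRep (m := m) p n₁ sd (MQ W hM 𝔪 O))
  (R₂ : HRep (m := m) p n₂ sd (MQ (raise W hl hlQ) hM' 𝔪 O))
  {B : ValuationSubring (AlgebraicClosure ℚ)} (hB : B.LiesOverPrime l) {τ : GQ}
  (hτ : B.IsFrobeniusAt τ l)

include hES hm hpm hlp hE in
theorem up_injective : Function.Injective (DQ W hl hlQ hM hM' hlN 𝔪 O).up :=
  (DQ W hl hlQ hM hM' hlN 𝔪 O).up_injective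
    ((injective_iff_map_eq_zero _).mpr
      (det_injective hES W hl hlQ hM hM' hlN hm hpm hlp 𝔪 hE))

include hES hm hpm hlp hE hlN in
theorem ker_le (P : TPoly m O) (hP : R₂.φ P = 0) : R₁.φ P = 0 := by
  rw [R₂.ker] at hP
  rw [R₁.ker]
  intro x
  have h1 := up_injective hES W hl hlQ hM hM' hlN hm hpm hlp 𝔪 hE
  have h2 : (DQ W hl hlQ hM hM' hlN 𝔪 O).up (P • x, 0) = 0 := by
    have h3 := map_smul (DQ W hl hlQ hM hM' hlN 𝔪 O).up P (x, (0 : MQ W hM 𝔪 O))
    rw [hP, Prod.smul_mk, smul_zero] at h3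
    exact h3
  exact (Prod.mk.inj (h1 (h2.trans (map_zero _).symm))).1

include hES hm hpm hlp hE hlN in
/-- the map between the Hecke algebras -/
theorem exists_T_map : ∃ g : R₂.C.T →ₐ[O] R₁.C.T, (∀ P, g (R₂.φ P) = R₁.φ P) ∧
    ∀ σ : GQ, g (R₂.C.r σ).trace = (R₁.C.r σ).trace := by
  obtain ⟨g, hg⟩ := exists_algLift R₂.φ R₂.surj R₁.φ
    (ker_le hES W hl hlQ hM hM' hlN hm hpm hlp 𝔪 hE R₁ R₂)
  refine ⟨g, hg, fun σ => ?_⟩
  have hgl := isLocalHom_of_algHom g
  have hnoeth : IsNoetherianRing R₁.C.T := IsNoetherianRing.of_finite O R₁.C.T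
  have h1 := trace_eq_of_frob_cont (mapRep_cont (g : R₂.C.T →+* R₁.C.T) hgl R₂.C.r R₂.C.cont)
    R₁.C.cont m.divisors (fun s hs hsm A hA τ hτ => by
      have hsm' : ¬ s ∣ m := fun h => hsm (Nat.mem_divisors.mpr ⟨h, hm⟩)
      rw [trace_mapRep, (R₁.tr ⟨s, hs, hsm'⟩ A hA τ hτ).1, (R₂.tr ⟨s, hs, hsm'⟩ A hA τ hτ).1]
      exact hg _) σ
  rwa [trace_mapRep] at h1

variable {β : TPoly m O} (hβ : R₂.φ β = (R₂.C.r τ).trace ^ 2 - ((l : R₂.C.T) + 1) ^ 2)

include hES h30 hm hpm hlp hpO hE R₁ hB hτ hβ in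
/-- `β` acts as `T_l² - (l+1)²` on the module of lower level -/
theorem beta_smul (y : MQ W hM 𝔪 O) : β • y = - (DQ W hl hlQ hM hM' hlN 𝔪 O).det y := by
  obtain ⟨g, hg, hgt⟩ := exists_T_map hES W hl hlQ hM hM' hlN hm hpm hlp 𝔪 hE R₁ R₂
  obtain ⟨P, hP⟩ := R₁.surj (R₁.C.r τ).trace
  have hT := Tl_eq_trace hES W hl hlQ hM hM' hlN hm hpm hlp hpO 𝔪 hE h30 R₁ B hB τ hτ P hP
  have h1 : R₁.φ (β - (P ^ 2 - MvPolynomial.C (((l : O) + 1) ^ 2))) = 0 := by
    rw [map_sub, map_sub, map_pow, hP, ← hg, hβ, map_sub, map_pow, map_pow, hgt, map_add,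
      map_natCast, map_one, MvPolynomial.algHom_C, map_pow, map_add, map_natCast, map_one,
      sub_self]
  have h2 := (R₁.ker _).mp h1 y
  rw [sub_smul, sub_eq_zero] at h2
  rw [h2, DegData.det_apply, hT, hT, neg_sub, sub_smul, sq, mul_smul]
  congr 1
  have h4 : (MvPolynomial.C (((l : O) + 1) ^ 2) : TPoly m O) = (((l + 1) ^ 2 : ℕ) : TPoly m O) := by
    push_cast
    simp
  rw [h4, Nat.cast_smul_eq_nsmul]
  rfl

variable (hsat : ∀ (o : O) (x : MQ (raise W hl hlQ) hM' 𝔪 O), o ≠ 0 →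
  (∃ y, (DQ W hl hlQ hM hM' hlN 𝔪 O).up y = o • x) →
    ∃ y, (DQ W hl hlQ hM hM' hlN 𝔪 O).up y = x)

include hES hloc h30 hm hpm hlp hpO hE hE' hB hτ hβ hsat R₁ in
/-- **`(tr r(φ_l))² - (l+1)²` maps into the old part.** -/
theorem new_range (x : MQ (raise W hl hlQ) hM' 𝔪 O) :
    ∃ y, (DQ W hl hlQ hM hM' hlN 𝔪 O).up y = β • x := by
  have hfL : Module.Finite O (MQ W hM 𝔪 O) := Loc.finite 𝔪
  have htf : Module.IsTorsionFree O (MQ W hM 𝔪 O) := ⟨fun r hr x y hxy => by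
    have h3 : r • (x - y) = 0 := by
      rw [smul_sub, sub_eq_zero]
      exact hxy
    exact sub_eq_zero.mp (loc_smul_eq_zero 𝔪 hE r _ hr.ne_zero h3)⟩
  have hfree : Module.Free O (MQ W hM 𝔪 O) := Module.free_of_finite_type_torsion_free'
  let DD := DQ W hl hlQ hM hM' hlN 𝔪 O
  obtain ⟨o, ho, hdet⟩ := exists_smul_mem_range (DD.det.restrictScalars O)
    ((injective_iff_map_eq_zero _).mpr
      (det_injective hES W hl hlQ hM hM' hlN hm hpm hlp 𝔪 hE))
  obtain ⟨c, hc⟩ := hdet (DD.down x).1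
  obtain ⟨d, hd⟩ := hdet (DD.down x).2
  have hc' : DD.det c = o • (DD.down x).1 := hc
  have hd' : DD.det d = o • (DD.down x).2 := hd
  let z := o • x - DD.up ((DD.q + 1) • c - DD.T d, (DD.q + 1) • d - DD.T c)
  have hz : DD.down z = 0 := by
    have h1 := DD.down_up_adj c d
    have h2 : DD.down (o • x) = o • DD.down x := by
      rw [← Loc.C_smul, map_smul]
      rfl
    rw [map_sub, h1, hc', hd', h2, sub_eq_zero]
    rfl
  have hkill := kill_ker_down hES hloc W hl hlQ hM hM' hlN hm hpm hlp hpO R₂.φ R₂.surj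
    R₂.C.cont R₂.tr hB hτ hβ 𝔪 hE' (fun P hP => (R₂.ker P).mp hP) z hz
  refine hsat o (β • x) ho ⟨β • ((DD.q + 1) • c - DD.T d, (DD.q + 1) • d - DD.T c), ?_⟩
  rw [map_smul, smul_comm o β, eq_comm, ← sub_eq_zero, ← smul_sub]
  exact hkill

end Main

end Fermat.Agent.TWDeg

end
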