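import Fermat.Agent.RT8.DegT
import Fermat.Agent.TWDeg.NewRange

/-!
# Degeneracy maps between Taylor-Wiles levels
-/

set_option autoImplicit false
set_option linter.unusedSectionVars false
set_option linter.unusedVariables false

noncomputable section

namespace Fermat.Agent.TWDeg

open Fermat.Agent.TW HeckeHom ModularCurve.Period CongruenceSubgroup IsLocalRing
  Fermat.Agent.DefRing Module Fermat.Agent.RT8
open scoped MatrixGroups

section LeftInv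

variable {Λ k : Type*} [CommRing Λ] [Field k] (κ : Λ →+* k) (hκ : Function.Surjective κ)
  (hker : RingHom.ker κ ≤ Ideal.jacobson (⊥ : Ideal Λ)) {M N : Type*} [AddCommGroup M]
  [Module Λ M] [AddCommGroup N] [Module Λ N] {d d' : Type*} [Fintype d] [DecidableEq d]
  [Fintype d'] [DecidableEq d'] (b : Basis d Λ M) (c : Basis d' Λ N) (f : M →ₗ[Λ] N)

include hκ hker b c in
/-- A linear map between free modules, injective modulo an ideal in the radical, has a left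
inverse. -/
theorem exists_left_inverse (hf : ∀ x, f x ∈ (RingHom.ker κ • ⊤ : Submodule Λ N) →
      x ∈ (RingHom.ker κ • ⊤ : Submodule Λ M)) : ∃ h : N →ₗ[Λ] M, ∀ x, h (f x) = x := by
  classical
  have hinj := mulVec_injective_of_sat' κ hκ b c f hf
  set A := LinearMap.toMatrix b c f with hA
  obtain ⟨g, hg⟩ := LinearMap.exists_leftInverse_of_injective (Matrix.toLin' (A.map κ))
    (LinearMap.ker_eq_bot.mpr hinj)
  choose X hX using fun i => fun j => hκ ((LinearMap.toMatrix' g) i j)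
  have hX' : (Matrix.of X : Matrix d d' Λ).map κ = LinearMap.toMatrix' g :=
    Matrix.ext fun i j => hX i j
  have h1 : ((Matrix.of X : Matrix d d' Λ) * A).map κ = 1 := by
    rw [Matrix.map_mul, hX', ← LinearMap.toMatrix'_toLin' (A.map κ), ← LinearMap.toMatrix'_comp,
      hg, LinearMap.toMatrix'_id]
  have hunit : IsUnit ((Matrix.of X : Matrix d d' Λ) * A).det := by
    have h2 : κ ((Matrix.of X : Matrix d d' Λ) * A).det = 1 := by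
      have h3 := RingHom.map_det κ ((Matrix.of X : Matrix d d' Λ) * A)
      rw [h3]
      have h4 : κ.mapMatrix ((Matrix.of X : Matrix d d' Λ) * A) = 1 := h1
      rw [h4, Matrix.det_one]
    have h3 : ((Matrix.of X : Matrix d d' Λ) * A).det - 1 ∈ Ideal.jacobson (⊥ : Ideal Λ) :=
      hker (by rw [RingHom.mem_ker, map_sub, h2, map_one, sub_self])
    have h4 := Ideal.mem_jacobson_bot.mp h3 1
    rwa [mul_one, sub_add_cancel] at h4
  refine ⟨Matrix.toLin c b (((Matrix.of X : Matrix d d' Λ) * A)⁻¹ * Matrix.of X), fun x => ?_⟩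
  have h5 : Matrix.toLin c b (((Matrix.of X : Matrix d d' Λ) * A)⁻¹ * Matrix.of X) ∘ₗ f =
      LinearMap.id := by
    apply (LinearMap.toMatrix b b).injective
    rw [LinearMap.toMatrix_comp b c b, LinearMap.toMatrix_toLin, ← hA, Matrix.mul_assoc,
      Matrix.nonsing_inv_mul _ hunit, LinearMap.toMatrix_id]
  exact LinearMap.congr_fun h5 x

end LeftInv

theorem red_mapRep {O : Type} [CommRing O] [IsLocalRing O] {rbar : GQ →* M2 (ResidueField O)}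
    {A B : Type} [CommRing A] [IsLocalRing A] [Algebra O A] [CommRing B] [IsLocalRing B]
    [Algebra O B] (φ : A →ₐ[O] B) (hφ : IsLocalHom (φ : A →+* B))
    {r : GQ →* M2 A} (h : Red rbar r) : Red rbar (mapRep (φ : A →+* B) r) := by
  intro σ i j o ho
  have h1 := h σ i j o ho
  have h2 : mapRep (φ : A →+* B) r σ i j - algebraMap O B o =
      (φ : A →+* B) (r σ i j - algebraMap O A o) := by
    rw [map_sub, mapRep_apply]
    congr 1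
    exact (AlgHom.commutes φ o).symm
  rw [h2]
  exact map_nonunit (φ : A →+* B) _ h1

theorem exists_conjA {O A A' B B' : Type} [CommRing O] [CommRing A] [CommRing A'] [CommRing B]
    [CommRing B'] [Algebra O A] [Algebra O A'] [Algebra O B] [Algebra O B'] (c : A ≃ₐ[O] A')
    (d : B ≃ₐ[O] B') (g₀ : A →ₐ[O] B) : ∃ g' : A' →ₐ[O] B', ∀ t, g' (c t) = d (g₀ t) := by
  refine ⟨((d : B →ₐ[O] B').comp g₀).comp (c.symm : A' →ₐ[O] A), fun t => ?_⟩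
  show d (g₀ (c.symm (c t))) = _
  rw [AlgEquiv.symm_apply_apply]

section Real

variable {D : Type} [CommGroup D] [Fintype D] [∀ (W : TWD D) (t : ℕ → LT), Fintype (W.Yt t)]
  {m : ℕ} {p : ℕ} [hp : Fact p.Prime]
  {O : Type} [CommRing O] [IsDomain O] [IsDiscreteValuationRing O]
  [IsAdicComplete (maximalIdeal O) O] {rbar : GQ →* M2 (ResidueField O)} {sd : SliceData rbar}
  {g n : ℕ} {P : Fin g → TWP rbar}

/-- A Taylor-Wiles level realised by the localised cohomology at `Y_Q`. -/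
structure RealT {B : BMod sd} (L : TMod p P n B) (W : TWD D) (hM : W.M ∣ m)
    (𝔪 : Ideal (TPoly m O)) [𝔪.IsPrime] {n' : ℕ} (R : HRep (m := m) p n' sd (MQ W hM 𝔪 O)) where
  /-- comparison of the Hecke algebras -/
  c : R.C.T ≃ₐ[O] L.C.T
  hr : mapRep (c : R.C.T →+* L.C.T) R.C.r = L.C.r
  /-- comparison of the modules -/
  e : L.M ≃+ MQ W hM 𝔪 O
  smul : ∀ Q x, e (c (R.φ Q) • x) = Q • e x
  /-- comparison of the base modules -/
  e₀ : Loc 𝔪 ((XF hM).H (funRep (M := W.M) O O W.Y0)) ≃+ B.M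
  e₀O : ∀ (o : O) x, e₀ ((MvPolynomial.C o : TPoly m O) • x) = o • e₀ x
  hπ : ∀ x, L.π x = e₀ (pushQ W 𝔪 O hM (e x))

variable {W : TWD D} {hM : W.M ∣ m} {𝔪 : Ideal (TPoly m O)} [𝔪.IsPrime] {n' : ℕ}
  {R : HRep (m := m) p n' sd (MQ W hM 𝔪 O)} {B : BMod sd} {L : TMod p P n B}
  (a : RealT L W hM 𝔪 R)

namespace RealT

theorem tr (σ : GQ) : (L.C.r σ).trace = a.c (R.C.r σ).trace := by
  rw [← a.hr, trace_mapRep]
  rfl

theorem smul' (Q : TPoly m O) (x : L.M) : a.c (R.φ Q) • x = a.e.symm (Q • a.e x) := by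
  rw [AddEquiv.eq_symm_apply, a.smul]

theorem algebraMap_eq (o : O) : algebraMap O L.C.T o = a.c (R.φ (MvPolynomial.C o)) := by
  rw [MvPolynomial.algHom_C, AlgEquiv.commutes]

theorem e_algebraMap (o : O) (x : L.M) :
    a.e (algebraMap O L.C.T o • x) = (MvPolynomial.C o : TPoly m O) • a.e x := by
  rw [a.algebraMap_eq, a.smul]

theorem exists_poly (t : L.C.T) : ∃ Q, a.c (R.φ Q) = t := by
  obtain ⟨Q, hQ⟩ := R.surj (a.c.symm t)
  exact ⟨Q, by rw [hQ, AlgEquiv.apply_symm_apply]⟩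

theorem π_mem {z : L.M} (hz : z ∈ (JLam p g O n • ⊤ : Submodule (Lam p g O n) L.M)) (ϖ : O)
    (hϖ : Irreducible ϖ) : ∃ w, L.π z = ϖ • w := by
  have : NeZero p := ⟨hp.out.ne_zero⟩
  have key : ∀ a : Lam p g O n, a ∈ JLam p g O n → ∃ b, augL p g O n a = ϖ * b := by
    intro a ha
    rw [← ker_kapL] at ha
    have h1 : residue O (augL p g O n a) = 0 := ha
    rw [residue_eq_zero_iff, hϖ.maximalIdeal_eq, Ideal.mem_span_singleton] at h1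
    exact h1
  refine Submodule.smul_induction_on hz (fun a ha y _ => ?_) (fun y z hy hz => ?_)
  · obtain ⟨b, hb⟩ := key a ha
    exact ⟨b • L.π y, by rw [L.π_lam, hb, mul_smul]⟩
  · obtain ⟨w, hw⟩ := hy
    obtain ⟨w', hw'⟩ := hz
    exact ⟨w + w', by rw [map_add, hw, hw', smul_add]⟩

theorem mem_of_push {x : L.M} {ϖ : O} (hϖ : Irreducible ϖ)
    (h : ∃ y, pushQ W 𝔪 O hM (a.e x) = (MvPolynomial.C ϖ : TPoly m O) • y) :
    x ∈ (JLam p g O n • ⊤ : Submodule (Lam p g O n) L.M) := by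
  have : NeZero p := ⟨hp.out.ne_zero⟩
  obtain ⟨y, hy⟩ := h
  obtain ⟨x', hx'⟩ := L.π_surj (a.e₀ y)
  have h1 : L.π (x - algebraMap O (Lam p g O n) ϖ • x') = 0 := by
    rw [map_sub, L.π_lam, AlgHom.commutes, hx', a.hπ, hy, a.e₀O, sub_eq_zero]
    rfl
  have h2 := L.π_ker _ h1
  have h3 : x = algebraMap O (Lam p g O n) ϖ • x' + (x - algebraMap O (Lam p g O n) ϖ • x') := by
    abel
  rw [h3]
  refine Submodule.add_mem _ (Submodule.smul_mem_smul ?_ trivial)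
    (Submodule.smul_mono le_sup_right le_rfl h2)
  refine Ideal.mem_sup_left (Ideal.mem_map_of_mem _ ?_)
  rw [hϖ.maximalIdeal_eq]
  exact Ideal.mem_span_singleton_self ϖ

end RealT

end Real

section Build

variable {D : Type} [CommGroup D] [Fintype D] [∀ (W : TWD D) (t : ℕ → LT), Fintype (W.Yt t)]
  (W : TWD D) {l : ℕ} (hl : l.Prime) (hlQ : l ∉ W.Q)
  {m : ℕ} (hM : W.M ∣ m) (hM' : (raise W hl hlQ).M ∣ m) (hlN : ¬ l ∣ W.N) (hm : m ≠ 0)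
  {p : ℕ} [hp : Fact p.Prime] (hpm : p ∣ m) (hlp : l ≠ p)
  {O : Type} [CommRing O] [IsDomain O] [IsDiscreteValuationRing O]
  [IsAdicComplete (maximalIdeal O) O] (hpO : (p : O) ∈ maximalIdeal O)
  (𝔪 : Ideal (TPoly m O)) [𝔪.IsPrime] {rbar : GQ →* M2 (ResidueField O)} {sd : SliceData rbar}
  {g n : ℕ} {P : Fin g → TWP rbar} {n₁ n₂ : ℕ}
  {R₁ : HRep (m := m) p n₁ sd (MQ W hM 𝔪 O)}
  {R₂ : HRep (m := m) p n₂ sd (MQ (raise W hl hlQ) hM' 𝔪 O)}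
  {B₁ B₂ : BMod sd} {L₁ : TMod p P n B₁} {L₂ : TMod p P n B₂}
  (a₁ : RealT L₁ W hM 𝔪 R₁) (a₂ : RealT L₂ (raise W hl hlQ) hM' 𝔪 R₂)

/-- the degeneracy map `up` -/
def upA : L₁.M × L₁.M →+ L₂.M where
  toFun x := a₂.e.symm ((DQ W hl hlQ hM hM' hlN 𝔪 O).up (a₁.e x.1, a₁.e x.2))
  map_zero' := by
    rw [Prod.fst_zero, Prod.snd_zero, map_zero]
    exact (congrArg a₂.e.symm (map_zero (DQ W hl hlQ hM hM' hlN 𝔪 O).up)).trans (map_zero _)
  map_add' x y := by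
    rw [← map_add, ← map_add, Prod.fst_add, Prod.snd_add, map_add, map_add]
    rfl

/-- the degeneracy map `down` -/
def downA : L₂.M →+ L₁.M × L₁.M where
  toFun x := (a₁.e.symm ((DQ W hl hlQ hM hM' hlN 𝔪 O).down (a₂.e x)).1,
    a₁.e.symm ((DQ W hl hlQ hM hM' hlN 𝔪 O).down (a₂.e x)).2)
  map_zero' := by
    rw [map_zero, map_zero, Prod.fst_zero, Prod.snd_zero, map_zero]
    rfl
  map_add' x y := by
    rw [map_add, map_add, Prod.fst_add, Prod.snd_add, map_add, map_add]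
    rfl

theorem e_upA (x y : L₁.M) : a₂.e (upA W hl hlQ hM hM' hlN 𝔪 a₁ a₂ (x, y)) =
    (DQ W hl hlQ hM hM' hlN 𝔪 O).up (a₁.e x, a₁.e y) := a₂.e.apply_symm_apply _

theorem e_downA₁ (x : L₂.M) : a₁.e (downA W hl hlQ hM hM' hlN 𝔪 a₁ a₂ x).1 =
    ((DQ W hl hlQ hM hM' hlN 𝔪 O).down (a₂.e x)).1 := a₁.e.apply_symm_apply _

theorem e_downA₂ (x : L₂.M) : a₁.e (downA W hl hlQ hM hM' hlN 𝔪 a₁ a₂ x).2 =
    ((DQ W hl hlQ hM hM' hlN 𝔪 O).down (a₂.e x)).2 := a₁.e.apply_symm_apply _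

theorem upA_smul (Q : TPoly m O) (x y : L₁.M) :
    upA W hl hlQ hM hM' hlN 𝔪 a₁ a₂ (a₁.c (R₁.φ Q) • x, a₁.c (R₁.φ Q) • y) =
      a₂.c (R₂.φ Q) • upA W hl hlQ hM hM' hlN 𝔪 a₁ a₂ (x, y) := by
  apply a₂.e.injective
  rw [e_upA, a₁.smul, a₁.smul, a₂.smul, e_upA]
  exact map_smul (DQ W hl hlQ hM hM' hlN 𝔪 O).up Q (a₁.e x, a₁.e y)

theorem downA_smul (Q : TPoly m O) (x : L₂.M) :
    downA W hl hlQ hM hM' hlN 𝔪 a₁ a₂ (a₂.c (R₂.φ Q) • x) =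
      (a₁.c (R₁.φ Q) • (downA W hl hlQ hM hM' hlN 𝔪 a₁ a₂ x).1,
        a₁.c (R₁.φ Q) • (downA W hl hlQ hM hM' hlN 𝔪 a₁ a₂ x).2) := by
  refine Prod.ext (a₁.e.injective ?_) (a₁.e.injective ?_)
  · rw [e_downA₁, a₁.smul, a₂.smul, e_downA₁, map_smul]
    rfl
  · rw [e_downA₂, a₁.smul, a₂.smul, e_downA₂, map_smul]
    rfl

variable {ϖ : O} (hϖ : Irreducible ϖ)
  (hinj : UpInj (D0 W hl hlQ hM hM' hlN 𝔪 O) (MvPolynomial.C ϖ))
  (hsurj : Function.Surjective (D0 W hl hlQ hM hM' hlN 𝔪 O).down)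

include hϖ hinj in
theorem upA_inj (x y : L₁.M) (h : upA W hl hlQ hM hM' hlN 𝔪 a₁ a₂ (x, y) ∈
      (JLam p g O n • ⊤ : Submodule (Lam p g O n) L₂.M)) :
    x ∈ (JLam p g O n • ⊤ : Submodule (Lam p g O n) L₁.M) ∧
      y ∈ (JLam p g O n • ⊤ : Submodule (Lam p g O n) L₁.M) := by
  obtain ⟨w, hw⟩ := RealT.π_mem (L := L₂) h ϖ hϖ
  obtain ⟨w, rfl⟩ := a₂.e₀.surjective w
  rw [a₂.hπ, ← a₂.e₀O, e_upA] at hw
  have h1 := a₂.e₀.injective hw
  have h2 := (degHom_pushQ W hl hlQ hM hM' hlN 𝔪 O).up (a₁.e x) (a₁.e y)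
  obtain ⟨a', b', ha, hb⟩ := hinj _ _ _ (h2.trans h1)
  exact ⟨a₁.mem_of_push hϖ ⟨a', ha⟩, a₁.mem_of_push hϖ ⟨b', hb⟩⟩

include hpO hsurj in
theorem downA_surj : Function.Surjective (downA W hl hlQ hM hM' hlN 𝔪 a₁ a₂) := by
  have : NeZero p := ⟨hp.out.ne_zero⟩
  -- the range is a submodule over the group algebra
  let N : Submodule (Lam p g O n) (L₁.M × L₁.M) :=
    { carrier := Set.range (downA W hl hlQ hM hM' hlN 𝔪 a₁ a₂)
      zero_mem' := ⟨0, map_zero _⟩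
      add_mem' := by
        rintro _ _ ⟨x, rfl⟩ ⟨y, rfl⟩
        exact ⟨x + y, map_add _ _ _⟩
      smul_mem' := by
        rintro a _ ⟨x, rfl⟩
        obtain ⟨Q, hQ⟩ := a₁.exists_poly (L₁.γ a)
        refine ⟨a₂.c (R₂.φ Q) • x, ?_⟩
        rw [downA_smul, hQ, L₁.γ_smul, L₁.γ_smul]
        rfl }
  have key : (⊤ : Submodule (Lam p g O n) (L₁.M × L₁.M)) ≤ N := by
    refine Submodule.le_of_le_smul_of_le_jacobson_bot
      (I := Ideal.span (Set.range (delm p g O n))) Module.Finite.fg_top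
      (span_delm_le_jacobson hp.out hpO) ?_
    rintro ⟨x, y⟩ -
    obtain ⟨z₀, hz₀⟩ := hsurj (pushQ W 𝔪 O hM (a₁.e x), pushQ W 𝔪 O hM (a₁.e y))
    obtain ⟨z, hz⟩ := L₂.π_surj (a₂.e₀ z₀)
    rw [a₂.hπ] at hz
    have hz' := a₂.e₀.injective hz
    have h2 := (degHom_pushQ W hl hlQ hM hM' hlN 𝔪 O).down (a₂.e z)
    rw [hz', hz₀] at h2
    have h3 := Prod.mk.inj h2
    have h4 : ∀ (u v : L₁.M), pushQ W 𝔪 O hM (a₁.e u) = pushQ W 𝔪 O hM (a₁.e v) →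
        u - v ∈ (Ideal.span (Set.range (delm p g O n)) • ⊤ :
          Submodule (Lam p g O n) L₁.M) := by
      intro u v huv
      apply L₁.π_ker
      rw [map_sub, a₁.hπ, a₁.hπ, huv, sub_self]
    have h5 := h4 x (downA W hl hlQ hM hM' hlN 𝔪 a₁ a₂ z).1 (by rw [e_downA₁]; exact h3.1)
    have h6 := h4 y (downA W hl hlQ hM hM' hlN 𝔪 a₁ a₂ z).2 (by rw [e_downA₂]; exact h3.2)
    have h7 : (x, y) = downA W hl hlQ hM hM' hlN 𝔪 a₁ a₂ z +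
        (x - (downA W hl hlQ hM hM' hlN 𝔪 a₁ a₂ z).1,
          y - (downA W hl hlQ hM hM' hlN 𝔪 a₁ a₂ z).2) := by
      refine Prod.ext ?_ ?_
      · rw [Prod.fst_add, add_sub_cancel]
      · rw [Prod.snd_add, add_sub_cancel]
    rw [h7]
    exact Submodule.add_mem_sup ⟨z, rfl⟩ (mem_smul_top_prod _ h5 h6)
  intro y
  exact key (Submodule.mem_top (x := y))

include hpO hϖ hinj hsurj in
/-- **Degeneracy data between the Taylor-Wiles levels `N` and `N l`.** -/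
def mkDegT : DegT L₂ L₁ (FrobsOut m) where
  up := upA W hl hlQ hM hM' hlN 𝔪 a₁ a₂
  down := downA W hl hlQ hM hM' hlN 𝔪 a₁ a₂
  upO o x y := by
    rw [a₁.algebraMap_eq, a₂.algebraMap_eq, upA_smul]
  downO o x := by
    rw [a₁.algebraMap_eq, a₂.algebraMap_eq, downA_smul]
  up_tr σ hσ x y := by
    obtain ⟨s, hs, hsm, A, hA, hσ⟩ := hσ
    rw [a₁.tr, a₂.tr, (R₁.tr ⟨s, hs, hsm⟩ A hA σ hσ).1, (R₂.tr ⟨s, hs, hsm⟩ A hA σ hσ).1,
      upA_smul]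
  down_tr σ hσ x := by
    obtain ⟨s, hs, hsm, A, hA, hσ⟩ := hσ
    rw [a₁.tr, a₂.tr, (R₁.tr ⟨s, hs, hsm⟩ A hA σ hσ).1, (R₂.tr ⟨s, hs, hsm⟩ A hA σ hσ).1,
      downA_smul]
  inj x y h := upA_inj W hl hlQ hM hM' hlN 𝔪 a₁ a₂ hϖ hinj x y h
  surj := downA_surj W hl hlQ hM hM' hlN hpO 𝔪 a₁ a₂ hsurj

end Build

section Lin

variable (hES : ∀ (n : ℕ) [NeZero n], ES n) (hloc : LocNew) (h30 : HeckeGal.S30Statement)
  {D : Type} [CommGroup D] [Fintype D] [∀ (W : TWD D) (t : ℕ → LT), Fintype (W.Yt t)]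
  (W : TWD D) {l : ℕ} (hl : l.Prime) (hlQ : l ∉ W.Q)
  {m : ℕ} (hM : W.M ∣ m) (hM' : (raise W hl hlQ).M ∣ m) (hlN : ¬ l ∣ W.N) (hm : m ≠ 0)
  {p : ℕ} [hp : Fact p.Prime] (hpm : p ∣ m) (hlp : l ≠ p)
  {O : Type} [CommRing O] [IsDomain O] [IsDiscreteValuationRing O]
  [IsAdicComplete (maximalIdeal O) O] [Finite (ResidueField O)] [CharZero O]
  (hpO : (p : O) ∈ maximalIdeal O)
  (𝔪 : Ideal (TPoly m O)) [𝔪.IsMaximal] (hE : NonEis W.M 𝔪)
  (hE' : NonEis (raise W hl hlQ).M 𝔪)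
  {rbar : GQ →* M2 (ResidueField O)} {sd : SliceData rbar}
  (hspan : Submodule.span (ResidueField O) (Set.range rbar) = ⊤)
  {g n : ℕ} {P : Fin g → TWP rbar} {n₁ n₂ : ℕ}
  {R₁ : HRep (m := m) p n₁ sd (MQ W hM 𝔪 O)}
  {R₂ : HRep (m := m) p n₂ sd (MQ (raise W hl hlQ) hM' 𝔪 O)}
  {B₁ B₂ : BMod sd} {L₁ : TMod p P n B₁} {L₂ : TMod p P n B₂}
  (a₁ : RealT L₁ W hM 𝔪 R₁) (a₂ : RealT L₂ (raise W hl hlQ) hM' 𝔪 R₂)

include hES hm hpm hlp hE hlN hspan in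
/-- the map between the Hecke algebras -/
theorem exists_TA : ∃ g' : L₂.C.T →ₐ[O] L₁.C.T,
    (∀ Q, g' (a₂.c (R₂.φ Q)) = a₁.c (R₁.φ Q)) ∧
    mapRep (g' : L₂.C.T →+* L₁.C.T) L₂.C.r = L₁.C.r := by
  obtain ⟨g₀, hg, hgt⟩ := exists_T_map hES W hl hlQ hM hM' hlN hm hpm hlp 𝔪 hE R₁ R₂
  obtain ⟨g', h1⟩ := exists_conjA a₂.c a₁.c g₀
  refine ⟨g', fun Q => by rw [h1, hg], ?_⟩
  have hgl := isLocalHom_of_algHom g'
  refine norm_unique sd hspan (mapRep_cont (g' : L₂.C.T →+* L₁.C.T) hgl L₂.C.r L₂.C.cont)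
    L₁.C.cont (red_mapRep g' hgl L₂.C.red) L₁.C.red (L₂.C.norm.map g')
    L₁.C.norm ∅ fun s _ _ A _ τ _ => ?_
  rw [trace_mapRep, a₁.tr, a₂.tr, ← hgt]
  exact h1 _

include hES hm hpm hlp hE hlN hspan in
theorem upA_lam (b : Lam p g O n) (x y : L₁.M) :
    upA W hl hlQ hM hM' hlN 𝔪 a₁ a₂ (b • x, b • y) =
      b • upA W hl hlQ hM hM' hlN 𝔪 a₁ a₂ (x, y) := by
  have : NeZero p := ⟨hp.out.ne_zero⟩
  obtain ⟨g', hg, hr⟩ := exists_TA hES W hl hlQ hM hM' hlN hm hpm hlp 𝔪 hE hspan a₁ a₂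
  have h1 : g'.comp L₂.γ = L₁.γ := by
    refine gam_unique fun i => ?_
    show g' (L₂.γ (delm p g O n i)) = L₁.γ (delm p g O n i)
    rw [L₂.γ_delm, L₁.γ_delm, map_sub, map_one, map_theta (P i) g' hr L₂.C.red L₁.C.red]
  obtain ⟨Q, hQ⟩ := a₂.exists_poly (L₂.γ b)
  have h2 : L₁.γ b = a₁.c (R₁.φ Q) := by
    rw [← h1, ← hg, hQ]
    rfl
  rw [← L₁.γ_smul, ← L₁.γ_smul, h2, upA_smul, hQ, L₂.γ_smul]

include hES hm hpm hlp hE hlN hspan in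
/-- `up` is linear over the group algebra -/
theorem exists_upL : ∃ f : (L₁.M × L₁.M) →ₗ[Lam p g O n] L₂.M, ∀ x,
    f x = upA W hl hlQ hM hM' hlN 𝔪 a₁ a₂ x :=
  ⟨{ toFun := upA W hl hlQ hM hM' hlN 𝔪 a₁ a₂
     map_add' := map_add _
     map_smul' := fun b x =>
       upA_lam hES W hl hlQ hM hM' hlN hm hpm hlp 𝔪 hE hspan a₁ a₂ b x.1 x.2 }, fun _ => rfl⟩

variable {ϖ : O} (hϖ : Irreducible ϖ)
  (hinj : UpInj (D0 W hl hlQ hM hM' hlN 𝔪 O) (MvPolynomial.C ϖ))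
  (hsurj : Function.Surjective (D0 W hl hlQ hM hM' hlN 𝔪 O).down)

include hES hm hpm hlp hE hlN hspan hϖ hinj hpO in
/-- `up` has a left inverse over the group algebra -/
theorem exists_upL_inv : ∃ h : L₂.M →ₗ[Lam p g O n] (L₁.M × L₁.M), ∀ x,
    h (upA W hl hlQ hM hM' hlN 𝔪 a₁ a₂ x) = x := by
  have : NeZero p := ⟨hp.out.ne_zero⟩
  obtain ⟨f, hf⟩ := exists_upL hES W hl hlQ hM hM' hlN hm hpm hlp 𝔪 hE hspan a₁ a₂
  have hac := isAdicComplete_Lam (𝒪 := O) (g := g) hp.out hpO n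
  obtain ⟨h, hh⟩ := exists_left_inverse (kapL p g O n) kapL_surjective
    (by rw [ker_kapL]; exact IsAdicComplete.le_jacobson_bot (JLam p g O n))
    ((L₁.b hp.out hpO).prod (L₁.b hp.out hpO)) (L₂.b hp.out hpO) f (fun x hx => by
      rw [ker_kapL] at hx ⊢
      rw [hf] at hx
      obtain ⟨h1, h2⟩ := upA_inj W hl hlQ hM hM' hlN 𝔪 a₁ a₂ hϖ hinj x.1 x.2 hx
      exact mem_smul_top_prod _ h1 h2)
  exact ⟨h, fun x => by rw [← hf, hh]⟩

include hES hm hpm hlp hE hE' hlN hspan hϖ hinj hpO a₁ a₂ in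
/-- the image of `up` is saturated -/
theorem up_sat (o : O) (x : MQ (raise W hl hlQ) hM' 𝔪 O) (ho : o ≠ 0)
    (hx : ∃ y, (DQ W hl hlQ hM hM' hlN 𝔪 O).up y = o • x) :
    ∃ y, (DQ W hl hlQ hM hM' hlN 𝔪 O).up y = x := by
  obtain ⟨h, hh⟩ := exists_upL_inv hES W hl hlQ hM hM' hlN hm hpm hlp hpO 𝔪 hE hspan a₁ a₂ hϖ
    hinj
  obtain ⟨y, hy⟩ := hx
  obtain ⟨u, hu⟩ := a₁.e.surjective y.1
  obtain ⟨v, hv⟩ := a₁.e.surjective y.2
  obtain ⟨x', rfl⟩ := a₂.e.surjective x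
  have h1 : upA W hl hlQ hM hM' hlN 𝔪 a₁ a₂ (u, v) = algebraMap O L₂.C.T o • x' := by
    apply a₂.e.injective
    rw [e_upA, hu, hv, a₂.e_algebraMap, Loc.C_smul]
    exact hy
  have h2 : upA W hl hlQ hM hM' hlN 𝔪 a₁ a₂ (u, v) = algebraMap O (Lam p g O n) o • x' := by
    rw [h1, ← L₂.γ_smul, AlgHom.commutes]
  have h3 := congrArg h h2
  rw [hh, map_smul] at h3
  have h4 := Prod.mk.inj h3
  refine ⟨(a₁.e (h x').1, a₁.e (h x').2), ?_⟩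
  rw [← e_upA W hl hlQ hM hM' hlN 𝔪 a₁ a₂]
  have h5 : algebraMap O L₂.C.T o • upA W hl hlQ hM hM' hlN 𝔪 a₁ a₂ ((h x').1, (h x').2) =
      algebraMap O L₂.C.T o • x' := by
    rw [← h1, ← AlgHom.commutes L₂.γ, L₂.γ_smul,
      ← upA_lam hES W hl hlQ hM hM' hlN hm hpm hlp 𝔪 hE hspan a₁ a₂]
    rw [h4.1, h4.2]
  have h6 := congrArg a₂.e h5
  rw [a₂.e_algebraMap, a₂.e_algebraMap, Loc.C_smul, Loc.C_smul, ← sub_eq_zero, ← smul_sub] at h6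
  exact sub_eq_zero.mp (loc_smul_eq_zero 𝔪 hE' o _ ho h6)

variable {B : ValuationSubring (AlgebraicClosure ℚ)} (hB : B.LiesOverPrime l) {τ : GQ}
  (hτ : B.IsFrobeniusAt τ l)

include hES hm hpm hlp hE hlN hpO h30 hB hτ in
theorem comp_A (x y : L₁.M) :
    downA W hl hlQ hM hM' hlN 𝔪 a₁ a₂ (upA W hl hlQ hM hM' hlN 𝔪 a₁ a₂ (x, y)) =
      (((l : L₁.C.T) + 1) • x + (L₁.C.r τ).trace • y,
       (L₁.C.r τ).trace • x + ((l : L₁.C.T) + 1) • y) := by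
  obtain ⟨Q, hQ⟩ := R₁.surj (R₁.C.r τ).trace
  have hT := Tl_eq_trace hES W hl hlQ hM hM' hlN hm hpm hlp hpO 𝔪 hE h30 R₁ B hB τ hτ Q hQ
  have h1 : ∀ z : L₁.M, a₁.e (((l : L₁.C.T) + 1) • z) = (l + 1) • a₁.e z := by
    intro z
    have h : ((l : L₁.C.T) + 1) • z = (l + 1) • z := by
      rw [← Nat.cast_succ, Nat.cast_smul_eq_nsmul]
    rw [h, map_nsmul]
  have h2 : ∀ z : L₁.M, a₁.e ((L₁.C.r τ).trace • z) =
      (DQ W hl hlQ hM hM' hlN 𝔪 O).T (a₁.e z) := by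
    intro z
    rw [hT, a₁.tr, ← hQ, a₁.smul]
  have h3 := (DQ W hl hlQ hM hM' hlN 𝔪 O).down_up (a₁.e x) (a₁.e y)
  refine Prod.ext (a₁.e.injective ?_) (a₁.e.injective ?_)
  · rw [e_downA₁, e_upA, h3]
    show _ = a₁.e (((l : L₁.C.T) + 1) • x + (L₁.C.r τ).trace • y)
    rw [map_add, h1, h2]
    rfl
  · rw [e_downA₂, e_upA, h3]
    show _ = a₁.e ((L₁.C.r τ).trace • x + ((l : L₁.C.T) + 1) • y)
    rw [map_add, h1, h2]
    rfl

include hES hloc hm hpm hlp hE hE' hlN hpO h30 hB hτ hϖ hinj hspan in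
theorem new_A (x : L₂.M) : ∃ y, ((L₂.C.r τ).trace ^ 2 - ((l : L₂.C.T) + 1) ^ 2) • x =
    upA W hl hlQ hM hM' hlN 𝔪 a₁ a₂ y := by
  obtain ⟨β, hβ⟩ := R₂.surj ((R₂.C.r τ).trace ^ 2 - ((l : R₂.C.T) + 1) ^ 2)
  obtain ⟨y, hy⟩ := new_range hES hloc h30 W hl hlQ hM hM' hlN hm hpm hlp hpO 𝔪 hE hE' R₁ R₂ hB
    hτ hβ (up_sat hES W hl hlQ hM hM' hlN hm hpm hlp hpO 𝔪 hE hE' hspan a₁ a₂ hϖ hinj)
    (a₂.e x)
  obtain ⟨u, hu⟩ := a₁.e.surjective y.1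
  obtain ⟨v, hv⟩ := a₁.e.surjective y.2
  refine ⟨(u, v), a₂.e.injective ?_⟩
  rw [e_upA, hu, hv]
  have h1 : (L₂.C.r τ).trace ^ 2 - ((l : L₂.C.T) + 1) ^ 2 = a₂.c (R₂.φ β) := by
    rw [hβ, map_sub, map_pow, map_pow, map_add, map_natCast, map_one, a₂.tr]
  rw [h1, a₂.smul]
  exact hy.symm

include hES hloc hm hpm hlp hE hE' hlN hpO h30 hB hτ hϖ hinj hsurj hspan in
/-- **Degeneracy data between the Taylor-Wiles levels `N` and `N l`**, with the composition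
formula and the structure of the new part. -/
def mkDegPT : DegPT L₂ L₁ (FrobsOut m) l τ where
  toDegT := mkDegT W hl hlQ hM hM' hlN hpO 𝔪 a₁ a₂ hϖ hinj hsurj
  comp x y := comp_A hES h30 W hl hlQ hM hM' hlN hm hpm hlp hpO 𝔪 hE a₁ a₂ hB hτ x y
  new x := new_A hES hloc h30 W hl hlQ hM hM' hlN hm hpm hlp hpO 𝔪 hE hE' hspan a₁ a₂ hϖ hinj
    hB hτ x

end Lin

end Fermat.Agent.TWDeg

end
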