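import Fermat.Agent.TWDeg.Stg

/-!
# Iterated degeneracy maps: `M(Γ₀(n ∏ Q))_𝔪 = M(Γ₀(n))_𝔪 ^ (2 ^ #Q)`
-/

set_option autoImplicit false
set_option linter.unusedSectionVars false

noncomputable section

namespace Fermat.Agent.TWDeg

open Fermat.Agent.TW
open Matrix.SpecialLinearGroup
open scoped MatrixGroups

variable {m M : ℕ} (hM : M ∣ m) {R : Type} [CommRing R] {V : Type} [AddCommGroup V] [Module R V]
  (ρ : Representation R (Gp M) V)

/-- the Hecke operator at an arbitrary prime not dividing the level -/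
def Tg (n : ℕ) (hn : n ∣ m) {l : ℕ} (hl : l.Prime) (hln : l.Coprime n) (hlM : l.Coprime M) :
    (Stg.gamma0 n hn hM).H ρ →ₗ[TPoly m R] (Stg.gamma0 n hn hM).H ρ :=
  Stg.polyLin (((Lvl.gamma0 n).corrT M hl hlM (Lvl.ok_gamma0 hln)).map ρ) fun l' x =>
    (Lvl.gamma0 n).corrT_comm ρ hl hlM (Lvl.ok_gamma0 hln) l'.2.1 (l'.coprime hM)
      (Lvl.ok_gamma0 (l'.coprime hn)) x

theorem Tg_apply (n : ℕ) (hn : n ∣ m) {l : ℕ} (hl : l.Prime) (hln : l.Coprime n)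
    (hlM : l.Coprime M) (x : (Stg.gamma0 n hn hM).H ρ) :
    Tg hM ρ n hn hl hln hlM x =
      ((Lvl.gamma0 n).corrT M hl hlM (Lvl.ok_gamma0 hln)).map ρ x := rfl

/-- for primes of the polynomial ring this is the action of the variable -/
theorem Tg_eq (n : ℕ) (hn : n ∣ m) (l : Pr m) (x : (Stg.gamma0 n hn hM).H ρ) :
    Tg hM ρ n hn l.2.1 (l.coprime hn) (l.coprime hM) x = (MvPolynomial.X l : TPoly m R) • x := by
  rw [Stg.X_smul]
  rfl

variable (𝔪 : Ideal (TPoly m R)) [𝔪.IsPrime]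

/-- the localised module of level `Γ₀(n)` -/
abbrev MN (n : ℕ) (hn : n ∣ m) : Type := Loc 𝔪 ((Stg.gamma0 n hn hM).H ρ)

/-- the localised Hecke operator -/
def TN (n : ℕ) (hn : n ∣ m) {l : ℕ} (hl : l.Prime) (hln : l.Coprime n) (hlM : l.Coprime M) :
    MN hM ρ 𝔪 n hn →ₗ[TPoly m R] MN hM ρ 𝔪 n hn := Loc.map 𝔪 (Tg hM ρ n hn hl hln hlM)

/-- the localised determinant -/
def detN (n : ℕ) (hn : n ∣ m) {l : ℕ} (hl : l.Prime) (hln : l.Coprime n) (hlM : l.Coprime M) :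
    MN hM ρ 𝔪 n hn →ₗ[TPoly m R] MN hM ρ 𝔪 n hn :=
  ((l + 1) ^ 2 : ℕ) • LinearMap.id - TN hM ρ 𝔪 n hn hl hln hlM ∘ₗ TN hM ρ 𝔪 n hn hl hln hlM

theorem detN_apply (n : ℕ) (hn : n ∣ m) {l : ℕ} (hl : l.Prime) (hln : l.Coprime n)
    (hlM : l.Coprime M) (x : MN hM ρ 𝔪 n hn) : detN hM ρ 𝔪 n hn hl hln hlM x =
      ((l + 1) ^ 2 : ℕ) • x - TN hM ρ 𝔪 n hn hl hln hlM (TN hM ρ 𝔪 n hn hl hln hlM x) := rfl

section Deg

variable {n q : ℕ} (hq : q.Prime) (h : q.Coprime n) (hqM : q.Coprime M) (hn : n ∣ m)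
  (hnq : n * q ∣ m) (hρ : ρ (scal hq hqM) = 1)

/-- the localised degeneracy data -/
abbrev degN : DegData (TPoly m R) (MN hM ρ 𝔪 n hn) (MN hM ρ 𝔪 (n * q) hnq) :=
  (degData ρ hq h hqM hn hnq hM hρ).loc 𝔪

theorem degN_det : (degN hM ρ 𝔪 hq h hqM hn hnq hρ).det = detN hM ρ 𝔪 n hn hq h hqM := rfl

theorem degN_I_T {l : ℕ} (hl : l.Prime) (hln : l.Coprime (n * q)) (hlM : l.Coprime M)
    (x : MN hM ρ 𝔪 n hn) :
    (degN hM ρ 𝔪 hq h hqM hn hnq hρ).I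
      (TN hM ρ 𝔪 n hn hl (Nat.Coprime.coprime_mul_right_right hln) hlM x) =
    TN hM ρ 𝔪 (n * q) hnq hl hln hlM ((degN hM ρ 𝔪 hq h hqM hn hnq hρ).I x) := by
  have h1 : (degData ρ hq h hqM hn hnq hM hρ).I ∘ₗ
      Tg hM ρ n hn hl (Nat.Coprime.coprime_mul_right_right hln) hlM =
      Tg hM ρ (n * q) hnq hl hln hlM ∘ₗ (degData ρ hq h hqM hn hnq hM hρ).I :=
    LinearMap.ext fun x => I_T ρ hl hln hlM x
  have h2 := congrArg (Loc.map 𝔪) h1
  rw [Loc.map_comp, Loc.map_comp] at h2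
  exact LinearMap.congr_fun h2 x

theorem degN_W_T {l : ℕ} (hl : l.Prime) (hln : l.Coprime (n * q)) (hlM : l.Coprime M)
    (x : MN hM ρ 𝔪 (n * q) hnq) :
    (degN hM ρ 𝔪 hq h hqM hn hnq hρ).W (TN hM ρ 𝔪 (n * q) hnq hl hln hlM x) =
    TN hM ρ 𝔪 (n * q) hnq hl hln hlM ((degN hM ρ 𝔪 hq h hqM hn hnq hρ).W x) := by
  have h1 : (degData ρ hq h hqM hn hnq hM hρ).W ∘ₗ Tg hM ρ (n * q) hnq hl hln hlM =
      Tg hM ρ (n * q) hnq hl hln hlM ∘ₗ (degData ρ hq h hqM hn hnq hM hρ).W :=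
    LinearMap.ext fun x => W_T ρ hq h hqM hl hln hlM x
  have h2 := congrArg (Loc.map 𝔪) h1
  rw [Loc.map_comp, Loc.map_comp] at h2
  exact LinearMap.congr_fun h2 x

theorem degN_J_T {l : ℕ} (hl : l.Prime) (hln : l.Coprime (n * q)) (hlM : l.Coprime M)
    (x : MN hM ρ 𝔪 (n * q) hnq) :
    (degN hM ρ 𝔪 hq h hqM hn hnq hρ).J (TN hM ρ 𝔪 (n * q) hnq hl hln hlM x) =
    TN hM ρ 𝔪 n hn hl (Nat.Coprime.coprime_mul_right_right hln) hlM
      ((degN hM ρ 𝔪 hq h hqM hn hnq hρ).J x) := by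
  have h1 : (degData ρ hq h hqM hn hnq hM hρ).J ∘ₗ Tg hM ρ (n * q) hnq hl hln hlM =
      Tg hM ρ n hn hl (Nat.Coprime.coprime_mul_right_right hln) hlM ∘ₗ
        (degData ρ hq h hqM hn hnq hM hρ).J :=
    LinearMap.ext fun x => J_T ρ hq h hl hln hlM x
  have h2 := congrArg (Loc.map 𝔪) h1
  rw [Loc.map_comp, Loc.map_comp] at h2
  exact LinearMap.congr_fun h2 x

theorem degN_up_T {l : ℕ} (hl : l.Prime) (hln : l.Coprime (n * q)) (hlM : l.Coprime M)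
    (a b : MN hM ρ 𝔪 n hn) :
    (degN hM ρ 𝔪 hq h hqM hn hnq hρ).up
      (TN hM ρ 𝔪 n hn hl (Nat.Coprime.coprime_mul_right_right hln) hlM a,
        TN hM ρ 𝔪 n hn hl (Nat.Coprime.coprime_mul_right_right hln) hlM b) =
    TN hM ρ 𝔪 (n * q) hnq hl hln hlM ((degN hM ρ 𝔪 hq h hqM hn hnq hρ).up (a, b)) := by
  rw [DegData.up_apply, DegData.up_apply, degN_I_T hM ρ 𝔪 hq h hqM hn hnq hρ hl hln hlM,
    degN_I_T hM ρ 𝔪 hq h hqM hn hnq hρ hl hln hlM, degN_W_T hM ρ 𝔪 hq h hqM hn hnq hρ hl hln hlM,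
    map_add]

end Deg

/-- iterated levels -/
def lev (n : ℕ) : List ℕ → ℕ
  | [] => n
  | q :: Q => lev n Q * q

theorem lev_nil (n : ℕ) : lev n [] = n := rfl

theorem lev_cons (n q : ℕ) (Q : List ℕ) : lev n (q :: Q) = lev n Q * q := rfl

theorem lev_eq (n : ℕ) (Q : List ℕ) : lev n Q = n * Q.prod := by
  induction Q with
  | nil => rw [lev_nil, List.prod_nil, mul_one]
  | cons q Q ih => rw [lev_cons, ih, List.prod_cons]; ring

theorem dvd_lev (n : ℕ) (Q : List ℕ) : n ∣ lev n Q := by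
  rw [lev_eq]
  exact dvd_mul_right _ _

/-- conditions on the primes -/
structure TWL (n M : ℕ) (Q : List ℕ) : Prop where
  nodup : Q.Nodup
  prime : ∀ q ∈ Q, q.Prime
  cop : ∀ q ∈ Q, q.Coprime n
  copM : ∀ q ∈ Q, q.Coprime M

theorem TWL.tail {n M q : ℕ} {Q : List ℕ} (h : TWL n M (q :: Q)) : TWL n M Q :=
  ⟨(List.nodup_cons.mp h.nodup).2, fun q' hq' => h.prime q' (List.mem_cons_of_mem _ hq'),
    fun q' hq' => h.cop q' (List.mem_cons_of_mem _ hq'),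
    fun q' hq' => h.copM q' (List.mem_cons_of_mem _ hq')⟩

theorem TWL.coprime_lev {n M q : ℕ} {Q : List ℕ} (h : TWL n M (q :: Q)) :
    q.Coprime (lev n Q) := by
  rw [lev_eq]
  have hq := h.prime q List.mem_cons_self
  refine Nat.Coprime.mul_right (h.cop q List.mem_cons_self) ?_
  refine Nat.Coprime.symm (Nat.Coprime.symm ?_)
  rw [Nat.Prime.coprime_iff_not_dvd hq]
  intro hd
  obtain ⟨q', hq', hd'⟩ := (Prime.dvd_prod_iff hq.prime).mp hd
  have := (Nat.prime_dvd_prime_iff_eq hq (h.prime q' (List.mem_cons_of_mem _ hq'))).mp hd'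
  subst this
  exact (List.nodup_cons.mp h.nodup).1 hq'

/-- **Iterated degeneracy isomorphism.** -/
theorem exists_iter (n : ℕ) (Q : List ℕ) (hQ : TWL n M Q) (hm : lev n Q ∣ m)
    (hρ : ∀ (q : ℕ) (hq : q.Prime) (hqM : q.Coprime M), q ∈ Q → ρ (scal hq hqM) = 1)
    (hdet : ∀ (q : ℕ) (hq : q.Prime) (hqn : q.Coprime n) (hqM : q.Coprime M), q ∈ Q →
      Function.Bijective (detN hM ρ 𝔪 n ((dvd_lev n Q).trans hm) hq hqn hqM))
    (hnew : ∀ (n' q : ℕ) (hq : q.Prime) (hqn : q.Coprime n') (hqM : q.Coprime M) (hn' : n' ∣ m)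
      (hnq : n' * q ∣ m) (hs : ρ (scal hq hqM) = 1), q ∈ Q → n ∣ n' → n' * q ∣ lev n Q →
      ∀ x, (degN hM ρ 𝔪 hq hqn hqM hn' hnq hs).down x = 0 → x = 0) :
    ∃ (ι : Type) (_ : Fintype ι), Fintype.card ι = 2 ^ Q.length ∧
      ∃ e : (ι → MN hM ρ 𝔪 n ((dvd_lev n Q).trans hm)) ≃ₗ[TPoly m R]
          MN hM ρ 𝔪 (lev n Q) hm,
        ∀ (l : ℕ) (hl : l.Prime) (hln : l.Coprime (lev n Q)) (hln' : l.Coprime n) (hlM : l.Coprime M)
          (x : ι → MN hM ρ 𝔪 n ((dvd_lev n Q).trans hm)),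
          e (fun i => TN hM ρ 𝔪 n ((dvd_lev n Q).trans hm) hl hln' hlM (x i)) =
            TN hM ρ 𝔪 (lev n Q) hm hl hln hlM (e x) := by
  induction Q with
  | nil =>
    refine ⟨Unit, inferInstance, by simp, LinearEquiv.funUnique Unit (TPoly m R) (MN hM ρ 𝔪 n ((dvd_lev n []).trans hm)), ?_⟩
    intro l hl hln hln' hlM x
    rfl
  | cons q Q ih =>
    have hm' : lev n Q ∣ m := (dvd_mul_right _ _).trans hm
    have hqmem : q ∈ q :: Q := List.mem_cons_self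
    have hq := hQ.prime q hqmem
    have hqM := hQ.copM q hqmem
    have hqn := hQ.cop q hqmem
    have hql := hQ.coprime_lev
    obtain ⟨ι, hι, hcard, e, he⟩ := ih hQ.tail hm'
      (fun q' h1 h2 h3 => hρ q' h1 h2 (List.mem_cons_of_mem _ h3))
      (fun q' h1 h2 h3 h4 => hdet q' h1 h2 h3 (List.mem_cons_of_mem _ h4))
      (fun n' q' h1 h2 h3 h4 h5 h6 h7 h8 h9 => hnew n' q' h1 h2 h3 h4 h5 h6
        (List.mem_cons_of_mem _ h7) h8 (h9.trans (dvd_mul_right _ _)))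
    have hs := hρ q hq hqM hqmem
    let Dg := degN hM ρ 𝔪 hq hql hqM hm' hm hs
    have hbij : Function.Bijective Dg.det := by
      have h1 : ∀ x, Dg.det (e x) =
          e (fun i => detN hM ρ 𝔪 n ((dvd_lev n Q).trans hm') hq hqn hqM (x i)) := by
        intro x
        change ((q + 1) ^ 2 : ℕ) • e x - TN hM ρ 𝔪 (lev n Q) hm' hq hql hqM
          (TN hM ρ 𝔪 (lev n Q) hm' hq hql hqM (e x)) = _
        rw [← he q hq hql hqn hqM, ← he q hq hql hqn hqM, ← map_nsmul, ← map_sub]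
        rfl
      have h2 := hdet q hq hqn hqM hqmem
      constructor
      · intro x y hxy
        obtain ⟨x, rfl⟩ := e.surjective x
        obtain ⟨y, rfl⟩ := e.surjective y
        rw [h1, h1] at hxy
        have h3 := e.injective hxy
        congr 1
        funext i
        exact h2.1 (congrFun h3 i)
      · intro y
        obtain ⟨y, rfl⟩ := e.surjective y
        choose x hx using fun i => h2.2 (y i)
        exact ⟨e x, by rw [h1]; congr 1; funext i; exact hx i⟩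
    have hup := Dg.up_bijective hbij
      (hnew (lev n Q) q hq hql hqM hm' hm hs hqmem (dvd_lev n Q) (dvd_refl _))
    refine ⟨ι ⊕ ι, inferInstance, by rw [Fintype.card_sum, hcard, List.length_cons, pow_succ]; ring,
      (LinearEquiv.sumArrowLequivProdArrow ι ι (TPoly m R) _).trans
        ((e.prodCongr e).trans (LinearEquiv.ofBijective Dg.up hup)), ?_⟩
    intro l hl hln hln' hlM x
    have hln2 : l.Coprime (lev n Q) := Nat.Coprime.coprime_mul_right_right hln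
    change Dg.up (e (fun i => TN hM ρ 𝔪 n _ hl hln' hlM (x (Sum.inl i))),
      e (fun i => TN hM ρ 𝔪 n _ hl hln' hlM (x (Sum.inr i)))) =
      TN hM ρ 𝔪 (lev n Q * q) hm hl hln hlM
        (Dg.up (e (fun i => x (Sum.inl i)), e (fun i => x (Sum.inr i))))
    rw [he l hl hln2 hln' hlM, he l hl hln2 hln' hlM]
    exact degN_up_T hM ρ 𝔪 hq hql hqM hm' hm hs hl hln hlM _ _

end Fermat.Agent.TWDeg

end
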