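import Fermat.Agent.TWDeg.DegTW
import Fermat.Agent.TWDeg.Iter

/-!
# Relative Shapiro lemma and degeneracy maps; the base level
-/

set_option autoImplicit false
set_option linter.unusedSectionVars false

noncomputable section

namespace Fermat.Agent.TWDeg

open Fermat.Agent.TW
open Matrix.SpecialLinearGroup CongruenceSubgroup
open scoped MatrixGroups

section Abstract

variable {m n n' l M : ℕ} {R : Type} [CommRing R] {V : Type} [AddCommGroup V] [Module R V]
  {ρ : Representation R (Gp M) V} {Y : Type} {a : Gp M →* Equiv.Perm Y} {y₀ : Y}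

/-- matrices of level `n'` fix the base point -/
def FixL (M n' : ℕ) (a : Gp M →* Equiv.Perm Y) (y₀ : Y) : Prop :=
  ∀ (A : M2Z) (hA : IsGd M A), (n' : ℤ) ∣ A 1 0 → a (toGp M A hA) y₀ = y₀

theorem FixL.fixT (h : FixL M n' a y₀) (hM : M ∣ m) : FixT m hM a y₀ := by
  intro l x
  apply h
  induction x using OnePoint.rec with
  | infty => exact dvd_zero _
  | coe j => exact dvd_zero _

variable (S : Stab a ((Lvl.gamma0 n).ι M) ((Lvl.gamma0 n').ι M) y₀)
  (S₂ : Stab a ((Lvl.gamma0 (n * l)).ι M) ((Lvl.gamma0 (n' * l)).ι M) y₀)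
  (hfix : FixL M n' a y₀) (hnn : n ∣ n')

include hfix in
theorem shap_I (x : H1 ((Lvl.gamma0 n).ι M) (coind a ρ)) :
    S₂.shap ρ ((cI n l M).map (coind a ρ) x) = (cI n' l M).map ρ (S.shap ρ x) :=
  S.shap_map S₂ (cI n l M) (cI n' l M) (Equiv.refl _) (fun _ => 1) (fun y => by
    rw [map_one, one_mul]
    rfl) (fun _ => hfix _ (isGd_one M Matrix.det_one) (by simp)) x

include hfix hnn in
theorem shap_W (hl : l.Prime) (h : l.Coprime n) (h' : l.Coprime n') (hlM : l.Coprime M)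
    (x : H1 ((Lvl.gamma0 (n * l)).ι M) (coind a ρ)) :
    S₂.shap ρ ((cW hl h hlM).map (coind a ρ) x) = (cW hl h' hlM).map ρ (S₂.shap ρ x) := by
  obtain ⟨g, hg⟩ := PW.factor (q := l) (n := n) hl h (B := wI l n')
    ⟨dvd_refl _, by
      rw [wI10]
      push_cast
      exact mul_dvd_mul (by exact_mod_cast hnn) (dvd_refl _), Dvd.intro _ rfl⟩ (det_wI h')
  refine S₂.shap_map S₂ (cW hl h hlM) (cW hl h' hlM) (Equiv.refl _) (fun _ => g) (fun y => ?_)
    (fun _ => hfix _ (isGd_prime hl hlM (det_wI h')) (by rw [wI10]; exact Dvd.intro _ rfl)) x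
  change toGp M (wI l n') (isGd_prime hl hlM (det_wI h')) =
    (Lvl.gamma0 (n * l)).ι M g * toGp M (wI l n) (isGd_prime hl hlM (det_wI h))
  rw [Lvl.ι_apply, toGp_eq_iff]
  exact hg

include hfix hnn in
theorem shap_J (hl : l.Prime) (h : l.Coprime n) (h' : l.Coprime n')
    (x : H1 ((Lvl.gamma0 (n * l)).ι M) (coind a ρ)) :
    S.shap ρ ((cJ hl h M).map (coind a ρ) x) = (cJ hl h' M).map ρ (S₂.shap ρ x) := by
  have : Fact l.Prime := ⟨hl⟩
  have key : ∀ x : OnePoint (ZMod l), ∃ (y : OnePoint (ZMod l)) (g : Gamma0 (n * l)),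
      rI l n' x = (((Lvl.gamma0 (n * l)).j g : SL(2, ℤ)) : M2Z) * rI l n y := fun x =>
    exists_rI hl h (det_rI h' x) ((Int.natCast_dvd_natCast.mpr hnn).trans (rI10 x))
  choose e g hg using key
  have hinj : Function.Injective e := by
    intro x y hxy
    have h1 := hg x
    have h2 := hg y
    rw [← hxy] at h2
    have h3 : rI l n' x = (((g x * (g y)⁻¹ : Gamma0 (n * l)) : SL(2, ℤ)) : M2Z) * rI l n' y := by
      rw [h1, h2, ← mul_assoc]
      congr 1
      change (((g x : SL(2, ℤ))) : M2Z) = (((g x * (g y)⁻¹ : Gamma0 (n * l)) : SL(2, ℤ)) : M2Z) *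
        ((g y : SL(2, ℤ)) : M2Z)
      rw [← Matrix.SpecialLinearGroup.coe_mul, ← Subgroup.coe_mul, inv_mul_cancel_right]
    refine uniq_rI hl h' ?_ h3
    refine dvd_trans ?_ (dvd_gamma0 (g x * (g y)⁻¹))
    push_cast
    exact Dvd.intro_left _ rfl
  have : Finite (OnePoint (ZMod l)) := inferInstanceAs (Finite (Option (ZMod l)))
  let E : OnePoint (ZMod l) ≃ OnePoint (ZMod l) := Equiv.ofBijective e
    (Finite.injective_iff_bijective.mp hinj)
  refine S₂.shap_map S (cJ hl h M) (cJ hl h' M) E g (fun y => ?_)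
    (fun z => hfix _ (isGd_one M (det_rI h' z)) (rI10 z)) x
  change toGp M (rI l n' y) (isGd_one M (det_rI h' y)) =
    (Lvl.gamma0 (n * l)).ι M (g y) * toGp M (rI l n (e y)) (isGd_one M (det_rI h (e y)))
  rw [Lvl.ι_apply, toGp_eq_iff]
  exact hg y

theorem coind_scal (hl : l.Prime) (hlM : l.Coprime M) (ha : a (scal hl hlM) = 1)
    (hρ : ρ (scal hl hlM) = 1) : coind a ρ (scal hl hlM) = 1 := by
  refine LinearMap.ext fun F => funext fun y => ?_
  rw [coind_apply, hρ, map_inv, ha, inv_one]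
  rfl

include hfix in
/-- **Shapiro's isomorphism is a morphism of degeneracy data.** -/
theorem degHom_shap (hl : l.Prime) (h : l.Coprime n) (h' : l.Coprime n') (hlM : l.Coprime M)
    (hM : M ∣ m) (hn : n ∣ m) (hnl : n * l ∣ m) (hn' : n' ∣ m) (hnl' : n' * l ∣ m)
    (hnn : n ∣ n') (ha : a (scal hl hlM) = 1) (hρ : ρ (scal hl hlM) = 1) :
    DegHom (degData (coind a ρ) hl h hlM hn hnl hM (coind_scal hl hlM ha hρ))
      (degData ρ hl h' hlM hn' hnl' hM hρ)
      (shapH (Stg.gamma0 n hn hM) (Stg.gamma0 n' hn' hM) S ρ (hfix.fixT hM)).toLinearMap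
      (shapH (Stg.gamma0 (n * l) hnl hM) (Stg.gamma0 (n' * l) hnl' hM) S₂ ρ
        (hfix.fixT hM)).toLinearMap where
  q := rfl
  I x := (shap_I S S₂ hfix x).symm
  W x := (shap_W S₂ hfix hnn hl h h' hlM x).symm
  J x := (shap_J S S₂ hfix hnn hl h h' x).symm

end Abstract

/-- trivial coefficients -/
def triv (M : ℕ) (R A : Type) [CommRing R] [AddCommGroup A] [Module R A] :
    Representation R (Gp M) A := 1

theorem triv_apply (M : ℕ) (R A : Type) [CommRing R] [AddCommGroup A] [Module R A] (g : Gp M) :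
    triv M R A g = 1 := rfl

variable {D : Type} [CommGroup D] (W : TWD D)

/-- the action on `Y_0` of level one -/
def a0 : Gp (one W).M →* Equiv.Perm (one W).Y0 :=
  (MulAction.toPermHom _ (one W).Y0).comp (MonoidHom.snd _ _)

theorem a0_apply (g : Gp (one W).M) (y : (one W).Y0) : a0 W g y = g.2 • y := rfl

/-- the base point -/
def pt0 : (one W).Y0 := (iM (one W).M ModularGroup.S).2 • (one W).pt fun _ => .bor

theorem smul_pt0_iff {A : M2Z} (hA : IsGd (one W).M A) :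
    (toGp (one W).M A hA).2 • pt0 W = pt0 W ↔ (W.dd : ℤ) ∣ A 1 0 := by
  have h1 : (toGp (one W).M A hA).2 • pt0 W = pt0 W ↔
      ((iM (one W).M ModularGroup.S⁻¹).2 * (toGp (one W).M A hA).2 *
        (iM (one W).M ModularGroup.S).2) • ((one W).pt fun _ => .bor) =
        (one W).pt fun _ => .bor := by
    rw [pt0, map_inv, Prod.snd_inv, mul_smul, mul_smul, inv_smul_eq_iff]
  have h2 : (iM (one W).M ModularGroup.S⁻¹).2 * (toGp (one W).M A hA).2 *
      (iM (one W).M ModularGroup.S).2 =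
      (toGp (one W).M ((ModularGroup.S⁻¹ : SL(2, ℤ)) * A * (ModularGroup.S : SL(2, ℤ)))
        (((isGd_SL _ _).mul hA).mul (isGd_SL _ _))).2 := by
    rw [toGp_mul ((isGd_SL _ ModularGroup.S⁻¹).mul hA) (isGd_SL _ ModularGroup.S),
      toGp_mul (isGd_SL _ ModularGroup.S⁻¹) hA, toGp_SL, toGp_SL]
    rfl
  rw [h1, TWD.smul_pt_iff, h2, TWD.mem_bor_iff, one_dd]
  have h3 : ((ModularGroup.S⁻¹ : SL(2, ℤ)) * A * (ModularGroup.S : SL(2, ℤ)) : M2Z) 0 1 =
      - A 1 0 := by
    rw [ModularGroup.S]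
    simp [Matrix.mul_apply, Fin.sum_univ_two, Matrix.SpecialLinearGroup.coe_inv,
      Matrix.adjugate_fin_two]
    simp [Matrix.vecMul, dotProduct, Fin.sum_univ_two]
  rw [h3, dvd_neg]
  constructor
  · exact fun h => h.2
  · exact fun h => ⟨one_dvd _, h⟩

theorem fixL0 {n' : ℕ} (h : W.dd ∣ n') : FixL (one W).M n' (a0 W) (pt0 W) := fun A hA hc => by
  rw [a0_apply, smul_pt0_iff]
  exact (Int.natCast_dvd_natCast.mpr h).trans hc

/-- the stabiliser of the base point in `Γ₀(n)` -/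
def stab0 (n n' : ℕ) (hn : n ≠ 0) (hc : ∀ q ∈ W.Q, ¬ q ∣ n) (hn' : n' = n * W.dd) :
    Stab (a0 W) ((Lvl.gamma0 n).ι (one W).M) ((Lvl.gamma0 n').ι (one W).M) (pt0 W) where
  κ :=
    { toFun := fun γ => ⟨γ.1, by
        have h1 := dvd_gamma0 γ
        rw [Gamma0_mem, ZMod.intCast_zmod_eq_zero_iff_dvd]
        exact dvd_trans (by rw [hn']; push_cast; exact Dvd.intro _ rfl) h1⟩
      map_one' := rfl
      map_mul' := fun _ _ => rfl }
  inj γ γ' h := Subtype.ext (congrArg (fun z : Gamma0 n => (z : SL(2, ℤ))) h)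
  comp _ := rfl
  fix γ := by
    rw [a0_apply, Lvl.ι_apply, ← toGp_SL, smul_pt0_iff]
    exact dvd_trans (by rw [hn']; push_cast; exact Dvd.intro_left _ rfl) (dvd_gamma0 γ)
  trans y := by
    let W' : TWD D := { W with N := n, tws := ⟨hn, W.tws.prime, hc⟩ }
    have e1 : one W' = one W := rfl
    let p₀ : (one W').Y0 := pt0 W
    let y' : (one W').Y0 := y
    let z₀ : W'.Y0 := (thE W' fun _ => .bor).symm (ptN W', p₀)
    let z : W'.Y0 := (thE W' fun _ => .bor).symm (ptN W', y')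
    obtain ⟨g₀, hg₀⟩ := W'.trans (fun _ => .bor) z₀
    obtain ⟨g, hg⟩ := W'.trans (fun _ => .bor) z
    have h1 : (iM W'.M (g * g₀⁻¹)).2 • z₀ = z := by
      rw [map_mul, Prod.snd_mul, mul_smul, map_inv, Prod.snd_inv, ← hg, ← hg₀, inv_smul_smul]
    have h2 := congrArg (thE W' fun _ => .bor) h1
    rw [Equiv.apply_symm_apply] at h2
    have h3 : thE W' (fun _ => .bor) ((iM W'.M (g * g₀⁻¹)).2 • z₀) =
        ((iM W'.M (g * g₀⁻¹)).2 • ptN W', red1 W' (iM W'.M (g * g₀⁻¹)).2 • p₀) := by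
      rw [thE_symm_smul, Equiv.apply_symm_apply]
    rw [h3] at h2
    obtain ⟨h4, h5⟩ := Prod.mk.inj h2
    rw [smul_ptN_iff, ← toGp_SL, mem_upN_iff] at h4
    obtain ⟨γ, hγ⟩ := exists_gamma0 (N := n) (A := ((g * g₀⁻¹ : SL(2, ℤ)) : M2Z))
      (g * g₀⁻¹).det_coe h4
    refine ⟨γ, ?_⟩
    have h6 : (γ : SL(2, ℤ)) = g * g₀⁻¹ := Subtype.ext hγ
    rw [a0_apply, Lvl.ι_apply]
    change (iM (one W).M (γ : SL(2, ℤ))).2 • pt0 W = y
    rw [h6]
    have h7 : red1 W' (iM W'.M (g * g₀⁻¹)).2 = (iM (one W).M (g * g₀⁻¹)).2 :=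
      congrArg Prod.snd (castGp_iM (one_M_dvd W') (g * g₀⁻¹))
    rw [h7] at h5
    exact h5
  range γ h := by
    rw [a0_apply, Lvl.ι_apply, ← toGp_SL, smul_pt0_iff] at h
    have h1 : (n' : ℤ) ∣ (((Lvl.gamma0 n).j γ : SL(2, ℤ)) : M2Z) 1 0 := by
      rw [hn', Nat.cast_mul]
      refine IsCoprime.mul_dvd ?_ (dvd_gamma0 γ) h
      rw [TWD.dd, Nat.cast_prod]
      refine IsCoprime.prod_right fun q hq => ?_
      exact Nat.isCoprime_iff_coprime.mpr
        ((Nat.Prime.coprime_iff_not_dvd (W.tws.prime q hq)).mpr (hc q hq)).symm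
    exact ⟨⟨γ.1, by
      rw [Gamma0_mem, ZMod.intCast_zmod_eq_zero_iff_dvd]
      exact h1⟩, rfl⟩

section Base

variable (R A : Type) [CommRing R] [AddCommGroup A] [Module R A]

/-- comparison of coefficients -/
def toC0 : CHom (V1 W R A fun _ => .bor) (coind (a0 W) (triv (one W).M R A)) where
  toFun F := F
  map_add' _ _ := rfl
  map_smul' _ _ := rfl
  comm' _ _ := rfl

/-- comparison of coefficients -/
def ofC0 : CHom (coind (a0 W) (triv (one W).M R A)) (V1 W R A fun _ => .bor) where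
  toFun F := F
  map_add' _ _ := rfl
  map_smul' _ _ := rfl
  comm' _ _ := rfl

variable {m n n' l : ℕ} (h1 : (one W).M ∣ m) (hn0 : n ≠ 0) (hc : ∀ q ∈ W.Q, ¬ q ∣ n)
  (hn' : n' = n * W.dd) (hn : n ∣ m) (hnm' : n' ∣ m)

include hn' in
theorem dd_dvd' : W.dd ∣ n' := by rw [hn']; exact dvd_mul_left _ _

include hn' in
theorem n_dvd' : n ∣ n' := by rw [hn']; exact dvd_mul_right _ _

/-- the level `Γ₀(n)` with coefficients `Fun(Y_0)` is the level `Γ₀(n dd)`. -/
def baseH : (Stg.gamma0 n hn h1).H (V1 W R A fun _ => .bor) ≃ₗ[TPoly m R]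
    (Stg.gamma0 n' hnm' h1).H (triv (one W).M R A) :=
  (isoH (Stg.gamma0 n hn h1) (toC0 W R A) (ofC0 W R A) (fun _ => rfl) (fun _ => rfl)).trans
    (shapH (Stg.gamma0 n hn h1) (Stg.gamma0 n' hnm' h1) (stab0 W n n' hn0 hc hn')
      (triv (one W).M R A) ((fixL0 W (dd_dvd' W hn')).fixT h1))

theorem a0_scal (hl : l.Prime) (hl1 : l.Coprime (one W).M) : a0 W (scal hl hl1) = 1 :=
  Equiv.ext fun y => scal_smul (one W) hl _ hl1 y

variable (hl : l.Prime) (hl1 : l.Coprime (one W).M) (hln : l.Coprime n) (hln' : l.Coprime n')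
  (hnl : n * l ∣ m) (hnl' : n' * l ∣ m) (hlQ : l ∉ W.Q)

include hlQ hc hl in
theorem hc_mul : ∀ q ∈ W.Q, ¬ q ∣ n * l := fun q hq h => by
  rcases (Nat.Prime.dvd_mul (W.tws.prime q hq)).mp h with h1 | h1
  · exact hc q hq h1
  · rw [Nat.prime_dvd_prime_iff_eq (W.tws.prime q hq) hl] at h1
    exact hlQ (h1 ▸ hq)

include hn' in
theorem hn'_mul : n' * l = n * l * W.dd := by rw [hn']; ring

/-- **`baseH` is a morphism of degeneracy data.** -/
theorem degHom_base :
    DegHom (degData (V1 W R A fun _ => .bor) hl hln hl1 hn hnl h1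
        (scal_funRep (one W) hl R A _ hl1))
      (degData (triv (one W).M R A) hl hln' hl1 hnm' hnl' h1 rfl)
      (baseH W R A h1 hn0 hc hn' hn hnm').toLinearMap
      (baseH W R A h1 (mul_ne_zero hn0 hl.ne_zero) (hc_mul W hc hl hlQ) (hn'_mul W hn')
        hnl hnl').toLinearMap := by
  have hA := degData_hom hl hln hl1 hn hnl h1 (scal_funRep (one W) hl R A _ hl1)
    (coind_scal hl hl1 (a0_scal W hl hl1) rfl) (toC0 W R A)
  have hB := degHom_shap (ρ := triv (one W).M R A) (stab0 W n n' hn0 hc hn')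
    (stab0 W (n * l) (n' * l) (mul_ne_zero hn0 hl.ne_zero) (hc_mul W hc hl hlQ) (hn'_mul W hn'))
    (fixL0 W (dd_dvd' W hn')) hl hln hln' hl1 h1 hn hnl hnm' hnl' (n_dvd' W hn')
    (a0_scal W hl hl1) rfl
  exact
    { q := rfl
      I := fun x => by
        have h2 := hB.I ((Stg.gamma0 n hn h1).map (toC0 W R A) x)
        rw [hA.I] at h2
        exact h2
      W := fun x => by
        have h2 := hB.W ((Stg.gamma0 (n * l) hnl h1).map (toC0 W R A) x)
        rw [hA.W] at h2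
        exact h2
      J := fun x => by
        have h2 := hB.J ((Stg.gamma0 (n * l) hnl h1).map (toC0 W R A) x)
        rw [hA.J] at h2
        exact h2 }

end Base

end Fermat.Agent.TWDeg

end
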