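import Fermat.Agent.TWDeg.Deg

/-!
# The degeneracy maps commute with the Hecke operators
-/

set_option autoImplicit false

noncomputable section

namespace Fermat.Agent.TWDeg

open Fermat.Agent.TW
open Matrix.SpecialLinearGroup
open scoped MatrixGroups

variable {q n M l : ℕ}

section

variable {R : Type} [CommRing R] {V : Type} [AddCommGroup V] [Module R V]
  (ρ : Representation R (Gp M) V)

theorem bI10 (x : OnePoint (ZMod l)) : bI l x 1 0 = 0 := by
  induction x using OnePoint.rec with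
  | infty => rfl
  | coe x => rfl

theorem uniq_SL' (hl : l.Prime) {A : M2Z} {x y : OnePoint (ZMod l)} {g : SL(2, ℤ)}
    (hA : A.det ≠ 0) (h : bI l x * A = g * (bI l y * A)) : x = y := by
  rw [← mul_assoc] at h
  exact (uniq_SL hl (mul_right_cancel_det hA h)).1

theorem not_dvd_prime (hl : l.Prime) (hq : q.Prime) (hlq : l ≠ q) : ¬ (l : ℤ) ∣ (q : ℤ) := by
  intro h
  have h1 : l ∣ q := by exact_mod_cast h
  exact hlq ((Nat.prime_dvd_prime_iff_eq hl hq).mp h1)

theorem not_dvd_one (hl : l.Prime) : ¬ (l : ℤ) ∣ 1 := by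
  intro h
  exact hl.one_lt.ne' (by exact_mod_cast Int.eq_one_of_dvd_one (by positivity) h)

/-- restriction commutes with `T_l` -/
theorem I_T (hl : l.Prime) (hln : l.Coprime (n * q)) (hlM : l.Coprime M)
    (x : H1 ((Lvl.gamma0 n).ι M) ρ) :
    (cI n q M).map ρ (((Lvl.gamma0 n).corrT M hl hlM
      (Lvl.ok_gamma0 (Nat.Coprime.coprime_mul_right_right hln))).map ρ x) =
    ((Lvl.gamma0 (n * q)).corrT M hl hlM (Lvl.ok_gamma0 hln)).map ρ ((cI n q M).map ρ x) := by
  refine Corr.map_comm _ _ _ _ ?_ ?_ ?_ ?_ x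
  · intro h x x' y y' hxy
    refine ⟨rfl, ?_⟩
    have h1 := ((Lvl.gamma0 n).toGp_mul_eq_iff (isGd_one M Matrix.det_one) (isGd_bI hl hlM y)
      (isGd_one M Matrix.det_one) (isGd_bI hl hlM y')).mp hxy
    rw [one_mul, one_mul] at h1
    exact (uniq_SL hl h1).1
  · intro h x x' y y' hxy
    refine ⟨?_, rfl⟩
    have h1 := ((Lvl.gamma0 n).toGp_mul_eq_iff (isGd_bI hl hlM x) (isGd_one M Matrix.det_one)
      (isGd_bI hl hlM x') (isGd_one M Matrix.det_one)).mp hxy
    rw [mul_one, mul_one] at h1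
    exact (uniq_SL hl h1).1
  · intro x y
    exact ⟨(), x, 1, ((Lvl.gamma0 n).toGp_mul_eq_iff (isGd_bI hl hlM x)
      (isGd_one M Matrix.det_one) (isGd_one M Matrix.det_one) (isGd_bI hl hlM x)).mpr
      (by rw [map_one, mul_one, one_mul]; simp)⟩
  · exact mul_comm _ _

/-- the Atkin-Lehner operator commutes with `T_l` -/
theorem W_T (hq : q.Prime) (h : q.Coprime n) (hqM : q.Coprime M)
    (hl : l.Prime) (hln : l.Coprime (n * q)) (hlM : l.Coprime M)
    (x : H1 ((Lvl.gamma0 (n * q)).ι M) ρ) :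
    (cW hq h hqM).map ρ (((Lvl.gamma0 (n * q)).corrT M hl hlM (Lvl.ok_gamma0 hln)).map ρ x) =
    ((Lvl.gamma0 (n * q)).corrT M hl hlM (Lvl.ok_gamma0 hln)).map ρ ((cW hq h hqM).map ρ x) := by
  have hlq : l ≠ q := by
    rintro rfl
    exact hl.one_lt.ne' ((Nat.coprime_self l).mp (Nat.Coprime.coprime_mul_left_right hln))
  have hw : (wI q n).det ≠ 0 := by
    rw [det_wI h]
    exact_mod_cast hq.ne_zero
  refine Corr.map_comm _ _ _ _ ?_ ?_ ?_ ?_ x
  · intro g x x' y y' hxy
    refine ⟨rfl, ?_⟩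
    have h1 := ((Lvl.gamma0 (n * q)).toGp_mul_eq_iff (isGd_prime hq hqM (det_wI h))
      (isGd_bI hl hlM y) (isGd_prime hq hqM (det_wI h)) (isGd_bI hl hlM y')).mp hxy
    rw [← mul_assoc] at h1
    exact (uniq_gen hl h1 (by rw [det_wI h]; exact not_dvd_prime hl hq hlq)
      (by rw [Matrix.det_mul, det_gamma0, one_mul, det_wI h]; exact not_dvd_prime hl hq hlq)).1
  · intro g x x' y y' hxy
    refine ⟨?_, rfl⟩
    have h1 := ((Lvl.gamma0 (n * q)).toGp_mul_eq_iff (isGd_bI hl hlM x)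
      (isGd_prime hq hqM (det_wI h)) (isGd_bI hl hlM x') (isGd_prime hq hqM (det_wI h))).mp hxy
    exact uniq_SL' hl hw h1
  · intro x y
    obtain ⟨y', B, hB⟩ := exists_factor hl (bI l x * wI q n)
      (by rw [Matrix.det_mul, det_bI]; exact Dvd.intro _ rfl)
    have hdB : B.det = q := by
      have h2 := congrArg Matrix.det hB
      rw [Matrix.det_mul, Matrix.det_mul, det_bI, det_bI, det_wI h, mul_comm] at h2
      have h3 : (l : ℤ) ≠ 0 := by exact_mod_cast hl.ne_zero
      exact (mul_right_cancel₀ h3 h2).symm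
    have hP : PW q n (B * bI l y') := by
      rw [← hB]
      exact PW.left (by rw [bI10]; exact dvd_zero _)
    obtain ⟨g, hg⟩ := (PW.of_mul_bI hln hP).factor hq h hdB
    exact ⟨(), y', g, ((Lvl.gamma0 (n * q)).toGp_mul_eq_iff (isGd_bI hl hlM x)
      (isGd_prime hq hqM (det_wI h)) (isGd_prime hq hqM (det_wI h)) (isGd_bI hl hlM y')).mpr
      (by rw [hB, hg, mul_assoc])⟩
  · exact mul_comm _ _

/-- the trace commutes with `T_l` -/
theorem J_T (hq : q.Prime) (h : q.Coprime n)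
    (hl : l.Prime) (hln : l.Coprime (n * q)) (hlM : l.Coprime M)
    (x : H1 ((Lvl.gamma0 (n * q)).ι M) ρ) :
    (cJ hq h M).map ρ (((Lvl.gamma0 (n * q)).corrT M hl hlM (Lvl.ok_gamma0 hln)).map ρ x) =
    ((Lvl.gamma0 n).corrT M hl hlM
      (Lvl.ok_gamma0 (Nat.Coprime.coprime_mul_right_right hln))).map ρ ((cJ hq h M).map ρ x) := by
  have hlq : IsCoprime (q : ℤ) (l : ℤ) :=
    (Nat.isCoprime_iff_coprime.mpr (Nat.Coprime.coprime_mul_left_right hln)).symm
  have hlnn : IsCoprime (n : ℤ) (l : ℤ) :=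
    (Nat.isCoprime_iff_coprime.mpr (Nat.Coprime.coprime_mul_right_right hln)).symm
  refine Corr.map_comm _ _ _ _ ?_ ?_ ?_ ?_ x
  · intro g x x' y y' hxy
    have h1 := ((Lvl.gamma0 (n * q)).toGp_mul_eq_iff (isGd_one M (det_rI h x))
      (isGd_bI hl hlM y) (isGd_one M (det_rI h x')) (isGd_bI hl hlM y')).mp hxy
    rw [← mul_assoc] at h1
    obtain ⟨h2, h3⟩ := uniq_gen hl h1 (by rw [det_rI h]; exact not_dvd_one hl)
      (by rw [Matrix.det_mul, det_gamma0, one_mul, det_rI h]; exact not_dvd_one hl)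
    exact ⟨uniq_rI hq h (dvd_trans (by push_cast; exact Dvd.intro_left _ rfl) (dvd_gamma0 g)) h3,
      h2⟩
  · intro g x x' y y' hxy
    have h1 := ((Lvl.gamma0 (n * q)).toGp_mul_eq_iff (isGd_bI hl hlM x)
      (isGd_one M (det_rI h y)) (isGd_bI hl hlM x') (isGd_one M (det_rI h y'))).mp hxy
    obtain ⟨C, hC⟩ : ∃ C, rI q n y = C * rI q n y' := ⟨rI q n y * (rI q n y').adjugate, by
      rw [mul_assoc, Matrix.adjugate_mul, det_rI h, one_smul, mul_one]⟩
    have h2 : bI l x * C = ((Lvl.gamma0 (n * q)).j g : M2Z) * bI l x' := by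
      refine mul_right_cancel_det (C := rI q n y') (by rw [det_rI h]; exact one_ne_zero) ?_
      rw [mul_assoc, ← hC, h1, mul_assoc]
    have h3 := congrFun (congrFun h2 1) 0
    rw [Matrix.mul_apply, Matrix.mul_apply, Fin.sum_univ_two, Fin.sum_univ_two, bI10, zero_mul,
      zero_add, bI10, mul_zero, add_zero] at h3
    have h4 : (q : ℤ) ∣ C 1 0 := by
      have h5 : (q : ℤ) ∣ bI l x 1 1 * C 1 0 := by
        rw [h3]
        exact Dvd.dvd.mul_right
          (dvd_trans (by push_cast; exact Dvd.intro_left _ rfl) (dvd_gamma0 g)) _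
      induction x using OnePoint.rec with
      | infty => simpa [bI_infty] using h5
      | coe x =>
        simp [-ZMod.natCast_val, bI_coe] at h5
        exact hlq.dvd_of_dvd_mul_left h5
    have h5 : y = y' := uniq_rI hq h h4 hC
    subst h5
    exact ⟨uniq_SL' hl (by rw [det_rI h]; exact one_ne_zero) h1, rfl⟩
  · intro x y
    obtain ⟨x', B, hB⟩ := exists_factor hl (bI l x * rI q n y)
      (by rw [Matrix.det_mul, det_bI]; exact Dvd.intro _ rfl)
    have hdB : B.det = 1 := by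
      have h2 := congrArg Matrix.det hB
      rw [Matrix.det_mul, Matrix.det_mul, det_bI, det_bI, det_rI h, mul_comm] at h2
      have h3 : (l : ℤ) ≠ 0 := by exact_mod_cast hl.ne_zero
      exact (mul_right_cancel₀ h3 h2).symm
    have hnB : (n : ℤ) ∣ B 1 0 := by
      have h2 := congrFun (congrFun hB 1) 0
      rw [Matrix.mul_apply, Matrix.mul_apply, Fin.sum_univ_two, Fin.sum_univ_two, bI10, zero_mul,
        zero_add, bI10, mul_zero, add_zero] at h2
      have h5 : (n : ℤ) ∣ B 1 0 * bI l x' 0 0 := by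
        rw [← h2]
        exact Dvd.dvd.mul_left (rI10 y) _
      induction x' using OnePoint.rec with
      | infty =>
        simp [bI_infty] at h5
        exact hlnn.dvd_of_dvd_mul_right h5
      | coe x => simpa [bI_coe] using h5
    obtain ⟨y', g, hg⟩ := exists_rI hq h hdB hnB
    exact ⟨y', x', g, ((Lvl.gamma0 (n * q)).toGp_mul_eq_iff (isGd_bI hl hlM x)
      (isGd_one M (det_rI h y)) (isGd_one M (det_rI h y')) (isGd_bI hl hlM x')).mpr
      (by rw [hB, hg, mul_assoc])⟩
  · exact mul_comm _ _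

end

end Fermat.Agent.TWDeg

end
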