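import Fermat.Agent.TWDeg.Mat

/-!
# Degeneracy maps between the levels `Γ₀(n)` and `Γ₀(nq)`: correspondences
-/

set_option autoImplicit false

noncomputable section

namespace Fermat.Agent.TWDeg

open Fermat.Agent.TW
open Matrix.SpecialLinearGroup
open scoped MatrixGroups

variable {q n M : ℕ}

/-- the shape of the Atkin-Lehner matrices -/
structure PW (q n : ℕ) (B : M2Z) : Prop where
  a : (q : ℤ) ∣ B 0 0
  c : ((n * q : ℕ) : ℤ) ∣ B 1 0
  d : (q : ℤ) ∣ B 1 1

theorem PW.factor (hq : q.Prime) (h : q.Coprime n) {B : M2Z} (hB : PW q n B) (hd : B.det = q) :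
    ∃ g : CongruenceSubgroup.Gamma0 (n * q),
      B = (((Lvl.gamma0 (n * q)).j g : SL(2, ℤ)) : M2Z) * wI q n := by
  obtain ⟨a, ha⟩ := hB.a
  obtain ⟨c, hc⟩ := hB.c
  obtain ⟨d, hd'⟩ := hB.d
  push_cast at hc
  have hbz := bez h
  have hq0 : (q : ℤ) ≠ 0 := by exact_mod_cast hq.ne_zero
  obtain ⟨b, hb⟩ : ∃ b, b = B 0 1 := ⟨_, rfl⟩
  have hBe : B = !![(q : ℤ) * a, b; (n : ℤ) * q * c, q * d] := by
    rw [← ha, ← hc, ← hd', hb]
    exact Matrix.eta_fin_two B
  set A : M2Z := !![(q : ℤ) * a * bu q n - b * n, a * bv q n + b;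
    (n : ℤ) * q * (c * bu q n - d), n * c * bv q n + q * d] with hA
  have hAw : B = A * wI q n := by
    rw [hBe, hA, wI, Matrix.mul_fin_two]
    have e00 : ((q : ℤ) * a * bu q n - b * n) * q + (a * bv q n + b) * (n * q) = q * a := by
      linear_combination (q : ℤ) * a * hbz
    have e01 : ((q : ℤ) * a * bu q n - b * n) * (-bv q n) + (a * bv q n + b) * (q * bu q n) = b := by
      linear_combination b * hbz
    have e10 : (n : ℤ) * q * (c * bu q n - d) * q + (n * c * bv q n + q * d) * (n * q) =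
        n * q * c := by
      linear_combination (n : ℤ) * q * c * hbz
    have e11 : (n : ℤ) * q * (c * bu q n - d) * (-bv q n) +
        (n * c * bv q n + q * d) * (q * bu q n) = q * d := by
      linear_combination (q : ℤ) * d * hbz
    rw [e00, e01, e10, e11]
  have hdA : A.det = 1 := by
    have h1 := congrArg Matrix.det hAw
    rw [Matrix.det_mul, det_wI h, hd] at h1
    exact (mul_right_cancel₀ hq0 (by rw [one_mul]; exact h1)).symm
  obtain ⟨g, hg⟩ := exists_gamma0 (N := n * q) hdA (by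
    rw [hA]
    simp only [Matrix.of_apply, Matrix.cons_val', Matrix.cons_val_zero, Matrix.cons_val_one,
      Matrix.cons_val_fin_one]
    push_cast
    exact Dvd.intro _ rfl)
  exact ⟨g, by rw [hg]; exact hAw⟩

theorem wI00 : wI q n 0 0 = q := rfl
theorem wI01 : wI q n 0 1 = - bv q n := rfl
theorem wI10 : wI q n 1 0 = n * q := rfl
theorem wI11 : wI q n 1 1 = q * bu q n := rfl

/-- `w · g` has the right shape -/
theorem PW.right {A : M2Z} (hA : ((n * q : ℕ) : ℤ) ∣ A 1 0) : PW q n (wI q n * A) := by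
  obtain ⟨c, hc⟩ := hA
  push_cast at hc
  refine ⟨?_, ?_, ?_⟩
  · rw [Matrix.mul_apply, Fin.sum_univ_two, hc, wI00, wI01]
    exact ⟨A 0 0 - bv q n * n * c, by ring⟩
  · rw [Matrix.mul_apply, Fin.sum_univ_two, hc, wI10, wI11]
    push_cast
    exact ⟨A 0 0 + q * bu q n * c, by ring⟩
  · rw [Matrix.mul_apply, Fin.sum_univ_two, wI10, wI11]
    exact ⟨n * A 0 1 + bu q n * A 1 1, by ring⟩

/-- `g · w` has the right shape -/
theorem PW.left {A : M2Z} (hA : ((n * q : ℕ) : ℤ) ∣ A 1 0) : PW q n (A * wI q n) := by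
  obtain ⟨c, hc⟩ := hA
  push_cast at hc
  refine ⟨?_, ?_, ?_⟩
  · rw [Matrix.mul_apply, Fin.sum_univ_two, wI00, wI10]
    exact ⟨A 0 0 + A 0 1 * n, by ring⟩
  · rw [Matrix.mul_apply, Fin.sum_univ_two, hc, wI00, wI10]
    push_cast
    exact ⟨q * c + A 1 1, by ring⟩
  · rw [Matrix.mul_apply, Fin.sum_univ_two, hc, wI01, wI11]
    exact ⟨- (n * c * bv q n) + A 1 1 * bu q n, by ring⟩

/-- division of the shape by a Hecke representative -/
theorem PW.of_mul_bI {l : ℕ} (hl : l.Coprime (n * q)) {B : M2Z} {y : OnePoint (ZMod l)}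
    (hB : PW q n (B * bI l y)) : PW q n B := by
  have hlq : IsCoprime (q : ℤ) (l : ℤ) :=
    (Nat.isCoprime_iff_coprime.mpr (Nat.Coprime.coprime_mul_left_right hl)).symm
  have hlN : IsCoprime ((n * q : ℕ) : ℤ) (l : ℤ) := (Nat.isCoprime_iff_coprime.mpr hl).symm
  obtain ⟨h1, h2, h3⟩ := hB
  rw [Matrix.mul_apply, Fin.sum_univ_two] at h1 h2 h3
  induction y using OnePoint.rec with
  | infty =>
    simp [bI_infty] at h1 h2 h3
    refine ⟨hlq.dvd_of_dvd_mul_right h1, ?_, h3⟩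
    exact hlN.dvd_of_dvd_mul_right (by push_cast; exact h2)
  | coe y =>
    simp [-ZMod.natCast_val, bI_coe] at h1 h2 h3
    refine ⟨h1, by push_cast; exact h2, ?_⟩
    have h4 : (q : ℤ) ∣ B 1 0 * (y.val : ℤ) := Dvd.dvd.mul_right ((Dvd.intro_left _ rfl).trans h2) _
    exact hlq.dvd_of_dvd_mul_right ((dvd_add_right h4).mp h3)

/-! ### the correspondences -/

theorem isGd_one (M : ℕ) {A : M2Z} (h : A.det = 1) : IsGd M A :=
  ⟨by rw [h]; exact one_ne_zero, by rw [h]; simp⟩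

theorem isGd_prime (hq : q.Prime) (hqM : q.Coprime M) {A : M2Z} (h : A.det = q) : IsGd M A :=
  ⟨by rw [h]; exact_mod_cast hq.ne_zero, by
    rw [h]
    push_cast
    exact (ZMod.isUnit_iff_coprime _ _).mpr hqM⟩

/-- restriction -/
def cI (n q M : ℕ) : Corr ((Lvl.gamma0 n).ι M) ((Lvl.gamma0 (n * q)).ι M) :=
  (Lvl.gamma0 n).corr (Lvl.gamma0 (n * q)) M (X := Unit) (fun _ => 1)
    (fun _ => isGd_one M Matrix.det_one)
    (fun g _ => by
      obtain ⟨h, hh⟩ := exists_gamma0 (N := n) (det_gamma0 g)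
        (dvd_trans (by push_cast; exact Dvd.intro _ rfl) (dvd_gamma0 g))
      exact ⟨(), h, by rw [hh, one_mul, mul_one]⟩)
    (fun _ _ _ _ => rfl)

/-- the Atkin-Lehner operator -/
def cW (hq : q.Prime) (h : q.Coprime n) (hqM : q.Coprime M) :
    Corr ((Lvl.gamma0 (n * q)).ι M) ((Lvl.gamma0 (n * q)).ι M) :=
  (Lvl.gamma0 (n * q)).corr (Lvl.gamma0 (n * q)) M (X := Unit) (fun _ => wI q n)
    (fun _ => isGd_prime hq hqM (det_wI h))
    (fun g _ => by
      obtain ⟨g', hg'⟩ := (PW.right (q := q) (n := n) (dvd_gamma0 g)).factor hq h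
        (by rw [Matrix.det_mul, det_wI h, det_gamma0, mul_one])
      exact ⟨(), g', hg'⟩)
    (fun _ _ _ _ => rfl)

/-- the second degeneracy -/
def cD (hq : q.Prime) (n : ℕ) (hqM : q.Coprime M) :
    Corr ((Lvl.gamma0 n).ι M) ((Lvl.gamma0 (n * q)).ι M) :=
  (Lvl.gamma0 n).corr (Lvl.gamma0 (n * q)) M (X := Unit) (fun _ => dI q)
    (fun _ => isGd_prime hq hqM (det_dI q))
    (fun g _ => by
      obtain ⟨c, hc⟩ := dvd_gamma0 g
      push_cast at hc
      set A := (((Lvl.gamma0 (n * q)).j g : SL(2, ℤ)) : M2Z) with hA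
      have hd := det_gamma0 g
      rw [← hA, Matrix.det_fin_two, hc] at hd
      obtain ⟨g', hg'⟩ := exists_gamma0 (N := n) (A := !![A 0 0, q * A 0 1; n * c, A 1 1])
        (by rw [Matrix.det_fin_two_of]; linear_combination hd)
        (by simp)
      refine ⟨(), g', ?_⟩
      have hAe : A = !![A 0 0, A 0 1; (n : ℤ) * q * c, A 1 1] := by
        rw [← hc]
        exact Matrix.eta_fin_two A
      rw [hg', hAe, dI]
      ext i j
      fin_cases i <;> fin_cases j <;> simp [Matrix.mul_apply, Fin.sum_univ_two]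
      all_goals ring)
    (fun _ _ _ _ => rfl)

theorem rI10 (x : OnePoint (ZMod q)) : (n : ℤ) ∣ rI q n x 1 0 := by
  induction x using OnePoint.rec with
  | infty => simp [rI_infty]
  | coe x => exact dvd_refl _

theorem rI_mul10 (x : OnePoint (ZMod q)) {A : M2Z} (hA : (n : ℤ) ∣ A 1 0) :
    (n : ℤ) ∣ (rI q n x * A) 1 0 := by
  rw [Matrix.mul_apply, Fin.sum_univ_two]
  exact dvd_add (Dvd.dvd.mul_right (rI10 x) _) (Dvd.dvd.mul_left hA _)

/-- the trace -/
def cJ (hq : q.Prime) (h : q.Coprime n) (M : ℕ) :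
    Corr ((Lvl.gamma0 (n * q)).ι M) ((Lvl.gamma0 n).ι M) :=
  haveI : Fact q.Prime := ⟨hq⟩
  haveI : Fintype (OnePoint (ZMod q)) := inferInstanceAs (Fintype (Option (ZMod q)))
  (Lvl.gamma0 (n * q)).corr (Lvl.gamma0 n) M (rI q n)
    (fun x => isGd_one M (det_rI h x))
    (fun g x => exists_rI hq h (by rw [Matrix.det_mul, det_rI h, det_gamma0, mul_one])
      (rI_mul10 x (dvd_gamma0 g)))
    (fun g x y hxy => uniq_rI hq h
      (dvd_trans (by push_cast; exact Dvd.intro_left _ rfl) (dvd_gamma0 g)) hxy)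

/-! ### relations -/

section Rel

variable {R : Type} [CommRing R] {V : Type} [AddCommGroup V] [Module R V]
  (ρ : Representation R (Gp M) V)

/-- correspondences given by a scalar acting trivially are the identity -/
theorem map_scalar {Γ : Type} [Group Γ] {L : Lvl Γ} (D : Corr (L.ι M) (L.ι M))
    (x₀ : D.X) (hx₀ : ∀ x, x = x₀) (z : Gp M) (hz : D.α x₀ = z) (hc : ∀ g, z * g = g * z)
    (hρ : ρ z = 1) (x : H1 (L.ι M) ρ) : D.map ρ x = x := by
  obtain ⟨f, rfl⟩ := H1.mk_surjective x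
  rw [Corr.map_mk]
  congr 1
  ext g
  rw [Corr.zmap_apply]
  have huniv : (Finset.univ : Finset D.X) = {x₀} := by
    ext x
    simp [hx₀ x]
  rw [huniv, Finset.sum_singleton, hz]
  have h1 : D.coc g x₀ = g := by
    have := (D.eq_of_spec (g := g) (x := x₀) (y := x₀) (h := g) (by rw [hz, hc])).2
    exact this.symm
  have h2 : ρ z⁻¹ (f.1 g) = f.1 g := by
    have h3 := rho_inv_cancel (ρ := ρ) z (f.1 g)
    rw [hρ] at h3
    exact h3
  rw [h1, h2]

/-- correspondences given by the identity matrix. -/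
theorem map_id {Γ : Type} [Group Γ] {L : Lvl Γ} (D : Corr (L.ι M) (L.ι M))
    (x₀ : D.X) (hx₀ : ∀ x, x = x₀) (hz : D.α x₀ = 1) (x : H1 (L.ι M) ρ) : D.map ρ x = x :=
  map_scalar ρ D x₀ hx₀ 1 hz (fun g => by rw [one_mul, mul_one]) (map_one ρ) x

theorem card_unit_prod {X : Type} (z : X) :
    Nat.card {p : Unit × X // p.2 = z} = 1 := by
  have h1 : Nonempty {p : Unit × X // p.2 = z} := ⟨⟨((), z), rfl⟩⟩
  have h2 : Subsingleton {p : Unit × X // p.2 = z} :=
    ⟨fun p q => Subtype.ext (Prod.ext rfl (p.2.trans q.2.symm))⟩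
  exact Nat.card_eq_one_iff_unique.mpr ⟨h2, h1⟩

theorem card_unit_prod_unit (z : Unit) :
    Nat.card {_p : Unit × Unit // () = z} = 1 := by
  have h1 : Nonempty {_p : Unit × Unit // () = z} := ⟨⟨((), ()), rfl⟩⟩
  have h2 : Subsingleton {_p : Unit × Unit // () = z} := inferInstance
  exact Nat.card_eq_one_iff_unique.mpr ⟨h2, h1⟩

theorem card_fiber_subsingleton {X Y Z : Type} [Subsingleton Z] (f : X × Y → Z) (z : Z) :
    Nat.card {p : X × Y // f p = z} = Nat.card X * Nat.card Y := by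
  rw [← Nat.card_prod]
  exact Nat.card_congr (Equiv.subtypeUnivEquiv fun _ => Subsingleton.elim _ _)

theorem card_onePoint' (q : ℕ) [NeZero q] : Nat.card (OnePoint (ZMod q)) = q + 1 := by
  change Nat.card (Option (ZMod q)) = q + 1
  rw [Nat.card_eq_fintype_card, Fintype.card_option, ZMod.card]

theorem toGp_mul_eq {Γ : Type} [Group Γ] (L : Lvl Γ) {A B C : M2Z} {g : Γ} (hA : IsGd M A)
    (hB : IsGd M B) (hC : IsGd M C) (h : A * B = (L.j g : M2Z) * C) :
    toGp M A hA * toGp M B hB = L.ι M g * toGp M C hC := by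
  rw [← toGp_mul, Lvl.ι_apply, toGp_eq_iff]
  exact h

/-- `W ∘ i₁ = i₂` -/
theorem W_I (hq : q.Prime) (h : q.Coprime n) (hqM : q.Coprime M)
    (x : H1 ((Lvl.gamma0 n).ι M) ρ) :
    (cW hq h hqM).map ρ ((cI n q M).map ρ x) = (cD hq n hqM).map ρ x := by
  obtain ⟨g, hg⟩ := exists_gamma0 (N := n)
    (A := !![1, - bv q n; n, q * bu q n]) (by
      rw [Matrix.det_fin_two_of]
      linear_combination bez h) (by simp)
  have := Corr.map_map_eq_nsmul (ρ := ρ) (cI n q M) (cW hq h hqM) (cD hq n hqM)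
    (fun _ _ => ()) (fun _ _ => g) (fun _ _ => toGp_mul_eq (Lvl.gamma0 n)
      (isGd_one M Matrix.det_one) (isGd_prime hq hqM (det_wI h)) (isGd_prime hq hqM (det_dI q))
      (by
      rw [hg, one_mul, wI, dI]
      ext i j
      fin_cases i <;> fin_cases j <;> simp [Matrix.mul_apply, Fin.sum_univ_two])) 1
    card_unit_prod_unit x
  rwa [one_smul] at this

/-- `j₁ ∘ i₂ = T_q` -/
theorem J_D (hq : q.Prime) (h : q.Coprime n) (hqM : q.Coprime M)
    (x : H1 ((Lvl.gamma0 n).ι M) ρ) :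
    (cJ hq h M).map ρ ((cD hq n hqM).map ρ x) =
      ((Lvl.gamma0 n).corrT M hq hqM (Lvl.ok_gamma0 h)).map ρ x := by
  have hex : ∀ y : OnePoint (ZMod q), ∃ g : CongruenceSubgroup.Gamma0 n,
      dI q * rI q n y = (((Lvl.gamma0 n).j g : SL(2, ℤ)) : M2Z) * bI q y := by
    intro y
    induction y using OnePoint.rec with
    | infty => exact ⟨1, by rw [rI_infty, mul_one, bI_infty, map_one]; simp [dI]⟩
    | coe y =>
      obtain ⟨g, hg⟩ := exists_gamma0 (N := n) (A := !![(q : ℤ), - bv q n; n, bu q n]) (by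
        rw [Matrix.det_fin_two_of]
        linear_combination bez h) (by simp)
      refine ⟨g, ?_⟩
      rw [hg, rI_coe, bI_coe, dI]
      ext i j
      fin_cases i <;> fin_cases j <;>
        simp [-ZMod.natCast_val, Matrix.mul_apply, Fin.sum_univ_two]
      all_goals ring
  choose g hg using hex
  have := Corr.map_map_eq_nsmul (ρ := ρ) (cD hq n hqM) (cJ hq h M)
    ((Lvl.gamma0 n).corrT M hq hqM (Lvl.ok_gamma0 h))
    (fun _ y => y) (fun _ y => g y) (fun _ y => toGp_mul_eq (Lvl.gamma0 n)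
      (isGd_prime hq hqM (det_dI q)) (isGd_one M (det_rI h y)) (isGd_bI hq hqM y) (hg y)) 1
    (fun z => card_unit_prod z) x
  rwa [one_smul] at this

/-- `j₁ ∘ W ∘ i₁ = T_q` -/
theorem J_W_I (hq : q.Prime) (h : q.Coprime n) (hqM : q.Coprime M)
    (x : H1 ((Lvl.gamma0 n).ι M) ρ) :
    (cJ hq h M).map ρ ((cW hq h hqM).map ρ ((cI n q M).map ρ x)) =
      ((Lvl.gamma0 n).corrT M hq hqM (Lvl.ok_gamma0 h)).map ρ x := by
  rw [W_I, J_D]

/-- the identity correspondence -/
def cOne {Γ : Type} [Group Γ] (L : Lvl Γ) (M : ℕ) : Corr (L.ι M) (L.ι M) :=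
  L.corr L M (X := Unit) (fun _ => 1) (fun _ => isGd_one M Matrix.det_one)
    (fun g _ => ⟨(), g, by rw [one_mul, mul_one]⟩) (fun _ _ _ _ => rfl)

theorem cOne_map {Γ : Type} [Group Γ] (L : Lvl Γ) (x : H1 (L.ι M) ρ) :
    (cOne L M).map ρ x = x := by
  refine map_id ρ (cOne L M) () (fun _ => rfl) ?_ x
  change toGp M 1 (isGd_one M Matrix.det_one) = 1
  have h1 := toGp_SL M (1 : SL(2, ℤ))
  rw [map_one] at h1
  exact (toGp_congr (by simp) _ _).trans h1

/-- `j₁ ∘ i₁ = q + 1` -/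
theorem J_I (hq : q.Prime) (h : q.Coprime n) (x : H1 ((Lvl.gamma0 n).ι M) ρ) :
    (cJ hq h M).map ρ ((cI n q M).map ρ x) = (q + 1) • x := by
  have : Fact q.Prime := ⟨hq⟩
  have hex : ∀ y : OnePoint (ZMod q), ∃ g : CongruenceSubgroup.Gamma0 n,
      (1 : M2Z) * rI q n y = (((Lvl.gamma0 n).j g : SL(2, ℤ)) : M2Z) * 1 := by
    intro y
    obtain ⟨g, hg⟩ := exists_gamma0 (N := n) (det_rI h y) (rI10 y)
    exact ⟨g, by rw [hg, one_mul, mul_one]⟩
  choose g hg using hex
  have hss : Subsingleton (cOne (Lvl.gamma0 n) M).X := inferInstanceAs (Subsingleton Unit)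
  have := Corr.map_map_eq_nsmul (ρ := ρ) (cI n q M) (cJ hq h M) (cOne (Lvl.gamma0 n) M)
    (fun _ _ => ()) (fun _ y => g y) (fun _ y => toGp_mul_eq (Lvl.gamma0 n)
      (isGd_one M Matrix.det_one) (isGd_one M (det_rI h y)) (isGd_one M Matrix.det_one) (hg y))
    (q + 1)
    (fun z => (card_fiber_subsingleton _ z).trans (by
      have h1 : Nat.card (cI n q M).X = 1 := Nat.card_unique (α := Unit)
      have h2 : Nat.card (cJ hq h M).X = q + 1 := card_onePoint' q
      rw [h1, h2, one_mul])) x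
  rw [this, cOne_map]

theorem isGd_scal (hq : q.Prime) (hqM : q.Coprime M) :
    IsGd M (!![(q : ℤ), 0; 0, q] : M2Z) :=
  ⟨by
      rw [Matrix.det_fin_two_of]
      have : (q : ℤ) ≠ 0 := by exact_mod_cast hq.ne_zero
      simpa using this, by
      rw [Matrix.det_fin_two_of]
      push_cast
      have := (ZMod.isUnit_iff_coprime q M).mpr hqM
      simpa using this.mul this⟩

/-- the scalar `q` in the ambient group -/
def scal (hq : q.Prime) (hqM : q.Coprime M) : Gp M :=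
  toGp M !![(q : ℤ), 0; 0, q] (isGd_scal hq hqM)

theorem scal_comm (hq : q.Prime) (hqM : q.Coprime M) (g : Gp M) :
    scal hq hqM * g = g * scal hq hqM := by
  refine Prod.ext (Units.ext ?_) (Units.ext ?_)
  · change (!![(q : ℤ), 0; 0, q] : M2Z).map (Int.castRingHom ℝ) * g.1.1 =
      g.1.1 * (!![(q : ℤ), 0; 0, q] : M2Z).map (Int.castRingHom ℝ)
    ext i j
    fin_cases i <;> fin_cases j <;> simp [Matrix.mul_apply, Fin.sum_univ_two, mul_comm]
  · change (!![(q : ℤ), 0; 0, q] : M2Z).map (Int.castRingHom (ZMod M)) * g.2.1 =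
      g.2.1 * (!![(q : ℤ), 0; 0, q] : M2Z).map (Int.castRingHom (ZMod M))
    ext i j
    fin_cases i <;> fin_cases j <;> simp [Matrix.mul_apply, Fin.sum_univ_two, mul_comm]

/-- the scalar correspondence -/
def cScal {Γ : Type} [Group Γ] (L : Lvl Γ) (hq : q.Prime) (hqM : q.Coprime M) :
    Corr (L.ι M) (L.ι M) :=
  L.corr L M (X := Unit) (fun _ => !![(q : ℤ), 0; 0, q]) (fun _ => isGd_scal hq hqM)
    (fun g _ => ⟨(), g, by
      ext i j
      fin_cases i <;> fin_cases j <;> simp [Matrix.mul_apply, Fin.sum_univ_two, mul_comm]⟩)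
    (fun _ _ _ _ => rfl)

/-- `W² = 1` when the scalar `q` acts trivially on the coefficients. -/
theorem W_W (hq : q.Prime) (h : q.Coprime n) (hqM : q.Coprime M) (hρ : ρ (scal hq hqM) = 1)
    (x : H1 ((Lvl.gamma0 (n * q)).ι M) ρ) :
    (cW hq h hqM).map ρ ((cW hq h hqM).map ρ x) = x := by
  have hbz := bez h
  obtain ⟨g, hg⟩ := exists_gamma0 (N := n * q)
    (A := !![(q : ℤ) - n * bv q n, - bv q n * (1 + bu q n);
      n * q * (1 + bu q n), - (n * bv q n) + q * bu q n ^ 2]) (by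
      rw [Matrix.det_fin_two_of]
      linear_combination (q * bu q n + n * bv q n + 1 : ℤ) * hbz) (by simp)
  have := Corr.map_map_eq_nsmul (ρ := ρ) (cW hq h hqM) (cW hq h hqM)
    (cScal (Lvl.gamma0 (n * q)) hq hqM)
    (fun _ _ => ()) (fun _ _ => g) (fun _ _ => toGp_mul_eq (Lvl.gamma0 (n * q))
      (isGd_prime hq hqM (det_wI h)) (isGd_prime hq hqM (det_wI h)) (isGd_scal hq hqM) (by
      rw [hg, wI]
      ext i j
      fin_cases i <;> fin_cases j <;> simp [Matrix.mul_apply, Fin.sum_univ_two]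
      all_goals ring)) 1
    card_unit_prod_unit x
  rw [one_smul] at this
  rw [this]
  exact map_scalar ρ _ () (fun _ => rfl) (scal hq hqM) rfl (scal_comm hq hqM) hρ x

end Rel

end Fermat.Agent.TWDeg

end
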