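import Fermat.Agent.TW.Free

/-!
# Coefficients in a field `E`: the `E`-structure on cohomology
-/

set_option autoImplicit false
set_option linter.unusedSectionVars false

noncomputable section

namespace Fermat.Agent.TWDeg

open Fermat.Agent.TW
open scoped MatrixGroups

section

variable {m M : ℕ} {Γ : Type} [Group Γ] (X : Stg m M Γ) {O E Y : Type} [CommRing O] [CommRing E]
  [Algebra O E] [MulAction (GL (Fin 2) (ZMod M)) Y]

/-- multiplication by a scalar of `E` -/
def eAct (e : E) : X.H (funRep (M := M) O E Y) →ₗ[TPoly m O] X.H (funRep (M := M) O E Y) :=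
  X.map (coef Y (LinearMap.mulLeft O e))

theorem eAct_mk (e : E) (f : Z1 (X.L.ι M) (funRep (M := M) O E Y)) :
    eAct X e (H1.mk (X.L.ι M) (funRep (M := M) O E Y) f) =
      H1.mk (X.L.ι M) (funRep (M := M) O E Y) (Z1.map _ (coef Y (LinearMap.mulLeft O e)) f) := rfl

/-- the action of `E` -/
def eRing : E →+* Module.End (TPoly m O) (X.H (funRep (M := M) O E Y)) where
  toFun := eAct X
  map_one' := by
    refine LinearMap.ext fun x => X.map_id' _ (fun v => ?_) x
    ext y
    exact one_mul _
  map_mul' e e' := by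
    refine LinearMap.ext fun x => (X.map_comp' _ _ _ (fun v => ?_) x).symm
    ext y
    exact (mul_assoc _ _ _).symm
  map_zero' := by
    refine LinearMap.ext fun x => X.map_zero' _ (fun v => ?_) x
    ext y
    exact zero_mul _
  map_add' e e' := by
    refine LinearMap.ext fun x => ?_
    obtain ⟨f, rfl⟩ := X.mk_surj x
    have h1 : eAct X e (H1.mk (X.L.ι M) (funRep (M := M) O E Y) f) +
        eAct X e' (H1.mk (X.L.ι M) (funRep (M := M) O E Y) f) =
        H1.mk (X.L.ι M) (funRep (M := M) O E Y)
          (Z1.map _ (coef Y (LinearMap.mulLeft O e)) f +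
            Z1.map _ (coef Y (LinearMap.mulLeft O e')) f) := rfl
    refine Eq.trans ?_ h1.symm
    rw [eAct_mk]
    congr 1
    apply Subtype.ext
    funext g
    ext y
    exact add_mul _ _ _

theorem eRing_apply (e : E) (x : X.H (funRep (M := M) O E Y)) :
    eRing X e x = eAct X e x := rfl

/-- the `E`-module structure -/
@[reducible] def eMod : Module E (X.H (funRep (M := M) O E Y)) :=
  Module.compHom (X.H (funRep (M := M) O E Y)) (eRing X (O := O) (E := E) (Y := Y))

theorem eAct_algebraMap (o : O) (x : X.H (funRep (M := M) O E Y)) :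
    eAct X (algebraMap O E o) x = o • x := by
  refine X.map_smul' _ o (fun v => ?_) x
  ext y
  exact (Algebra.smul_def _ _).symm

theorem C_smul_eq (o : O) (x : X.H (funRep (M := M) O E Y)) :
    (MvPolynomial.C o : TPoly m O) • x = eAct X (algebraMap O E o) x := by
  rw [eAct_algebraMap]
  exact X.C_smul _ o x

/-- naturality of the `E`-structure -/
theorem map_eAct {Y' : Type} [MulAction (GL (Fin 2) (ZMod M)) Y']
    (φ : CHom (funRep (M := M) O E Y) (funRep (M := M) O E Y'))
    (hφ : ∀ (e : E) (F : Y → E), φ.toLinearMap (fun y => e * F y) =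
      fun y => e * φ.toLinearMap F y) (e : E) (x : X.H (funRep (M := M) O E Y)) :
    X.map φ (eAct X e x) = eAct X e (X.map φ x) := by
  obtain ⟨f, rfl⟩ := X.mk_surj x
  have h1 : Z1.map (X.L.ι M) φ (Z1.map (X.L.ι M) (coef Y (LinearMap.mulLeft O e)) f) =
      Z1.map (X.L.ι M) (coef Y' (LinearMap.mulLeft O e)) (Z1.map (X.L.ι M) φ f) :=
    Subtype.ext (funext fun g => hφ e (f.1 g))
  exact congrArg (H1.mk (X.L.ι M) (funRep (M := M) O E Y')) h1

end

section Finite

variable {m M : ℕ} (hM : M ∣ m) {O E Y : Type} [CommRing O] [Field E]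
  [Algebra O E] [MulAction (GL (Fin 2) (ZMod M)) Y] [Finite Y]

theorem finite_eMod : @Module.Finite E ((XF hM).H (funRep (M := M) O E Y)) _ _
    (eMod (XF hM)) := by
  let _ : Module E ((XF hM).H (funRep (M := M) O E Y)) := eMod (XF hM)
  let Z := Z1 ((XF hM).L.ι M) (funRep (M := M) O E Y)
  let W : Submodule E ((Y → E) × (Y → E)) :=
    { carrier := {w | ∃ c : Z, (c.1 ModularGroup.S, c.1 U) = w}
      zero_mem' := ⟨0, rfl⟩
      add_mem' := by
        rintro _ _ ⟨c, rfl⟩ ⟨c', rfl⟩
        exact ⟨c + c', rfl⟩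
      smul_mem' := by
        rintro e _ ⟨c, rfl⟩
        exact ⟨Z1.map _ (coef Y (LinearMap.mulLeft O e)) c, rfl⟩ }
  choose cc hcc using fun w : W => w.2
  have huniq : ∀ c c' : Z, (c.1 ModularGroup.S, c.1 U) = (c'.1 ModularGroup.S, c'.1 U) →
      c = c' := fun c c' h => Z1.ext' (Prod.mk.inj h).1 (Prod.mk.inj h).2
  let f : W →ₗ[E] (XF hM).H (funRep (M := M) O E Y) :=
    { toFun := fun w => H1.mk ((XF hM).L.ι M) (funRep (M := M) O E Y) (cc w)
      map_add' := fun w w' => by
        have h1 : cc (w + w') = cc w + cc w' := huniq _ _ (by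
          rw [hcc]
          have h2 := hcc w
          have h3 := hcc w'
          exact (congrArg₂ (· + ·) h2 h3).symm)
        rw [h1]
        rfl
      map_smul' := fun e w => by
        have h1 : cc (e • w) = Z1.map _ (coef Y (LinearMap.mulLeft O e)) (cc w) := huniq _ _ (by
          rw [hcc]
          exact (congrArg (fun z => e • z) (hcc w)).symm)
        rw [h1]
        rfl }
  refine Module.Finite.of_surjective f ?_
  intro x
  obtain ⟨c, rfl⟩ := (XF hM).mk_surj x
  refine ⟨⟨_, c, rfl⟩, ?_⟩
  change H1.mk ((XF hM).L.ι M) (funRep (M := M) O E Y) (cc _) = _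
  congr 1
  exact huniq _ _ (hcc _)

end Finite

end Fermat.Agent.TWDeg

end
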