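import Fermat.Agent.DS.Eigen

/-!
# Existence of eigenvectors with prescribed non-vanishing (abstract part)
-/

set_option autoImplicit false

namespace Fermat.Agent.TWDeg

section

variable {O E B : Type} [CommRing O] [IsDomain O] [Field E] [Algebra O E] [CommRing B]
  [Algebra O B]

/-- Incomparability: kernels of integral points are maximal among primes over `0`. -/
theorem ker_eq_of_le (χ : B →ₐ[O] E) (hint : ∀ t, IsIntegral O (χ t)) (𝔭 : Ideal B)
    (h0 : ∀ o : O, algebraMap O B o ∈ 𝔭 → o = 0) (hle : ∀ t, χ t = 0 → t ∈ 𝔭) (t : B)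
    (ht : t ∈ 𝔭) : χ t = 0 := by
  by_contra hne
  obtain ⟨P, hPm, hP⟩ := hint t
  obtain ⟨Q, hQ, hQ0⟩ := Polynomial.exists_eq_pow_rootMultiplicity_mul_and_not_dvd P hPm.ne_zero 0
  rw [Polynomial.C_0, sub_zero] at hQ hQ0
  have h1 : Polynomial.aeval (χ t) Q = 0 := by
    have h2 : Polynomial.aeval (χ t) P = 0 := hP
    rw [hQ, map_mul, map_pow, Polynomial.aeval_X] at h2
    exact (mul_eq_zero.mp h2).resolve_left (pow_ne_zero _ hne)
  have h3 : χ (Polynomial.aeval t Q) = 0 := by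
    rw [← Polynomial.aeval_algHom_apply]
    exact h1
  have h4 := hle _ h3
  have h5 : Polynomial.aeval t Q = Polynomial.aeval t Q.divX * t + algebraMap O B (Q.coeff 0) := by
    conv_lhs => rw [← Polynomial.divX_mul_X_add Q]
    rw [map_add, map_mul, Polynomial.aeval_X, Polynomial.aeval_C]
  rw [h5] at h4
  have h6 : algebraMap O B (Q.coeff 0) ∈ 𝔭 :=
    (𝔭.add_mem_iff_right (𝔭.mul_mem_left _ ht)).mp h4
  exact hQ0 (Polynomial.X_dvd_iff.mpr (h0 _ h6))

variable {HO HE : Type} [AddCommGroup HO] [Module B HO] [AddCommGroup HE] [Module B HE]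
  [Module E HE] [SMulCommClass B E HE] [FiniteDimensional E HE] [IsAlgClosed E]

/-- **Existence of eigenvectors.** -/
theorem exists_eig_gen
    (hOB : ∀ (o : O) (v : HE), algebraMap O B o • v = algebraMap O E o • v)
    (c : HO →ₗ[B] HE) (S : Submonoid B) (hc : ∀ h, c h = 0 → ∃ s ∈ S, s • h = 0)
    (K : Submodule E HE) (hK : ∀ (t : B), ∀ v ∈ K, t • v ∈ K)
    (h : HO) (hh : c h ∈ K) (b : B)
    (hb : ∀ s ∈ S, ∀ o : O, o ≠ 0 → ∀ k : ℕ, (s * (algebraMap O B o * b ^ k)) • h ≠ 0)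
    (hint : ∀ (v : HE) (χ : B →ₐ[O] E), v ∈ K → v ≠ 0 → (∀ t, t • v = χ t • v) →
      (∀ s ∈ S, χ s ≠ 0) → ∀ t, IsIntegral O (χ t)) :
    ∃ v ∈ K, v ≠ 0 ∧ ∃ χ : B →ₐ[O] E, (∀ t, t • v = χ t • v) ∧ χ b ≠ 0 ∧
      (∀ s ∈ S, χ s ≠ 0) ∧ ∀ t, (∃ s ∈ S, (s * t) • h = 0) → χ t = 0 := by
  classical
  -- the multiplicative set
  let M : Submonoid B :=
    { carrier := {x | ∃ s ∈ S, ∃ o : O, o ≠ 0 ∧ ∃ k : ℕ, x = s * (algebraMap O B o * b ^ k)}
      one_mem' := ⟨1, S.one_mem, 1, one_ne_zero, 0, by simp⟩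
      mul_mem' := by
        rintro _ _ ⟨s, hs, o, ho, k, rfl⟩ ⟨s', hs', o', ho', k', rfl⟩
        exact ⟨s * s', S.mul_mem hs hs', o * o', mul_ne_zero ho ho', k + k', by
          rw [map_mul, pow_add]; ring⟩ }
  let I : Ideal B := Ideal.torsionOf B HO h
  have hI : ∀ t, t ∈ I ↔ t • h = 0 := fun t => Ideal.mem_torsionOf_iff h t
  have hdisj : Disjoint (I : Set B) M := by
    rw [Set.disjoint_left]
    rintro _ hx ⟨s, hs, o, ho, k, rfl⟩
    exact hb s hs o ho k ((hI _).mp hx)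
  obtain ⟨𝔭, h𝔭, hI𝔭, hd⟩ := Ideal.exists_le_prime_disjoint I M hdisj
  rw [Set.disjoint_left] at hd
  have hS𝔭 : ∀ s ∈ S, s ∉ 𝔭 := fun s hs hs' => hd hs' ⟨s, hs, 1, one_ne_zero, 0, by simp⟩
  have hb𝔭 : b ∉ 𝔭 := fun hs' => hd hs' ⟨1, S.one_mem, 1, one_ne_zero, 1, by simp⟩
  have h0 : ∀ o : O, algebraMap O B o ∈ 𝔭 → o = 0 := by
    intro o ho
    by_contra hne
    exact hd ho ⟨1, S.one_mem, o, hne, 0, by simp⟩
  have hsat : ∀ t, (∃ s ∈ S, (s * t) • h = 0) → t ∈ 𝔭 := by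
    rintro t ⟨s, hs, hst⟩
    exact (h𝔭.mem_or_mem (hI𝔭 ((hI _).mpr hst))).resolve_left (hS𝔭 s hs)
  -- the action on `K`
  let act : B →+* Module.End E K :=
    { toFun := fun t =>
        { toFun := fun v => ⟨t • (v : HE), hK t v v.2⟩
          map_add' := fun v w => Subtype.ext (smul_add _ _ _)
          map_smul' := fun e v => Subtype.ext (smul_comm _ _ _) }
      map_one' := LinearMap.ext fun v => Subtype.ext (one_smul _ _)
      map_mul' := fun s t => LinearMap.ext fun v => Subtype.ext (mul_smul _ _ _)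
      map_zero' := LinearMap.ext fun v => Subtype.ext (zero_smul _ _)
      map_add' := fun s t => LinearMap.ext fun v => Subtype.ext (add_smul _ _ _) }
  have hact : ∀ t, act t = 0 → t ∈ 𝔭 := by
    intro t ht
    have h1 : t • c h = 0 := congrArg Subtype.val (LinearMap.congr_fun ht ⟨c h, hh⟩)
    rw [← map_smul] at h1
    obtain ⟨s, hs, hs'⟩ := hc _ h1
    exact hsat t ⟨s, hs, by rw [mul_smul, hs']⟩
  obtain ⟨v, χ₀, hv, hχ₀, hker⟩ := DS.exists_common_eigenvector act 𝔭 h𝔭 hact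
  have hv0 : (v : HE) ≠ 0 := fun h => hv (Subtype.ext h)
  have hχv : ∀ t, t • (v : HE) = χ₀ t • (v : HE) := fun t => congrArg Subtype.val (hχ₀ t)
  let χ : B →ₐ[O] E :=
    { χ₀ with
      commutes' := fun o => by
        have h1 := hχv (algebraMap O B o)
        rw [hOB, ← sub_eq_zero, ← sub_smul] at h1
        exact (sub_eq_zero.mp ((smul_eq_zero.mp h1).resolve_right hv0)).symm }
  have hχ : ∀ t, χ t = χ₀ t := fun _ => rfl
  have hne : ∀ s ∈ S, χ s ≠ 0 := fun s hs h => hS𝔭 s hs (hker s h)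
  have hi := hint v χ v.2 hv0 hχv hne
  refine ⟨v, v.2, hv0, χ, hχv, fun h => hb𝔭 (hker b h), hne, fun t ht => ?_⟩
  exact ker_eq_of_le χ hi 𝔭 h0 (fun t ht => hker t ht) t (hsat t ht)

end

end Fermat.Agent.TWDeg
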