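import Fermat.Agent.TWDeg.ECoef
import Fermat.Agent.TWDeg.PtAbs
import Fermat.Agent.TW.Alg

/-!
# Eigenvectors in cohomology with coefficients in an algebraically closed field
-/

set_option autoImplicit false
set_option linter.unusedSectionVars false

noncomputable section

namespace Fermat.Agent.TWDeg

open Fermat.Agent.TW
open scoped MatrixGroups

section

variable {m M : ℕ} (hM : M ∣ m) {O E Y : Type} [CommRing O] [IsDomain O] [Field E]
  [Algebra O E] [MulAction (GL (Fin 2) (ZMod M)) Y] [Finite Y]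

/-- extension of coefficients -/
abbrev ext (O E Y : Type) [CommRing O] [Field E] [Algebra O E]
    [MulAction (GL (Fin 2) (ZMod M)) Y] (hM : M ∣ m) :
    (XF hM).H (funRep (M := M) O O Y) →ₗ[TPoly m O] (XF hM).H (funRep (M := M) O E Y) :=
  (XF hM).map (coef (M := M) Y (Algebra.linearMap O E))

theorem eis_of_ext (hOE : Function.Injective (algebraMap O E)) (l : Pr m)
    (hl : ((l : ℕ) : ZMod M) = 1) (h : (XF hM).H (funRep (M := M) O O Y))
    (hh : ext O E Y hM h = 0) : eis O l • h = 0 := by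
  rw [sub_smul, Stg.X_smul, Stg.C_smul,
    (XF hM).eisenstein infl_funRep _ (fun F F' h => funext fun y => hOE (congrFun h y))
      ⟨ModularGroup.T, rfl⟩ l hl _ hh, ← Nat.cast_succ, Nat.cast_smul_eq_nsmul, sub_self]

variable [IsAlgClosed E]

/-- **Existence of eigenvectors** in a subspace. -/
theorem exists_eig_H (hOE : Function.Injective (algebraMap O E)) (S : Submonoid (TPoly m O))
    (l : Pr m) (hl : ((l : ℕ) : ZMod M) = 1) (hlS : eis O l ∈ S)
    (K : Submodule (TPoly m O) ((XF hM).H (funRep (M := M) O E Y)))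
    (hKE : ∀ (e : E), ∀ x ∈ K, eAct (XF hM) e x ∈ K)
    (h : (XF hM).H (funRep (M := M) O O Y)) (hh : ext O E Y hM h ∈ K) (b : TPoly m O)
    (hb : ∀ s ∈ S, ∀ o : O, o ≠ 0 → ∀ k : ℕ, (s * (MvPolynomial.C o * b ^ k)) • h ≠ 0)
    (hint : ∀ (v : (XF hM).H (funRep (M := M) O E Y)) (χ : TPoly m O →ₐ[O] E), v ∈ K → v ≠ 0 →
      (∀ t : TPoly m O, t • v = eAct (XF hM) (χ t) v) → (∀ s ∈ S, χ s ≠ 0) →
        ∀ t, IsIntegral O (χ t)) :
    ∃ v ∈ K, v ≠ 0 ∧ ∃ χ : TPoly m O →ₐ[O] E,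
      (∀ t : TPoly m O, t • v = eAct (XF hM) (χ t) v) ∧ χ b ≠ 0 ∧ (∀ s ∈ S, χ s ≠ 0) ∧
        ∀ t : TPoly m O, (∃ s ∈ S, (s * t) • h = 0) → χ t = 0 := by
  let _ : Module E ((XF hM).H (funRep (M := M) O E Y)) := eMod (XF hM)
  have _ : SMulCommClass (TPoly m O) E ((XF hM).H (funRep (M := M) O E Y)) :=
    ⟨fun t e x => (map_smul (eAct (XF hM) e) t x).symm⟩
  have _ : FiniteDimensional E ((XF hM).H (funRep (M := M) O E Y)) := finite_eMod hM
  let K' : Submodule E ((XF hM).H (funRep (M := M) O E Y)) :=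
    { carrier := K
      zero_mem' := K.zero_mem
      add_mem' := K.add_mem
      smul_mem' := fun e x hx => hKE e x hx }
  exact exists_eig_gen (O := O) (fun o v => C_smul_eq (XF hM) o v) (ext O E Y hM) S
    (fun h hh => ⟨_, hlS, eis_of_ext hM hOE l hl h hh⟩) K' (fun t v hv => K.smul_mem t hv) h hh b
    hb hint

end

end Fermat.Agent.TWDeg

end
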