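import Fermat.Agent.TWDeg.ShapStg
import Fermat.Agent.TW.ShapD

/-!
# Moving the level `N` from the coefficients to the group

`H¹(SL₂(ℤ), Fun(W.Y_t)) = H¹(Γ₀(N), Fun(W₁.Y_t))` where `W₁` is the Taylor-Wiles datum of level one.
-/

set_option autoImplicit false
set_option linter.unusedSectionVars false

noncomputable section

namespace Fermat.Agent.TWDeg

open Fermat.Agent.TW
open Matrix.SpecialLinearGroup CongruenceSubgroup
open scoped MatrixGroups

variable {D : Type} [CommGroup D]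

/-- the datum of level one -/
def one (W : TWD D) : TWD D where
  N := 1
  Q := W.Q
  χ := W.χ
  tws := ⟨one_ne_zero, W.tws.prime, fun q hq h =>
    (W.tws.prime q hq).one_lt.ne' (Nat.dvd_one.mp h)⟩
  surj := W.surj
  odd := W.odd

variable (W : TWD D)

theorem one_M_dvd : (one W).M ∣ W.M := by
  change 1 * ∏ q ∈ W.Q, q ∣ W.N * ∏ q ∈ W.Q, q
  exact mul_dvd_mul (one_dvd _) (dvd_refl _)

theorem one_dd : (one W).dd = W.dd := rfl

/-- matrices upper triangular modulo `N` -/
def upN : Subgroup (GL (Fin 2) (ZMod W.M)) := (upB (ZMod W.N)).comap (red (N_dvd W.N W.Q))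

/-- reduction to level one -/
abbrev red1 : GL (Fin 2) (ZMod W.M) →* GL (Fin 2) (ZMod (one W).M) := red (one_M_dvd W)

theorem red_red {a b c : ℕ} (h1 : a ∣ b) (h2 : b ∣ c) (g : GL (Fin 2) (ZMod c)) :
    red h1 (red h2 g) = red (h1.trans h2) g := by
  ext i j
  rw [red_apply, red_apply, red_apply]
  have h3 : ZMod.castHom (h1.trans h2) (ZMod a) =
    (ZMod.castHom h1 (ZMod a)).comp (ZMod.castHom h2 (ZMod b)) := Subsingleton.elim _ _
  rw [h3, RingHom.comp_apply]

variable {W} in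
theorem mem_K_iff {t : ℕ → LT} {g : GL (Fin 2) (ZMod W.M)} :
    g ∈ W.K t ↔ g ∈ upN W ∧ red1 W g ∈ (one W).K t := by
  constructor
  · intro h
    refine ⟨h.1, ⟨?_, fun q hq => ?_⟩⟩
    · rw [mem_upB]
      exact Subsingleton.elim (α := ZMod 1) _ _
    · rw [red_red]
      exact h.2 q hq
  · rintro ⟨h1, h2⟩
    refine ⟨h1, fun q hq => ?_⟩
    have h3 := h2.2 q hq
    rwa [red_red] at h3

/-- the `GL₂(ℤ/M)`-set of the level `Γ₀(N)` -/
abbrev YN : Type := GL (Fin 2) (ZMod W.M) ⧸ upN W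

theorem K_le_upN (t : ℕ → LT) : W.K t ≤ upN W := fun _ h => (mem_K_iff.mp h).1

/-- first component -/
def th1 (t : ℕ → LT) : W.Yt t → YN W := NormD.pr (K_le_upN W t)

/-- second component -/
def th2 (t : ℕ → LT) : W.Yt t → (one W).Yt t := Quotient.map' (red1 W) fun a b h => by
  rw [QuotientGroup.leftRel_apply] at h ⊢
  rw [← map_inv, ← map_mul]
  exact (mem_K_iff.mp h).2

theorem th1_mk (t : ℕ → LT) (g : GL (Fin 2) (ZMod W.M)) :
    th1 W t (g : W.Yt t) = (g : YN W) := rfl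

theorem th2_mk (t : ℕ → LT) (g : GL (Fin 2) (ZMod W.M)) :
    th2 W t (g : W.Yt t) = (red1 W g : (one W).Yt t) := rfl

theorem th1_smul (t : ℕ → LT) (g : GL (Fin 2) (ZMod W.M)) (y : W.Yt t) :
    th1 W t (g • y) = g • th1 W t y := NormD.pr_smul _ g y

theorem th2_smul (t : ℕ → LT) (g : GL (Fin 2) (ZMod W.M)) (y : W.Yt t) :
    th2 W t (g • y) = red1 W g • th2 W t y := by
  induction y using QuotientGroup.induction_on with
  | H x =>
    change th2 W t ((g * x : GL (Fin 2) (ZMod W.M)) : W.Yt t) = red1 W g • th2 W t (x : W.Yt t)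
    rw [th2_mk, th2_mk, map_mul]
    rfl

/-- both components -/
def th (t : ℕ → LT) (y : W.Yt t) : YN W × (one W).Yt t := (th1 W t y, th2 W t y)

theorem th_injective (t : ℕ → LT) : Function.Injective (th W t) := by
  intro y y' h
  obtain ⟨h1, h2⟩ := Prod.mk.inj h
  induction y using QuotientGroup.induction_on with
  | H x =>
    induction y' using QuotientGroup.induction_on with
    | H x' =>
      rw [th1_mk, th1_mk, QuotientGroup.eq] at h1
      rw [th2_mk, th2_mk, QuotientGroup.eq, ← map_inv, ← map_mul] at h2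
      rw [QuotientGroup.eq]
      exact mem_K_iff.mpr ⟨h1, h2⟩

theorem coprime_N_one : W.N.Coprime (one W).M := by
  change W.N.Coprime (1 * ∏ q ∈ W.Q, q)
  rw [one_mul]
  exact Nat.Coprime.prod_right fun q hq => W.tws.coprime_N hq

theorem M_eq : W.M = W.N * (one W).M := by
  change W.N * ∏ q ∈ W.Q, q = W.N * (1 * ∏ q ∈ W.Q, q)
  rw [one_mul]

theorem th_surjective (t : ℕ → LT) : Function.Surjective (th W t) := by
  rintro ⟨y₁, y₂⟩
  induction y₁ using QuotientGroup.induction_on with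
  | H g₀ =>
    induction y₂ using QuotientGroup.induction_on with
    | H g₁ =>
      have hN : W.N ≠ 0 := W.tws.pos
      have hM1 : (one W).M ≠ 0 := (one W).tws.modu_ne_zero
      have hc := coprime_N_one W
      obtain ⟨L, hL, hL'⟩ := exists_emb (M := W.M) (n := (one W).M) (one_M_dvd W) (by
        rw [M_eq W, Nat.mul_div_cancel _ (Nat.pos_of_ne_zero hM1)]
        exact hc.symm)
      obtain ⟨L₀, hL₀, hL₀'⟩ := exists_emb (M := W.M) (n := W.N) (N_dvd W.N W.Q) (by
        rw [M_eq W, Nat.mul_div_cancel_left _ (Nat.pos_of_ne_zero hN)]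
        exact hc)
      have e1 : th1 W t ((L g₁ * L₀ (red (N_dvd W.N W.Q) g₀) : GL (Fin 2) (ZMod W.M)) : W.Yt t) =
          (g₀ : YN W) := by
        rw [th1_mk, QuotientGroup.eq]
        change red (N_dvd W.N W.Q) _ ∈ upB (ZMod W.N)
        rw [map_mul, map_inv, map_mul, hL' _ _ hc, hL₀, one_mul, inv_mul_cancel]
        exact one_mem _
      have e2 : th2 W t ((L g₁ * L₀ (red (N_dvd W.N W.Q) g₀) : GL (Fin 2) (ZMod W.M)) : W.Yt t) =
          (g₁ : (one W).Yt t) := by
        rw [th2_mk, map_mul, hL₀' _ _ hc.symm, mul_one, hL]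
      refine ⟨((L g₁ * L₀ (red (N_dvd W.N W.Q) g₀) : GL (Fin 2) (ZMod W.M)) : W.Yt t), ?_⟩
      rw [th, e1, e2]

/-- the equivalence -/
def thE (t : ℕ → LT) : W.Yt t ≃ YN W × (one W).Yt t :=
  Equiv.ofBijective (th W t) ⟨th_injective W t, th_surjective W t⟩

theorem thE_apply (t : ℕ → LT) (y : W.Yt t) : thE W t y = (th1 W t y, th2 W t y) := rfl

theorem thE_symm_smul (t : ℕ → LT) (g : GL (Fin 2) (ZMod W.M)) (y₁ : YN W)
    (y₂ : (one W).Yt t) :
    g • (thE W t).symm (y₁, y₂) = (thE W t).symm (g • y₁, red1 W g • y₂) := by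
  apply (thE W t).injective
  rw [Equiv.apply_symm_apply, thE_apply, th1_smul, th2_smul]
  have h := (thE W t).apply_symm_apply (y₁, y₂)
  rw [thE_apply] at h
  obtain ⟨h1, h2⟩ := Prod.mk.inj h
  rw [h1, h2]

/-- the action on `YN` -/
def aN : Gp W.M →* Equiv.Perm (YN W) := (MulAction.toPermHom _ (YN W)).comp (MonoidHom.snd _ _)

theorem aN_apply (g : Gp W.M) (y : YN W) : aN W g y = g.2 • y := rfl

/-- the base point -/
def ptN : YN W := ((1 : GL (Fin 2) (ZMod W.M)) : YN W)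

variable {W} in
theorem smul_ptN_iff {g : GL (Fin 2) (ZMod W.M)} : g • ptN W = ptN W ↔ g ∈ upN W := by
  change ((g * 1 : GL (Fin 2) (ZMod W.M)) : YN W) = ((1 : GL (Fin 2) (ZMod W.M)) : YN W) ↔ _
  rw [mul_one, QuotientGroup.eq, mul_one, inv_mem_iff]

variable {W} in
theorem mem_upN_iff {A : M2Z} (hA : IsGd W.M A) :
    (toGp W.M A hA).2 ∈ upN W ↔ (W.N : ℤ) ∣ A 1 0 := by
  change red (N_dvd W.N W.Q) (toGp W.M A hA).2 1 0 = 0 ↔ _
  rw [red_apply]
  change ZMod.castHom (N_dvd W.N W.Q) (ZMod W.N) ((A 1 0 : ℤ) : ZMod W.M) = 0 ↔ _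
  rw [map_intCast, ZMod.intCast_zmod_eq_zero_iff_dvd]

/-- `Γ₀(N)` is the stabiliser of the base point. -/
def stabN : Stab (aN W) (Lvl.full.ι W.M) ((Lvl.gamma0 W.N).ι W.M) (ptN W) where
  κ := (Gamma0 W.N).subtype
  inj := Subtype.coe_injective
  comp _ := rfl
  fix γ := by
    rw [aN_apply, smul_ptN_iff, Lvl.ι_apply, ← toGp_SL, mem_upN_iff]
    exact (ZMod.intCast_zmod_eq_zero_iff_dvd _ _).mp (Gamma0_mem.mp γ.2)
  trans y := by
    induction y using QuotientGroup.induction_on with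
    | H x =>
      obtain ⟨g, hg⟩ := W.trans (fun _ => .bor) (x : W.Yt fun _ => .bor)
      refine ⟨g, ?_⟩
      have h1 := congrArg (th1 W fun _ => .bor) hg
      rw [th1_smul] at h1
      exact h1
  range g h := by
    rw [aN_apply, smul_ptN_iff, Lvl.ι_apply] at h
    change (iM W.M g).2 ∈ upN W at h
    rw [← toGp_SL, mem_upN_iff] at h
    exact ⟨⟨g, Gamma0_mem.mpr ((ZMod.intCast_zmod_eq_zero_iff_dvd _ _).mpr h)⟩, rfl⟩

theorem fixT_N {m : ℕ} (hM : W.M ∣ m) : FixT m hM (aN W) (ptN W) := by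
  intro l x
  rw [aN_apply, smul_ptN_iff, mem_upN_iff]
  induction x using OnePoint.rec with
  | infty => exact dvd_zero _
  | coe j => exact dvd_zero _

section Main

variable {m : ℕ} (hM : W.M ∣ m) (R A : Type) [CommRing R] [AddCommGroup A] [Module R A]
  (t : ℕ → LT)

include hM in
theorem N_dvd_m : W.N ∣ m := (N_dvd W.N W.Q).trans hM

include hM in
theorem one_dvd_m : (one W).M ∣ m := (one_M_dvd W).trans hM

/-- coefficients in level one -/
abbrev V1 : Representation R (Gp (one W).M) ((one W).Yt t → A) :=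
  funRep (M := (one W).M) R A ((one W).Yt t)

/-- the intermediate coefficients -/
abbrev VC : Representation R (Gp W.M) (YN W → (one W).Yt t → A) :=
  coind (aN W) (resRep (castGp (one_M_dvd W)) (V1 W R A t))

/-- comparison of coefficients -/
def toVC : CHom (funRep (M := W.M) R A (W.Yt t)) (VC W R A t) where
  toFun F := fun y₁ y₂ => F ((thE W t).symm (y₁, y₂))
  map_add' _ _ := rfl
  map_smul' _ _ := rfl
  comm' g F := by
    funext y₁ y₂
    change F (g.2⁻¹ • (thE W t).symm (y₁, y₂)) =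
      F ((thE W t).symm (g⁻¹.2 • y₁, (castGp (one_M_dvd W) g).2⁻¹ • y₂))
    rw [thE_symm_smul, map_inv]
    rfl

/-- comparison of coefficients -/
def ofVC : CHom (VC W R A t) (funRep (M := W.M) R A (W.Yt t)) where
  toFun G := fun y => G (th1 W t y) (th2 W t y)
  map_add' _ _ := rfl
  map_smul' _ _ := rfl
  comm' g G := by
    funext y
    change G (g⁻¹.2 • th1 W t y) ((castGp (one_M_dvd W) g).2⁻¹ • th2 W t y) =
      G (th1 W t (g.2⁻¹ • y)) (th2 W t (g.2⁻¹ • y))
    rw [th1_smul, th2_smul, map_inv]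
    rfl

theorem toVC_apply (F : W.Yt t → A) (y₁ : YN W) (y₂ : (one W).Yt t) :
    (toVC W R A t).toLinearMap F y₁ y₂ = F ((thE W t).symm (y₁, y₂)) := rfl

theorem ofVC_toVC (F : W.Yt t → A) :
    (ofVC W R A t).toLinearMap ((toVC W R A t).toLinearMap F) = F := by
  funext y
  change F ((thE W t).symm (thE W t y)) = F y
  rw [Equiv.symm_apply_apply]

theorem toVC_ofVC (G : YN W → (one W).Yt t → A) :
    (toVC W R A t).toLinearMap ((ofVC W R A t).toLinearMap G) = G := by
  funext y₁ y₂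
  change G (thE W t ((thE W t).symm (y₁, y₂))).1 (thE W t ((thE W t).symm (y₁, y₂))).2 = G y₁ y₂
  rw [Equiv.apply_symm_apply]

/-- the level `Γ₀(N)` with coefficients of level one -/
abbrev XN : Stg m (one W).M (Gamma0 W.N) := Stg.gamma0 W.N (N_dvd_m W hM) (one_dvd_m W hM)

/-- **moving the level from the coefficients to the group** -/
def lvlH : (XF hM).H (funRep (M := W.M) R A (W.Yt t)) ≃ₗ[TPoly m R] (XN W hM).H (V1 W R A t) :=
  (isoH (XF hM) (toVC W R A t) (ofVC W R A t) (ofVC_toVC W R A t) (toVC_ofVC W R A t)).trans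
    ((shapH (XF hM) (chM (XN W hM) hM) (stabN W) (resRep (castGp (one_M_dvd W)) (V1 W R A t))
      (fixT_N W hM)).trans (modH (one_M_dvd W) (XN W hM) hM (V1 W R A t)))

theorem lvlH_mk (c : Z1 (Lvl.full.ι W.M) (funRep (M := W.M) R A (W.Yt t))) :
    ∃ c' : Z1 ((Lvl.gamma0 W.N).ι (one W).M) (V1 W R A t),
      lvlH W hM R A t (H1.mk _ _ c) = H1.mk _ _ c' ∧
      ∀ (γ : Gamma0 W.N) (y₂ : (one W).Yt t),
        c'.1 γ y₂ = c.1 (γ : SL(2, ℤ)) ((thE W t).symm (ptN W, y₂)) :=
  ⟨_, rfl, fun _ _ => rfl⟩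

end Main

section Natural

variable {m : ℕ} (hM : W.M ∣ m) {R A A' : Type} [CommRing R] [AddCommGroup A] [Module R A]
  [AddCommGroup A'] [Module R A'] {t t' : ℕ → LT}

/-- naturality of `lvlH` -/
theorem lvlH_natural (F : CHom (funRep (M := W.M) R A (W.Yt t)) (funRep (M := W.M) R A' (W.Yt t')))
    (f : CHom (V1 W R A t) (V1 W R A' t'))
    (h : ∀ (v : W.Yt t → A) (y₁ : YN W) (y₂ : (one W).Yt t'),
      F.toLinearMap v ((thE W t').symm (y₁, y₂)) =
        f.toLinearMap (fun z => v ((thE W t).symm (y₁, z))) y₂)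
    (x : (XF hM).H (funRep (M := W.M) R A (W.Yt t))) :
    lvlH W hM R A' t' ((XF hM).map F x) = (XN W hM).map f (lvlH W hM R A t x) := by
  obtain ⟨c, rfl⟩ := (XF hM).mk_surj x
  change H1.mk ((XN W hM).L.ι (one W).M) (V1 W R A' t') _ =
    H1.mk ((XN W hM).L.ι (one W).M) (V1 W R A' t') _
  congr 1
  ext γ y₂
  exact h _ _ _

end Natural

end Fermat.Agent.TWDeg

end
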