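import Fermat.Agent.TWDeg.LvlN

/-!
# Naturality of the level change: `Δ_Q`, projections, coefficients, Hecke operators
-/

set_option autoImplicit false
set_option linter.unusedSectionVars false

noncomputable section

namespace Fermat.Agent.TWDeg

open Fermat.Agent.TW
open Matrix.SpecialLinearGroup CongruenceSubgroup
open scoped MatrixGroups

variable {D : Type} [CommGroup D] (W : TWD D)

/-! ### the action of `Δ_Q` -/

theorem nebq_red1 {t : ℕ → LT} {q : ℕ} (hq : q ∈ W.Q) (k : W.K t) :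
    nebq (N := 1) hq (⟨red1 W k, (mem_K_iff.mp k.2).2⟩ : (one W).K t) = nebq hq k := by
  have h1 : toLow (N := 1) hq (⟨red1 W k, (mem_K_iff.mp k.2).2⟩ : (one W).K t) = toLow hq k := by
    apply Subtype.ext
    rw [toLow_coe, toLow_coe]
    exact red_red _ _ _
  exact congrArg (fun z => W.χ q (rat z)) h1

/-- reduction of the Borel level -/
def redB (k : W.K fun _ => .bor) : (one W).K fun _ => .bor :=
  ⟨red1 W k, (mem_K_iff.mp k.2).2⟩

theorem norm_red1 (k : W.K fun _ => .bor) : (one W).norm.κ (redB W k) = W.norm.κ k := by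
  funext q
  exact nebq_red1 W q.2 k

theorem th2_sm (δ : W.Q → D) (y : W.YQ) :
    th2 W (fun _ => .chi) (δ • y) = (one W).norm.sm δ (th2 W (fun _ => .chi) y) := by
  induction y using QuotientGroup.induction_on with
  | H g =>
    rw [TWD.smul_def, W.norm.sm_mk δ g (W.norm.kk δ) (W.norm.κ_kk δ), th2_mk, th2_mk,
      (one W).norm.sm_mk δ (red1 W g) (redB W (W.norm.kk δ)) (by
        rw [norm_red1, W.norm.κ_kk]), map_mul]
    rfl

theorem th1_sm (δ : W.Q → D) (y : W.YQ) :
    th1 W (fun _ => .chi) (δ • y) = th1 W (fun _ => .chi) y := by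
  induction y using QuotientGroup.induction_on with
  | H g =>
    rw [TWD.smul_def, W.norm.sm_mk δ g (W.norm.kk δ) (W.norm.κ_kk δ), th1_mk, th1_mk,
      QuotientGroup.eq, mul_inv_rev, inv_mul_cancel_right]
    exact inv_mem (K_le_upN W _ (W.norm.kk δ).2)

theorem thE_symm_sm (δ : W.Q → D) (y₁ : YN W) (y₂ : (one W).YQ) :
    δ • (thE W fun _ => .chi).symm (y₁, y₂) =
      (thE W fun _ => .chi).symm (y₁, (one W).norm.sm δ y₂) := by
  apply (thE W fun _ => .chi).injective
  rw [Equiv.apply_symm_apply, thE_apply, th1_sm, th2_sm]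
  have h := (thE W fun _ => .chi).apply_symm_apply (y₁, y₂)
  rw [thE_apply] at h
  obtain ⟨h1, h2⟩ := Prod.mk.inj h
  rw [h1, h2]

/-! ### projections -/

theorem thE_symm_pr {t t' : ℕ → LT} (h : W.K t ≤ W.K t') (h1 : (one W).K t ≤ (one W).K t')
    (y₁ : YN W) (y₂ : (one W).Yt t) :
    NormD.pr h ((thE W t).symm (y₁, y₂)) = (thE W t').symm (y₁, NormD.pr h1 y₂) := by
  apply (thE W t').injective
  rw [Equiv.apply_symm_apply]
  have key : ∀ y : W.Yt t, thE W t' (NormD.pr h y) = ((thE W t y).1, NormD.pr h1 (thE W t y).2) := by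
    intro y
    induction y using QuotientGroup.induction_on with
    | H g => rfl
  rw [key, Equiv.apply_symm_apply]

section

variable {m : ℕ} (hM : W.M ∣ m) {R A A' : Type} [CommRing R] [AddCommGroup A] [Module R A]
  [AddCommGroup A'] [Module R A']

/-- **`lvlH` and the action of `Δ_Q`** -/
theorem lvlH_act (δ : W.Q → D) (x : (XF hM).H (funRep (M := W.M) R A W.YQ)) :
    lvlH W hM R A _ ((XF hM).map (actC W.M R A W.YQ δ) x) =
      (XN W hM).map (actC (one W).M R A (one W).YQ (Δ := (one W).Q → D) δ)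
        (lvlH W hM R A _ x) := by
  refine lvlH_natural W hM _ _ (fun v y₁ y₂ => ?_) x
  exact congrArg v (thE_symm_sm W δ⁻¹ y₁ y₂)

/-- **`lvlH` and the change of coefficients** -/
theorem lvlH_coef (t : ℕ → LT) (a : A →ₗ[R] A') (x : (XF hM).H (funRep (M := W.M) R A (W.Yt t))) :
    lvlH W hM R A' t ((XF hM).map (coef (W.Yt t) a) x) =
      (XN W hM).map (coef ((one W).Yt t) a) (lvlH W hM R A t x) :=
  lvlH_natural W hM _ _ (fun _ _ _ => rfl) x

/-- **`lvlH` and pull-backs** -/
theorem lvlH_pull {t t' : ℕ → LT} (h : W.K t ≤ W.K t') (h1 : (one W).K t ≤ (one W).K t')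
    (x : (XF hM).H (funRep (M := W.M) R A (W.Yt t'))) :
    lvlH W hM R A t ((XF hM).map (pull R A (NormD.pr h) (NormD.pr_smul h)) x) =
      (XN W hM).map (pull R A (NormD.pr h1) (NormD.pr_smul h1)) (lvlH W hM R A t' x) := by
  refine lvlH_natural W hM _ _ (fun v y₁ y₂ => ?_) x
  change v (NormD.pr h ((thE W t).symm (y₁, y₂))) = v ((thE W t').symm (y₁, NormD.pr h1 y₂))
  rw [thE_symm_pr]

/-- **`lvlH` and push-forwards** -/
theorem lvlH_push [Fintype W.YQ] [Fintype (one W).YQ] [Fintype (W.Q → D)]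
    (x : (XF hM).H (funRep (M := W.M) R A W.YQ)) :
    lvlH W hM R A _ ((XF hM).map (push R A W.prQ W.isTorsor.equiv) x) =
      (XN W hM).map (push R A (one W).prQ (one W).isTorsor.equiv) (lvlH W hM R A _ x) := by
  refine lvlH_natural W hM _ _ (fun v y₁ y₂ => ?_) x
  obtain ⟨z, rfl⟩ := (one W).isTorsor.surj y₂
  have e1 : (thE W fun _ => .bor).symm (y₁, (one W).prQ z) =
      W.prQ ((thE W fun _ => .chi).symm (y₁, z)) :=
    (thE_symm_pr W W.norm.le (one W).norm.le y₁ z).symm
  rw [e1, W.isTorsor.push_apply]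
  let _ : Fintype ((one W).Q → D) := inferInstanceAs (Fintype (W.Q → D))
  rw [(one W).isTorsor.push_apply]
  refine Finset.sum_congr rfl fun δ _ => ?_
  rw [thE_symm_sm]
  rfl

/-! ### Hecke operators at primes dividing the modulus of the polynomial ring -/

/-- `lvlH` commutes with all Hecke operators at primes not dividing `M`. -/
theorem lvlH_corrT (t : ℕ → LT) {l : ℕ} (hl : l.Prime) (hlM : l.Coprime W.M)
    (x : (XF hM).H (funRep (M := W.M) R A (W.Yt t))) :
    lvlH W hM R A t ((Lvl.full.corrT W.M hl hlM (Lvl.ok_full l)).map _ x) =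
      ((Lvl.gamma0 W.N).corrT (one W).M hl (hlM.coprime_dvd_right (one_M_dvd W))
        (Lvl.ok_gamma0 (hlM.coprime_dvd_right (N_dvd W.N W.Q)))).map _
          (lvlH W hM R A t x) := by
  have hlN : l.Coprime W.N := hlM.coprime_dvd_right (N_dvd W.N W.Q)
  have hl1 : l.Coprime (one W).M := hlM.coprime_dvd_right (one_M_dvd W)
  have e1 : (XF hM).map (toVC W R A t) ((Lvl.full.corrT W.M hl hlM (Lvl.ok_full l)).map _ x) =
      (Lvl.full.corrT W.M hl hlM (Lvl.ok_full l)).map _ ((XF hM).map (toVC W R A t) x) :=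
    (Lvl.full.corrT W.M hl hlM (Lvl.ok_full l)).map_natural (toVC W R A t) x
  have e2 : ∀ y, (stabN W).shap (resRep (castGp (one_M_dvd W)) (V1 W R A t))
      ((Lvl.full.corrT W.M hl hlM (Lvl.ok_full l)).map _ y) =
      ((Lvl.gamma0 W.N).corrT W.M hl hlM (Lvl.ok_gamma0 hlN)).map _
        ((stabN W).shap (resRep (castGp (one_M_dvd W)) (V1 W R A t)) y) := fun y =>
    (stabN W).shap_map (stabN W) _ _ (Equiv.refl _) (fun _ => 1) (fun z => by
      rw [map_one, one_mul]
      rfl) (fun z => by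
        have h1 : ((Lvl.gamma0 W.N).corrT W.M hl hlM (Lvl.ok_gamma0 hlN)).α z =
          toGp W.M (bI l z) (isGd_bI hl hlM z) := rfl
        rw [h1, aN_apply, smul_ptN_iff, mem_upN_iff]
        induction z using OnePoint.rec with
        | infty => exact dvd_zero _
        | coe j => exact dvd_zero _) y
  have e3 : ∀ y, resH (castGp (one_M_dvd W)) (chM_ι (one_M_dvd W) (XN W hM) hM) (V1 W R A t)
      (((Lvl.gamma0 W.N).corrT W.M hl hlM (Lvl.ok_gamma0 hlN)).map _ y) =
      ((Lvl.gamma0 W.N).corrT (one W).M hl hl1 (Lvl.ok_gamma0 hlN)).map _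
        (resH (castGp (one_M_dvd W)) (chM_ι (one_M_dvd W) (XN W hM) hM) (V1 W R A t) y) :=
    fun y => resH_map (castGp (one_M_dvd W)) (chM_ι (one_M_dvd W) (XN W hM) hM) (V1 W R A t)
      (chM_ι (one_M_dvd W) (XN W hM) hM) _ _ (Equiv.refl _) (fun _ => 1) (fun z => by
        rw [map_one, one_mul]
        exact castGp_toGp _ (isGd_bI hl hlM z) (isGd_bI hl hl1 z)) y
  have e4 := congrArg ((stabN W).shap (resRep (castGp (one_M_dvd W)) (V1 W R A t))) e1
  exact (congrArg (resH (castGp (one_M_dvd W)) (chM_ι (one_M_dvd W) (XN W hM) hM)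
    (V1 W R A t)) (e4.trans (e2 _))).trans (e3 _)

end

end Fermat.Agent.TWDeg

end
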