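import Fermat.Agent.TW.Hecke

/-!
# Degeneracy maps between the levels `Γ₀(n)` and `Γ₀(nq)`: matrices
-/

set_option autoImplicit false

noncomputable section

namespace Fermat.Agent.TWDeg

open Fermat.Agent.TW
open Matrix.SpecialLinearGroup
open scoped MatrixGroups

/-- first Bezout coefficient -/
def bu (q n : ℕ) : ℤ := Nat.gcdA q n
/-- second Bezout coefficient -/
def bv (q n : ℕ) : ℤ := Nat.gcdB q n

theorem bez {q n : ℕ} (h : q.Coprime n) : (q : ℤ) * bu q n + n * bv q n = 1 := by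
  have h1 := Nat.gcd_eq_gcd_ab q n
  rw [Nat.Coprime.gcd_eq_one h] at h1
  exact_mod_cast h1.symm

/-- representatives of `Γ₀(nq) \ Γ₀(n)` -/
def rI (q n : ℕ) (x : OnePoint (ZMod q)) : M2Z :=
  x.elim 1 (fun j => !![1, (j.val : ℤ) - bv q n; n, n * j.val + q * bu q n])

/-- the Atkin-Lehner matrix -/
def wI (q n : ℕ) : M2Z := !![(q : ℤ), - bv q n; n * q, q * bu q n]

/-- the matrix `diag(q, 1)` -/
def dI (q : ℕ) : M2Z := !![(q : ℤ), 0; 0, 1]

theorem rI_infty (q n : ℕ) : rI q n OnePoint.infty = 1 := rfl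

theorem rI_coe (q n : ℕ) (j : ZMod q) : rI q n (j : OnePoint (ZMod q)) =
    !![1, (j.val : ℤ) - bv q n; n, n * j.val + q * bu q n] := rfl

variable {q n : ℕ}

theorem det_rI (h : q.Coprime n) (x : OnePoint (ZMod q)) : (rI q n x).det = 1 := by
  induction x using OnePoint.rec with
  | infty => rw [rI_infty, Matrix.det_one]
  | coe j =>
    rw [rI_coe, Matrix.det_fin_two_of]
    linear_combination bez h

theorem det_wI (h : q.Coprime n) : (wI q n).det = q := by
  rw [wI, Matrix.det_fin_two_of]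
  linear_combination (q : ℤ) * bez h

theorem det_dI (q : ℕ) : (dI q).det = q := by
  rw [dI, Matrix.det_fin_two_of]
  ring

theorem exists_gamma0 {N : ℕ} {A : M2Z} (hd : A.det = 1) (hc : (N : ℤ) ∣ A 1 0) :
    ∃ h : CongruenceSubgroup.Gamma0 N, (((Lvl.gamma0 N).j h : SL(2, ℤ)) : M2Z) = A := by
  refine ⟨⟨⟨A, hd⟩, ?_⟩, rfl⟩
  rw [CongruenceSubgroup.Gamma0_mem]
  exact (ZMod.intCast_zmod_eq_zero_iff_dvd _ _).mpr hc

theorem dvd_gamma0 {N : ℕ} (h : CongruenceSubgroup.Gamma0 N) :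
    (N : ℤ) ∣ (((Lvl.gamma0 N).j h : SL(2, ℤ)) : M2Z) 1 0 :=
  (ZMod.intCast_zmod_eq_zero_iff_dvd _ _).mp (CongruenceSubgroup.Gamma0_mem.mp h.2)

theorem det_gamma0 {N : ℕ} (h : CongruenceSubgroup.Gamma0 N) :
    (((Lvl.gamma0 N).j h : SL(2, ℤ)) : M2Z).det = 1 := Matrix.SpecialLinearGroup.det_coe _

/-- completeness of the representatives -/
theorem exists_rI (hq : q.Prime) (h : q.Coprime n) {A : M2Z} (hd : A.det = 1)
    (hc : (n : ℤ) ∣ A 1 0) : ∃ (y : OnePoint (ZMod q)) (g : CongruenceSubgroup.Gamma0 (n * q)),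
      A = (((Lvl.gamma0 (n * q)).j g : SL(2, ℤ)) : M2Z) * rI q n y := by
  have : Fact q.Prime := ⟨hq⟩
  by_cases hqc : (q : ℤ) ∣ A 1 0
  · obtain ⟨g, hg⟩ := exists_gamma0 (N := n * q) hd (by
      push_cast
      exact IsCoprime.mul_dvd (Nat.isCoprime_iff_coprime.mpr h).symm hc hqc)
    exact ⟨OnePoint.infty, g, by rw [hg, rI_infty, mul_one]⟩
  · have hc0 : ((A 1 0 : ℤ) : ZMod q) ≠ 0 := fun h0 =>
      hqc ((ZMod.intCast_zmod_eq_zero_iff_dvd _ _).mp h0)
    set j : ZMod q := ((A 1 1 : ℤ) : ZMod q) / ((A 1 0 : ℤ) : ZMod q) with hj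
    have hbz := bez h
    set B : M2Z := A * !![(n : ℤ) * j.val + q * bu q n, bv q n - j.val; -n, 1] with hB
    have hB10 : B 1 0 = A 1 0 * (q * bu q n) - n * (A 1 1 - A 1 0 * j.val) := by
      rw [hB, Matrix.mul_apply, Fin.sum_univ_two]
      simp
      ring
    have hdB : B.det = 1 := by
      rw [hB, Matrix.det_mul, hd, Matrix.det_fin_two_of, one_mul]
      linear_combination hbz
    have hqj : (q : ℤ) ∣ A 1 1 - A 1 0 * j.val := by
      rw [← ZMod.intCast_zmod_eq_zero_iff_dvd]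
      push_cast
      rw [ZMod.natCast_zmod_val, hj, mul_div_cancel₀ _ hc0, sub_self]
    have hdvd : ((n * q : ℕ) : ℤ) ∣ B 1 0 := by
      push_cast
      rw [hB10]
      obtain ⟨c, hc⟩ := hc
      obtain ⟨d, hd⟩ := hqj
      rw [hd, hc]
      exact ⟨c * bu q n - d, by ring⟩
    obtain ⟨g, hg⟩ := exists_gamma0 hdB hdvd
    refine ⟨(j : OnePoint (ZMod q)), g, ?_⟩
    have e : (!![(n : ℤ) * j.val + q * bu q n, bv q n - j.val; -n, 1] : M2Z) *
        !![1, (j.val : ℤ) - bv q n; n, n * j.val + q * bu q n] = 1 := by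
      rw [Matrix.mul_fin_two, Matrix.one_fin_two]
      have e00 : ((n : ℤ) * j.val + q * bu q n) * 1 + (bv q n - j.val) * n = 1 := by
        linear_combination hbz
      have e01 : ((n : ℤ) * j.val + q * bu q n) * (j.val - bv q n) +
          (bv q n - j.val) * (n * j.val + q * bu q n) = 0 := by ring
      have e10 : -(n : ℤ) * 1 + 1 * n = 0 := by ring
      have e11 : -(n : ℤ) * (j.val - bv q n) + 1 * (n * j.val + q * bu q n) = 1 := by
        linear_combination hbz
      rw [e00, e01, e10, e11]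
    rw [hg, hB, rI_coe, mul_assoc, e, mul_one]

/-- uniqueness of the representatives -/
theorem uniq_rI (hq : q.Prime) (h : q.Coprime n) {x y : OnePoint (ZMod q)} {B : M2Z}
    (hB : (q : ℤ) ∣ B 1 0) (hxy : rI q n x = B * rI q n y) : x = y := by
  have : Fact q.Prime := ⟨hq⟩
  have hbz := bez h
  have hqn : ¬ (q : ℤ) ∣ (n : ℤ) := by
    intro h1
    have h2 : q ∣ n := by exact_mod_cast h1
    exact hq.one_lt.ne' ((Nat.Coprime.eq_one_of_dvd h h2))
  obtain ⟨c, hc⟩ := hB
  have e10 := congrFun (congrFun hxy 1) 0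
  have e11 := congrFun (congrFun hxy 1) 1
  induction x using OnePoint.rec with
  | infty =>
    induction y using OnePoint.rec with
    | infty => rfl
    | coe y =>
      exfalso
      simp [-ZMod.natCast_val, rI_infty, rI_coe, Matrix.mul_apply, Fin.sum_univ_two] at e10 e11
      -- `0 = B10 + B11 n`, `1 = B10 (y - v) + B11 (n y + q u)`
      apply hq.one_lt.ne'
      have h1 : (q : ℤ) ∣ 1 := by
        refine ⟨B 1 1 * bu q n - c * bv q n, ?_⟩
        rw [hc] at e10 e11
        linear_combination e11 - (y.val : ℤ) * e10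
      exact_mod_cast Int.eq_one_of_dvd_one (by positivity) h1
  | coe x =>
    induction y using OnePoint.rec with
    | infty =>
      exfalso
      simp [-ZMod.natCast_val, rI_infty, rI_coe, Matrix.mul_apply, Fin.sum_univ_two] at e10 e11
      apply hqn
      rw [e10]
      exact ⟨c, hc⟩
    | coe y =>
      simp [-ZMod.natCast_val, rI_coe, Matrix.mul_apply, Fin.sum_univ_two] at e10 e11
      rw [hc] at e10 e11
      have h1 : (q : ℤ) ∣ (n : ℤ) * (x.val - y.val) := by
        refine ⟨(B 1 1 - 1) * bu q n - c * bv q n, ?_⟩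
        linear_combination e11 - (y.val : ℤ) * e10
      have h2 : (q : ℤ) ∣ (x.val : ℤ) - y.val :=
        (Nat.isCoprime_iff_coprime.mpr h).dvd_of_dvd_mul_left h1
      rw [← ZMod.intCast_zmod_eq_zero_iff_dvd] at h2
      push_cast at h2
      rw [ZMod.natCast_zmod_val, ZMod.natCast_zmod_val, sub_eq_zero] at h2
      rw [h2]

end Fermat.Agent.TWDeg

end
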