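import Fermat.Agent.TWDeg.Red

/-!
# The points principle
-/

set_option autoImplicit false
set_option linter.unusedSectionVars false

noncomputable section

namespace Fermat.Agent.TWDeg

open Fermat.Agent.TW HeckeHom
open scoped MatrixGroups

section Tor

variable {B H : Type} [CommRing B] [AddCommGroup H] [Module B H] (S : Submonoid B)

/-- the `S`-torsion -/
def torS (H : Type) [AddCommGroup H] [Module B H] : Submodule B H where
  carrier := {x | ∃ s ∈ S, s • x = 0}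
  zero_mem' := ⟨1, S.one_mem, smul_zero _⟩
  add_mem' := by
    rintro x y ⟨s, hs, hx⟩ ⟨t, ht, hy⟩
    refine ⟨s * t, S.mul_mem hs ht, ?_⟩
    rw [smul_add, mul_comm, mul_smul, hx, smul_zero, mul_comm, mul_smul, hy, smul_zero, add_zero]
  smul_mem' := by
    rintro a x ⟨s, hs, hx⟩
    exact ⟨s, hs, by rw [smul_comm, hx, smul_zero]⟩

theorem mem_torS {x : H} : x ∈ torS S H ↔ ∃ s ∈ S, s • x = 0 := Iff.rfl

theorem torS_of_smul {x : H} {s : B} (hs : s ∈ S) (h : s • x ∈ torS S H) : x ∈ torS S H := by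
  obtain ⟨t, ht, h'⟩ := h
  exact ⟨t * s, S.mul_mem ht hs, by rw [mul_smul, h']⟩

end Tor

section

variable {m M : ℕ} (hM : M ∣ m) {n : ℕ} [NeZero n] (hnm : ∀ q : ℕ, q.Prime → q ∣ n → q ∣ m)
  (O E Y : Type) [CommRing O] [IsDomain O] [Field E]
  [Algebra O E] [MulAction (GL (Fin 2) (ZMod M)) Y]

/-- the relations of the Hecke algebra of level `n` hold up to Eisenstein factors -/
def RelE : Prop := ∃ k : ℕ, ∀ (l : Pr m), ((l : ℕ) : ZMod M) = 1 → ∀ p : TPoly m ℤ,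
  polyHecke (n := n) hnm p = 0 → ∀ x : (XF hM).H (funRep (M := M) O E Y),
    (eis O l ^ k * TWD.Shap.pz m O p) • x = 0

end

section

variable {m M : ℕ} {hM : M ∣ m} {n : ℕ} [NeZero n] {hnm : ∀ q : ℕ, q.Prime → q ∣ n → q ∣ m}
  {O E Y : Type} [CommRing O] [IsDomain O] [Field E] [Finite Y]
  [Algebra O E] [MulAction (GL (Fin 2) (ZMod M)) Y] (hrel : RelE hM (n := n) hnm O E Y)
  (hOE : Function.Injective (algebraMap O E))

include hrel hOE in
theorem RelE.base : ∃ k : ℕ, ∀ (l : Pr m), ((l : ℕ) : ZMod M) = 1 → ∀ p : TPoly m ℤ,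
    polyHecke (n := n) hnm p = 0 → ∀ x : (XF hM).H (funRep (M := M) O O Y),
      (eis O l ^ k * TWD.Shap.pz m O p) • x = 0 := by
  obtain ⟨k, hk⟩ := hrel
  refine ⟨k + 1, fun l hl p hp x => ?_⟩
  have h1 := hk l hl p hp (ext O E Y hM x)
  rw [← map_smul] at h1
  have h2 := eis_of_ext hM hOE l hl _ h1
  rw [← h2, ← mul_smul]
  congr 1
  ring

theorem IsEig.char {v : (XF hM).H (funRep (M := M) O E Y)} {χ : TPoly m O →ₐ[O] E}
    (h : IsEig hM v χ) (hrel : RelE hM (n := n) hnm O E Y) {l : Pr m}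
    (hl1 : ((l : ℕ) : ZMod M) = 1) (hl : χ (eis O l) ≠ 0) :
    ∃ φ : CuspForm.heckeAlgebra n 2 (SS m) →+* E,
      ∀ p : TPoly m ℤ, φ (polyHecke hnm p) = χ (TWD.Shap.pz m O p) := by
  obtain ⟨k, hk⟩ := hrel
  exact exists_char hnm χ fun p hp => h.rel hl (hk l hl1 p hp v)

variable (S : Submonoid (TPoly m O)) (l : Pr m) (hl : ((l : ℕ) : ZMod M) = 1)
  (hlS : eis O l ∈ S)

include hOE hl hlS in
theorem torS_of_ext (x : (XF hM).H (funRep (M := M) O O Y)) (hx : ext O E Y hM x = 0) :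
    x ∈ torS S ((XF hM).H (funRep (M := M) O O Y)) :=
  ⟨_, hlS, eis_of_ext hM hOE l hl x hx⟩

theorem eis_pow_mem (hlS : eis O l ∈ S) (k : ℕ) : eis O l ^ k ∈ S := S.pow_mem hlS k

include hrel hOE hl hlS in
theorem pow_torS [CharZero O] (b : TPoly m O) (k : ℕ) (x : (XF hM).H (funRep (M := M) O O Y))
    (hx : b ^ k • x ∈ torS S ((XF hM).H (funRep (M := M) O O Y))) :
    b • x ∈ torS S ((XF hM).H (funRep (M := M) O O Y)) := by
  obtain ⟨k', hk'⟩ := hrel.base hOE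
  let T := torS S ((XF hM).H (funRep (M := M) O O Y))
  have h1 : ∀ p : TPoly m ℤ, polyHecke (n := n) hnm p = 0 →
      ∀ x : (XF hM).H (funRep (M := M) O O Y) ⧸ T, TWD.Shap.pz m O p • x = 0 := by
    intro p hp x
    obtain ⟨x, rfl⟩ := T.mkQ_surjective x
    rw [← map_smul, Submodule.mkQ_apply, Submodule.Quotient.mk_eq_zero]
    exact ⟨_, S.pow_mem hlS k', by rw [← mul_smul]; exact hk' l hl p hp x⟩
  have h2 : ∀ (c : O) (x : (XF hM).H (funRep (M := M) O O Y) ⧸ T), c ≠ 0 →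
      (MvPolynomial.C c : TPoly m O) • x = 0 → x = 0 := by
    intro c x hc h
    obtain ⟨x, rfl⟩ := T.mkQ_surjective x
    rw [← map_smul, Submodule.mkQ_apply, Submodule.Quotient.mk_eq_zero] at h
    rw [Submodule.mkQ_apply, Submodule.Quotient.mk_eq_zero]
    obtain ⟨s, hs, h⟩ := h
    have h3 : eAct (XF hM) (algebraMap O E c) (ext O E Y hM (s • x)) = 0 := by
      rw [← C_smul_eq, ← map_smul, smul_comm, h, map_zero]
    have h4 : ext O E Y hM (s • x) = 0 := by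
      by_contra hne
      exact eAct_ne (fun h5 => hc (hOE (h5.trans (map_zero _).symm))) hne h3
    exact torS_of_smul S hs (torS_of_ext hOE S l hl hlS _ h4)
  have h3 := smul_eq_zero_of_pow (n := n) hnm h1 h2 b k (T.mkQ x) (by
    rw [← map_smul, Submodule.mkQ_apply, Submodule.Quotient.mk_eq_zero]
    exact hx)
  rwa [← map_smul, Submodule.mkQ_apply, Submodule.Quotient.mk_eq_zero] at h3

variable [IsAlgClosed E]

include hrel hOE hl hlS in
/-- **Existence of eigenvectors** not killing `b`. -/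
theorem exists_isEig [CharZero O] (K : Submodule (TPoly m O) ((XF hM).H (funRep (M := M) O E Y)))
    (hKE : ∀ (e : E), ∀ x ∈ K, eAct (XF hM) e x ∈ K)
    (h : (XF hM).H (funRep (M := M) O O Y)) (hh : ext O E Y hM h ∈ K) (b : TPoly m O)
    (hb : b • h ∉ torS S ((XF hM).H (funRep (M := M) O O Y))) :
    ∃ v ∈ K, ∃ χ : TPoly m O →ₐ[O] E, IsEig hM v χ ∧ χ b ≠ 0 ∧ (∀ s ∈ S, χ s ≠ 0) ∧
      (∀ t, IsIntegral O (χ t)) ∧
      ∀ t : TPoly m O, t • h ∈ torS S ((XF hM).H (funRep (M := M) O O Y)) → χ t = 0 := by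
  have hint : ∀ (v : (XF hM).H (funRep (M := M) O E Y)) (χ : TPoly m O →ₐ[O] E),
      v ∈ K → v ≠ 0 → (∀ t : TPoly m O, t • v = eAct (XF hM) (χ t) v) → (∀ s ∈ S, χ s ≠ 0) →
      ∀ t, IsIntegral O (χ t) := by
    intro v χ _ hv0 hv hS t
    obtain ⟨φ, hφ⟩ := IsEig.char ⟨hv0, hv⟩ hrel hl (hS _ hlS)
    exact integral_chi hnm χ φ hφ t
  obtain ⟨v, hv, hv0, χ, h1, h2, h3, h4⟩ := exists_eig_H hM hOE S l hl hlS K hKE h hh b (by
    intro s hs o ho k hz
    apply hb
    apply pow_torS hrel hOE S l hl hlS b k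
    have h3 : eAct (XF hM) (algebraMap O E o) (ext O E Y hM (s • b ^ k • h)) = 0 := by
      rw [← C_smul_eq, ← map_smul]
      have e : (MvPolynomial.C o : TPoly m O) • s • b ^ k • h =
          (s * (MvPolynomial.C o * b ^ k)) • h := by
        rw [← mul_smul, ← mul_smul]
        congr 1
        ring
      rw [e, hz, map_zero]
    have h4 : ext O E Y hM (s • b ^ k • h) = 0 := by
      by_contra hne
      exact eAct_ne (fun h5 => ho (hOE (h5.trans (map_zero _).symm))) hne h3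
    exact torS_of_smul S hs (torS_of_ext hOE S l hl hlS _ h4)) hint
  exact ⟨v, hv, χ, ⟨hv0, h1⟩, h2, h3, hint v χ hv hv0 h1 h3, fun t ht => h4 t (by
    obtain ⟨s, hs, h⟩ := ht
    exact ⟨s, hs, by rw [mul_smul, h]⟩)⟩

include hrel hOE hl hlS in
/-- **The points principle.** -/
theorem kill_of_points [CharZero O] (b : TPoly m O)
    (hpt : ∀ (v : (XF hM).H (funRep (M := M) O E Y)) (χ : TPoly m O →ₐ[O] E), IsEig hM v χ →
      (∀ s ∈ S, χ s ≠ 0) → (∀ t, IsIntegral O (χ t)) →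
      (∀ t : TPoly m O, (∀ h, t • h ∈ torS S ((XF hM).H (funRep (M := M) O O Y))) → χ t = 0) →
        χ b = 0)
    (h : (XF hM).H (funRep (M := M) O O Y)) :
    b • h ∈ torS S ((XF hM).H (funRep (M := M) O O Y)) := by
  by_contra hne
  obtain ⟨v, -, χ, h1, h2, h3, h4, h5⟩ := exists_isEig hrel hOE S l hl hlS ⊤
    (fun _ _ _ => trivial) h trivial b hne
  exact h2 (hpt v χ h1 h3 h4 fun t ht => h5 t (ht h))

end

end Fermat.Agent.TWDeg

end
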