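import Fermat.Agent.TWDeg.Chi
import Fermat.Agent.HeckeGal.Points
import Fermat.Agent.Petersson.Reduced

/-!
# Semisimplicity of the Hecke operators
-/

set_option autoImplicit false
set_option linter.unusedSectionVars false

noncomputable section

open scoped TensorProduct

namespace Fermat.Agent.TWDeg

open Fermat.Agent.TW HeckeHom
open scoped MatrixGroups

section Abs

theorem isReduced_tensor_field (F A : Type) [Field F] [CharZero F] [CommRing A]
    [Module.Finite ℤ A] [IsAddTorsionFree A] [IsReduced A] : IsReduced (F ⊗[ℤ] A) := by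
  have hB : IsReduced (ℚ ⊗[ℤ] A) := HeckeGal.isReduced_rat_tensor A
  have hBu : Algebra.FormallyUnramified ℚ (ℚ ⊗[ℤ] A) :=
    HeckeGal.formallyUnramified_of_isReduced ℚ _
  have hCu : Algebra.FormallyUnramified F (F ⊗[ℚ] (ℚ ⊗[ℤ] A)) := inferInstance
  have hC := HeckeGal.isReduced_of_formallyUnramified F (F ⊗[ℚ] (ℚ ⊗[ℤ] A))
  let e := (Algebra.TensorProduct.cancelBaseChange ℤ ℚ F F A).symm
  exact isReduced_of_injective e e.injective

theorem isReduced_tensor_aux (O F A : Type) [CommRing O] [Field F] [CharZero F] [CommRing A]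
    [Module.Finite ℤ A] [IsAddTorsionFree A] [IsReduced A] (f : O →+* F)
    (hf : Function.Injective f) : IsReduced (O ⊗[ℤ] A) := by
  have hFA := isReduced_tensor_field F A
  have hfree : Module.Free ℤ A := inferInstance
  refine isReduced_of_injective (Algebra.TensorProduct.map f.toIntAlgHom (AlgHom.id ℤ A)) ?_
  exact Module.Flat.rTensor_preserves_injective_linearMap (M := A) f.toIntAlgHom.toLinearMap hf

theorem isReduced_tensor (O A : Type) [CommRing O] [IsDomain O] [CharZero O] [CommRing A]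
    [Module.Finite ℤ A] [IsAddTorsionFree A] [IsReduced A] : IsReduced (O ⊗[ℤ] A) := by
  have hF : CharZero (FractionRing O) :=
    charZero_of_injective_algebraMap (IsFractionRing.injective O (FractionRing O))
  exact isReduced_tensor_aux O (FractionRing O) A (algebraMap O (FractionRing O))
    (IsFractionRing.injective O (FractionRing O))

/-- In a reduced integral algebra elements are "von Neumann regular" up to a scalar. -/
theorem exists_vn {O R : Type} [CommRing O] [CommRing R] [Algebra O R] [Algebra.IsIntegral O R]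
    [IsReduced R] [Nontrivial O] (b : R) :
    ∃ c : O, c ≠ 0 ∧ ∃ a : R, algebraMap O R c * b = a * b ^ 2 := by
  obtain ⟨P, hPm, hP⟩ := Algebra.IsIntegral.isIntegral (R := O) b
  obtain ⟨Q, hQ, hQ0⟩ := Polynomial.exists_eq_pow_rootMultiplicity_mul_and_not_dvd P hPm.ne_zero 0
  rw [Polynomial.C_0, sub_zero] at hQ hQ0
  have h1 : b * Polynomial.aeval b Q = 0 := by
    have h2 : Polynomial.aeval b P = 0 := hP
    rw [hQ, map_mul, map_pow, Polynomial.aeval_X] at h2
    have h3 : IsNilpotent (b * Polynomial.aeval b Q) := by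
      refine ⟨Polynomial.rootMultiplicity 0 P + 1, ?_⟩
      rw [mul_pow, pow_succ b, pow_succ (Polynomial.aeval b Q)]
      have h4 : b ^ Polynomial.rootMultiplicity 0 P * b *
          (Polynomial.aeval b Q ^ Polynomial.rootMultiplicity 0 P * Polynomial.aeval b Q) =
          (b ^ Polynomial.rootMultiplicity 0 P * Polynomial.aeval b Q) * b *
            Polynomial.aeval b Q ^ Polynomial.rootMultiplicity 0 P := by ring
      rw [h4, h2, zero_mul, zero_mul]
    exact h3.eq_zero
  refine ⟨Q.coeff 0, fun h => hQ0 (Polynomial.X_dvd_iff.mpr h), -Polynomial.aeval b Q.divX, ?_⟩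
  have h5 : Polynomial.aeval b Q = Polynomial.aeval b Q.divX * b + algebraMap O R (Q.coeff 0) := by
    conv_lhs => rw [← Polynomial.divX_mul_X_add Q]
    rw [map_add, map_mul, Polynomial.aeval_X, Polynomial.aeval_C]
  rw [h5] at h1
  linear_combination h1

end Abs

section Hecke

variable {m n : ℕ} [NeZero n] (hnm : ∀ q : ℕ, q.Prime → q ∣ n → q ∣ m) {O : Type} [CommRing O]

/-- the ideal of relations -/
def relI (O : Type) [CommRing O] : Ideal (TPoly m O) :=
  Ideal.span (TWD.Shap.pz m O '' {p | polyHecke hnm p = 0})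

theorem pz_mem {p : TPoly m ℤ} (hp : polyHecke hnm p = 0) :
    TWD.Shap.pz m O p ∈ relI hnm O :=
  Ideal.subset_span ⟨p, hp, rfl⟩

/-- the surjection onto `O ⊗ 𝕋` -/
def toTensor (O : Type) [CommRing O] :
    TPoly m O →ₐ[O] (O ⊗[ℤ] CuspForm.heckeAlgebra n 2 (SS m)) :=
  MvPolynomial.aeval fun l => 1 ⊗ₜ[ℤ] polyHecke hnm (MvPolynomial.X l)

theorem toTensor_pz (p : TPoly m ℤ) :
    toTensor hnm O (TWD.Shap.pz m O p) = 1 ⊗ₜ[ℤ] polyHecke hnm p := by
  have h1 : ((toTensor (m := m) (n := n) hnm O).toRingHom.comp (TWD.Shap.pz m O)) =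
      (Algebra.TensorProduct.includeRight : CuspForm.heckeAlgebra n 2 (SS m) →ₐ[ℤ]
        (O ⊗[ℤ] CuspForm.heckeAlgebra n 2 (SS m))).toRingHom.comp
        (polyHecke (m := m) (n := n) hnm).toRingHom := by
    refine MvPolynomial.ringHom_ext (fun a => ?_) (fun l => ?_)
    · simp
    · change toTensor hnm O (TWD.Shap.pz m O (MvPolynomial.X l)) =
        1 ⊗ₜ[ℤ] polyHecke hnm (MvPolynomial.X l)
      rw [MvPolynomial.map_X, toTensor, MvPolynomial.aeval_X]
  exact RingHom.congr_fun h1 p

theorem toTensor_surjective : Function.Surjective (toTensor (n := n) hnm O) := by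
  intro x
  induction x using TensorProduct.induction_on with
  | zero => exact ⟨0, map_zero _⟩
  | tmul o T =>
    obtain ⟨p, rfl⟩ := polyHecke_surjective hnm T
    refine ⟨MvPolynomial.C o * TWD.Shap.pz m O p, ?_⟩
    rw [map_mul, toTensor_pz]
    have h1 : toTensor (n := n) hnm O (MvPolynomial.C o) = o ⊗ₜ[ℤ] 1 :=
      (toTensor (n := n) hnm O).commutes o
    rw [h1, Algebra.TensorProduct.tmul_mul_tmul, mul_one, one_mul]
  | add x y hx hy =>
    obtain ⟨a, rfl⟩ := hx
    obtain ⟨b, rfl⟩ := hy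
    exact ⟨a + b, map_add _ _ _⟩

theorem mem_relI_of_toTensor {t : TPoly m O} (ht : toTensor hnm O t = 0) : t ∈ relI hnm O := by
  let Q := TPoly m O ⧸ relI (n := n) hnm O
  have hs : Function.Surjective (polyHecke (m := m) (n := n) hnm : TPoly m ℤ →+*
    CuspForm.heckeAlgebra n 2 (SS m)) := polyHecke_surjective hnm
  let f : TPoly m ℤ →+* Q := (Ideal.Quotient.mk _).comp (TWD.Shap.pz m O)
  have hk : RingHom.ker (polyHecke (m := m) (n := n) hnm : TPoly m ℤ →+*
    CuspForm.heckeAlgebra n 2 (SS m)) ≤ RingHom.ker f := fun p hp =>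
      Ideal.Quotient.eq_zero_iff_mem.mpr (pz_mem hnm hp)
  let ψ : CuspForm.heckeAlgebra n 2 (SS m) →+* Q := RingHom.liftOfSurjective _ hs ⟨f, hk⟩
  have hψ : ∀ p, ψ (polyHecke hnm p) = f p := fun p =>
    RingHom.liftOfSurjective_comp_apply _ hs ⟨f, hk⟩ p
  let Ψ : (O ⊗[ℤ] CuspForm.heckeAlgebra n 2 (SS m)) →ₐ[O] Q :=
    Algebra.TensorProduct.lift (Algebra.ofId O Q) ψ.toIntAlgHom (fun _ _ => Commute.all _ _)
  have h1 : Ψ.comp (toTensor hnm O) = Ideal.Quotient.mkₐ O (relI hnm O) := by
    refine MvPolynomial.algHom_ext fun l => ?_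
    rw [AlgHom.comp_apply, toTensor, MvPolynomial.aeval_X]
    have h2 : Ψ (1 ⊗ₜ[ℤ] polyHecke hnm (MvPolynomial.X l)) =
        ψ (polyHecke hnm (MvPolynomial.X l)) := by
      have h3 := Algebra.TensorProduct.lift_tmul (Algebra.ofId O Q) ψ.toIntAlgHom
        (fun _ _ => Commute.all _ _) 1 (polyHecke hnm (MvPolynomial.X l))
      rw [map_one, one_mul] at h3
      exact h3
    rw [h2, hψ]
    change Ideal.Quotient.mk _ (TWD.Shap.pz m O (MvPolynomial.X l)) = _
    rw [MvPolynomial.map_X]
    rfl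
  have h2 := AlgHom.congr_fun h1 t
  rw [AlgHom.comp_apply, ht, map_zero] at h2
  exact Ideal.Quotient.eq_zero_iff_mem.mp h2.symm

/-- **Semisimplicity**: modulo the relations, `c b = a b²`. -/
theorem exists_red [IsDomain O] [CharZero O] (b : TPoly m O) :
    ∃ c : O, c ≠ 0 ∧ ∃ a : TPoly m O,
      MvPolynomial.C c * b - a * b ^ 2 ∈ relI (n := n) hnm O := by
  have hfin : Module.Finite ℤ (CuspForm.heckeAlgebra n 2 (SS m)) := S22.result n 2 (SS m)
  have hred : IsReduced (CuspForm.heckeAlgebra n 2 (SS m)) :=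
    Petersson.isReduced_heckeAlgebra (hS_of hnm)
  have hR := isReduced_tensor O (CuspForm.heckeAlgebra n 2 (SS m))
  have hfin2 : Module.Finite O (O ⊗[ℤ] CuspForm.heckeAlgebra n 2 (SS m)) := inferInstance
  have hint : Algebra.IsIntegral O (O ⊗[ℤ] CuspForm.heckeAlgebra n 2 (SS m)) := inferInstance
  obtain ⟨c, hc, a', ha⟩ := exists_vn (O := O) (toTensor (n := n) hnm O b)
  obtain ⟨a, rfl⟩ := toTensor_surjective hnm a'
  refine ⟨c, hc, a, mem_relI_of_toTensor hnm ?_⟩
  rw [map_sub, map_mul, map_mul, map_pow, ← ha, sub_eq_zero]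
  congr 1
  exact (toTensor (n := n) hnm O).commutes c

theorem relI_smul {H : Type} [AddCommGroup H] [Module (TPoly m O) H]
    (h : ∀ p : TPoly m ℤ, polyHecke hnm p = 0 → ∀ x : H, TWD.Shap.pz m O p • x = 0)
    {t : TPoly m O} (ht : t ∈ relI (n := n) hnm O) (x : H) : t • x = 0 := by
  induction ht using Submodule.span_induction with
  | mem t ht =>
    obtain ⟨p, hp, rfl⟩ := ht
    exact h p hp x
  | zero => exact zero_smul _ _
  | add s t _ _ hs ht => rw [add_smul, hs, ht, add_zero]
  | smul a t _ ht => rw [smul_eq_mul, mul_smul, ht, smul_zero]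

/-- **Semisimplicity** on modules satisfying the relations. -/
theorem smul_eq_zero_of_pow [IsDomain O] [CharZero O] {H : Type} [AddCommGroup H]
    [Module (TPoly m O) H]
    (h : ∀ p : TPoly m ℤ, polyHecke (n := n) hnm p = 0 → ∀ x : H, TWD.Shap.pz m O p • x = 0)
    (htf : ∀ (c : O) (x : H), c ≠ 0 → (MvPolynomial.C c : TPoly m O) • x = 0 → x = 0)
    (b : TPoly m O) (k : ℕ) (x : H) (hx : b ^ k • x = 0) : b • x = 0 := by
  obtain ⟨c, hc, a, ha⟩ := exists_red (n := n) hnm b
  have hrel : ∀ y : H, (MvPolynomial.C c : TPoly m O) • b • y = a • b ^ 2 • y := by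
    intro y
    have h1 := relI_smul hnm h ha y
    rw [sub_smul, mul_smul, mul_smul, sub_eq_zero] at h1
    exact h1
  induction k with
  | zero => rw [pow_zero, one_smul] at hx; rw [hx, smul_zero]
  | succ k ih =>
    rcases k with _ | k
    · simpa using hx
    · apply ih
      apply htf c _ hc
      have h2 : b ^ (k + 1) • x = b • b ^ k • x := by rw [pow_succ', mul_smul]
      have h3 : b ^ 2 • b ^ k • x = 0 := by
        rw [← mul_smul, ← hx]
        congr 1
        ring
      rw [h2, hrel, h3, smul_zero]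

end Hecke

end Fermat.Agent.TWDeg

end
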