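import Fermat.Agent.TW.Free

/-!
# Relative Shapiro lemma

`H¹(Γ, Fun(Y, V)) = H¹(Γ₂, V)` where `Γ₂` is the stabiliser of a point of `Y`, with Hecke
operators.
-/

set_option autoImplicit false

noncomputable section

namespace Fermat.Agent.TWDeg

open Fermat.Agent.TW
open scoped MatrixGroups

section Coind

variable {R : Type} [CommRing R] {𝒢 : Type} [Group 𝒢] {V : Type} [AddCommGroup V] [Module R V]
  {Y : Type} (a : 𝒢 →* Equiv.Perm Y) (ρ : Representation R 𝒢 V)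

/-- functions on `Y` with values in `V` -/
def coind : Representation R 𝒢 (Y → V) where
  toFun g :=
    { toFun := fun F y => ρ g (F (a g⁻¹ y))
      map_add' := fun F F' => funext fun y => map_add (ρ g) _ _
      map_smul' := fun c F => funext fun y => map_smul (ρ g) _ _ }
  map_one' := by
    ext F y
    change ρ 1 (F (a 1⁻¹ y)) = F y
    rw [inv_one, map_one, map_one]
    rfl
  map_mul' g h := by
    ext F y
    change ρ (g * h) (F (a (g * h)⁻¹ y)) = ρ g (ρ h (F (a h⁻¹ (a g⁻¹ y))))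
    rw [mul_inv_rev, map_mul, map_mul]
    rfl

theorem coind_apply (g : 𝒢) (F : Y → V) (y : Y) : coind a ρ g F y = ρ g (F (a g⁻¹ y)) := rfl

/-- functoriality in the coefficients -/
def coindMap {W : Type} [AddCommGroup W] [Module R W] {σ : Representation R 𝒢 W} (φ : CHom ρ σ) :
    CHom (coind a ρ) (coind a σ) where
  toFun F := fun y => φ.toLinearMap (F y)
  map_add' _ _ := funext fun _ => map_add φ.toLinearMap _ _
  map_smul' _ _ := funext fun _ => map_smul φ.toLinearMap _ _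
  comm' g _ := funext fun _ => φ.comm g _

@[simp] theorem coindMap_apply {W : Type} [AddCommGroup W] [Module R W]
    {σ : Representation R 𝒢 W} (φ : CHom ρ σ) (F : Y → V) (y : Y) :
    (coindMap a ρ φ).toLinearMap F y = φ.toLinearMap (F y) := rfl

end Coind

theorem act_inv {𝒢 : Type} [Group 𝒢] {Y : Type} (a : 𝒢 →* Equiv.Perm Y) (g : 𝒢) (y : Y) :
    a g (a g⁻¹ y) = y := by
  rw [← Equiv.Perm.mul_apply, ← map_mul, mul_inv_cancel, map_one]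
  rfl

section Shap

variable {R : Type} [CommRing R] {𝒢 : Type} [Group 𝒢] {V : Type} [AddCommGroup V] [Module R V]
  {Y : Type} {a : 𝒢 →* Equiv.Perm Y} {ρ : Representation R 𝒢 V}
  {Γ Γ₂ : Type} [Group Γ] [Group Γ₂] {ι : Γ →* 𝒢} {ι₂ : Γ₂ →* 𝒢}

/-- `Γ₂` is the stabiliser in `Γ` of the point `y₀` of the transitive set `Y`. -/
structure Stab (a : 𝒢 →* Equiv.Perm Y) (ι : Γ →* 𝒢) (ι₂ : Γ₂ →* 𝒢) (y₀ : Y) where
  /-- the inclusion -/
  κ : Γ₂ →* Γ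
  inj : Function.Injective κ
  comp : ∀ γ, ι₂ γ = ι (κ γ)
  fix : ∀ γ, a (ι₂ γ) y₀ = y₀
  trans : ∀ y : Y, ∃ g : Γ, a (ι g) y₀ = y
  range : ∀ g : Γ, a (ι g) y₀ = y₀ → ∃ γ, κ γ = g

variable {y₀ : Y} (S : Stab a ι ι₂ y₀)

namespace Stab

include S in
theorem fix_inv (γ : Γ₂) : a (ι₂ γ)⁻¹ y₀ = y₀ := by
  rw [map_inv, Equiv.Perm.inv_eq_iff_eq, S.fix]

theorem Z1_mul (c : Z1 ι (coind a ρ)) (g h : Γ) (y : Y) :
    c.1 (g * h) y = c.1 g y + ρ (ι g) (c.1 h (a (ι g)⁻¹ y)) :=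
  congrFun (Z1.mul c g h) y

variable (ρ) in
/-- the Shapiro map on crossed homomorphisms -/
def shapZ : Z1 ι (coind a ρ) →ₗ[R] Z1 ι₂ ρ where
  toFun c := ⟨fun γ => c.1 (S.κ γ) y₀, fun γ γ' => by
    change c.1 (S.κ (γ * γ')) y₀ = c.1 (S.κ γ) y₀ + ρ (ι₂ γ) (c.1 (S.κ γ') y₀)
    rw [map_mul, Z1_mul, ← S.comp, S.fix_inv]⟩
  map_add' _ _ := rfl
  map_smul' _ _ := rfl

theorem shapZ_apply (c : Z1 ι (coind a ρ)) (γ : Γ₂) :
    (S.shapZ ρ c).1 γ = c.1 (S.κ γ) y₀ := rfl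

theorem shapZ_cob (F : Y → V) :
    S.shapZ ρ (cobLin ι (coind a ρ) F) = cobLin ι₂ ρ (F y₀) := by
  ext γ
  rw [shapZ_apply, cobLin_apply, cobLin_apply, Pi.sub_apply, coind_apply, ← S.comp, S.fix_inv]

variable (ρ) in
/-- the Shapiro map -/
def shap : H1 ι (coind a ρ) →ₗ[R] H1 ι₂ ρ :=
  Submodule.mapQ _ _ (S.shapZ ρ) (by
    rintro _ ⟨F, rfl⟩
    exact ⟨F y₀, (S.shapZ_cob F).symm⟩)

@[simp] theorem shap_mk (c : Z1 ι (coind a ρ)) :
    S.shap ρ (H1.mk _ _ c) = H1.mk _ _ (S.shapZ ρ c) := rfl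

theorem shap_injective : Function.Injective (S.shap ρ) := by
  rw [← LinearMap.ker_eq_bot, LinearMap.ker_eq_bot']
  intro x hx
  obtain ⟨c, rfl⟩ := H1.mk_surjective x
  rw [shap_mk, H1.mk_eq_zero] at hx
  obtain ⟨v, hv⟩ := hx
  rw [H1.mk_eq_zero]
  choose s hs using S.trans
  refine ⟨fun y => - c.1 (s y) y + ρ (ι (s y)) v, ?_⟩
  ext g y
  rw [cobLin_apply, Pi.sub_apply, coind_apply]
  obtain ⟨γ, hγ⟩ := S.range ((s y)⁻¹ * (g * s (a (ι g)⁻¹ y))) (by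
    rw [map_mul, map_mul, map_inv, map_mul, map_mul, map_inv, Equiv.Perm.mul_apply,
      Equiv.Perm.mul_apply, hs, act_inv, Equiv.Perm.inv_eq_iff_eq, hs])
  have h1 : c.1 (S.κ γ) y₀ = ρ (ι₂ γ) v - v := by
    have := congrArg (fun z : Z1 ι₂ ρ => z.1 γ) hv
    exact this.symm
  have h2 : g * s (a (ι g)⁻¹ y) = s y * S.κ γ := by rw [hγ]; group
  have h3 := Z1_mul c g (s (a (ι g)⁻¹ y)) y
  have h4 : a (ι (s y))⁻¹ y = y₀ := by rw [map_inv, Equiv.Perm.inv_eq_iff_eq, hs]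
  rw [h2, Z1_mul, h4, h1, map_sub, ← rho_mul', S.comp, ← map_mul, ← h2, map_mul, rho_mul'] at h3
  rw [map_add, map_neg]
  have h5 : c.1 g y = c.1 (s y) y + (ρ (ι g) (ρ (ι (s (a (ι g)⁻¹ y))) v) - ρ (ι (s y)) v) -
      ρ (ι g) (c.1 (s (a (ι g)⁻¹ y)) (a (ι g)⁻¹ y)) := by
    rw [h3]; abel
  rw [h5]
  abel

theorem shap_surjective : Function.Surjective (S.shap ρ) := by
  intro x
  obtain ⟨φ, rfl⟩ := H1.mk_surjective x
  choose s hs using S.trans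
  have hex : ∀ (g : Γ) (y : Y), ∃ γ, S.κ γ = (s y)⁻¹ * (g * s (a (ι g)⁻¹ y)) :=
    fun g y => S.range _ (by
      rw [map_mul, map_mul, map_inv, map_mul, map_mul, map_inv, Equiv.Perm.mul_apply,
        Equiv.Perm.mul_apply, hs, act_inv, Equiv.Perm.inv_eq_iff_eq, hs])
  choose γ hγ using hex
  have hmul : ∀ g h y, γ (g * h) y = γ g y * γ h (a (ι g)⁻¹ y) := by
    intro g h y
    apply S.inj
    rw [map_mul, hγ, hγ, hγ]
    have : a (ι (g * h))⁻¹ y = a (ι h)⁻¹ (a (ι g)⁻¹ y) := by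
      rw [map_mul, mul_inv_rev, map_mul]
      rfl
    rw [this]
    group
  let c : Z1 ι (coind a ρ) :=
    ⟨fun g y => ρ (ι (s y)) (φ.1 (γ g y)), fun g h => by
      ext y
      change ρ (ι (s y)) (φ.1 (γ (g * h) y)) = ρ (ι (s y)) (φ.1 (γ g y)) +
        ρ (ι g) (ρ (ι (s (a (ι g)⁻¹ y))) (φ.1 (γ h (a (ι g)⁻¹ y))))
      rw [hmul, Z1.mul, map_add, ← rho_mul', ← rho_mul', S.comp, hγ, ← map_mul, ← map_mul]
      congr 4
      group⟩
  refine ⟨H1.mk _ _ c, ?_⟩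
  rw [shap_mk]
  obtain ⟨t, ht⟩ := S.range (s y₀) (hs y₀)
  refine H1.mk_eq (φ.1 t) fun γ' => ?_
  rw [shapZ_apply]
  change ρ (ι (s y₀)) (φ.1 (γ (S.κ γ') y₀)) = _
  have h1 : γ (S.κ γ') y₀ = t⁻¹ * (γ' * t) := by
    apply S.inj
    rw [hγ, map_mul, map_mul, ← S.comp, S.fix_inv, map_inv, ht]
  rw [h1, Z1.mul, Z1.mul, Z1.inv, map_add, map_neg, ← ht, ← S.comp, ← rho_mul', ← rho_mul',
    ← map_mul, mul_inv_cancel, map_one, map_one, Module.End.one_apply, Module.End.one_apply]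
  abel

/-- Shapiro's isomorphism -/
def shapEquiv : H1 ι (coind a ρ) ≃ₗ[R] H1 ι₂ ρ :=
  LinearEquiv.ofBijective (S.shap ρ) ⟨S.shap_injective, S.shap_surjective⟩

/-- naturality in the coefficients -/
theorem shap_natural {W : Type} [AddCommGroup W] [Module R W] {σ : Representation R 𝒢 W}
    (φ : CHom ρ σ) (x : H1 ι (coind a ρ)) :
    S.shap σ (H1.map ι (coindMap a ρ φ) x) = H1.map ι₂ φ (S.shap ρ x) := by
  obtain ⟨c, rfl⟩ := H1.mk_surjective x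
  rfl

end Stab

variable {Γ' Γ₂' : Type} [Group Γ'] [Group Γ₂'] {ι' : Γ' →* 𝒢} {ι₂' : Γ₂' →* 𝒢}
  (S' : Stab a ι' ι₂' y₀)

/-- **Shapiro's isomorphism and Hecke operators.** -/
theorem Stab.shap_map (D : Corr ι ι') (D₂ : Corr ι₂ ι₂') (e : D₂.X ≃ D.X) (h : D₂.X → Γ)
    (he : ∀ x, D₂.α x = ι (h x) * D.α (e x)) (hfix : ∀ x, a (D₂.α x) y₀ = y₀)
    (x : H1 ι (coind a ρ)) :
    S'.shap ρ (D.map (coind a ρ) x) = D₂.map ρ (S.shap ρ x) := by
  obtain ⟨c, rfl⟩ := H1.mk_surjective x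
  rw [Corr.map_mk, shap_mk, shap_mk, Corr.map_mk]
  symm
  refine H1.mk_eq (-(∑ z, coind a ρ (D₂.α z)⁻¹ (c.1 (h z))) y₀) fun γ => ?_
  have key := D.compare c D₂.α (S'.κ γ) (D₂.perm γ) (D₂.perm γ).bijective
    (fun z => S.κ (D₂.coc γ z)) (fun z => by
      rw [← S'.comp, ← S.comp, D₂.spec]
      rfl) e h he
  have key2 := congrFun key y₀
  rw [Finset.sum_apply] at key2
  rw [Corr.zmap_apply, S'.shapZ_apply, Corr.zmap_apply]
  have h1 : ∀ z, coind a ρ (D₂.α z)⁻¹ (c.1 (S.κ (D₂.coc γ z))) y₀ =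
      ρ (D₂.α z)⁻¹ ((S.shapZ ρ c).1 (D₂.coc γ z)) := by
    intro z
    rw [coind_apply, inv_inv, hfix]
    rfl
  rw [Finset.sum_congr rfl fun z _ => h1 z] at key2
  rw [key2, Pi.add_apply, Equiv.sum_comp e (fun z => coind a ρ (D.α z)⁻¹
    (c.1 (D.coc (S'.κ γ) z))), Pi.sub_apply, coind_apply, ← S'.comp, S'.fix_inv, map_neg]
  abel

end Shap

end Fermat.Agent.TWDeg

end
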