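import Fermat.Agent.TWDeg.Shap

/-!
# Relative Shapiro lemma and change of modulus for Hecke modules
-/

set_option autoImplicit false

noncomputable section

namespace Fermat.Agent.TWDeg

open Fermat.Agent.TW
open Matrix.SpecialLinearGroup
open scoped MatrixGroups

/-! ### Equivalences of Hecke modules -/

section PolyEquiv

variable {m M M' : ℕ} {Γ Γ' : Type} [Group Γ] [Group Γ'] {R : Type} [CommRing R]
  {V V' : Type} [AddCommGroup V] [Module R V] [AddCommGroup V'] [Module R V']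
  {X : Stg m M Γ} {X' : Stg m M' Γ'} {ρ : Representation R (Gp M) V}
  {ρ' : Representation R (Gp M') V'}

/-- Equivalences commuting with the Hecke operators are linear over the polynomial ring. -/
def polyEquiv (e : X.H ρ ≃ₗ[R] X'.H ρ') (h : ∀ l x, e (X.T ρ l x) = X'.T ρ' l (e x)) :
    X.H ρ ≃ₗ[TPoly m R] X'.H ρ' where
  toFun := e
  invFun := e.symm
  map_add' := map_add e
  map_smul' p x := (Stg.polyLin e.toLinearMap h).map_smul p x
  left_inv := e.left_inv
  right_inv := e.right_inv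

theorem polyEquiv_apply (e : X.H ρ ≃ₗ[R] X'.H ρ') (h : ∀ l x, e (X.T ρ l x) = X'.T ρ' l (e x))
    (x : X.H ρ) : polyEquiv e h x = e x := rfl

end PolyEquiv

/-! ### Shapiro for `Stg` -/

section

variable {m M : ℕ} {Γ Γ₂ : Type} [Group Γ] [Group Γ₂] {R : Type} [CommRing R]
  {V : Type} [AddCommGroup V] [Module R V] (X : Stg m M Γ) (X₂ : Stg m M Γ₂)
  {Y : Type} {a : Gp M →* Equiv.Perm Y} {y₀ : Y}
  (S : Stab a (X.L.ι M) (X₂.L.ι M) y₀) (ρ : Representation R (Gp M) V)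

/-- the representatives of the `T_l` fix the base point -/
def FixT (m : ℕ) (hM : M ∣ m) (a : Gp M →* Equiv.Perm Y) (y₀ : Y) : Prop :=
  ∀ (l : Pr m) (x : OnePoint (ZMod (l : ℕ))),
    a (toGp M (bI l x) (isGd_bI l.2.1 (l.coprime hM) x)) y₀ = y₀

theorem shap_T (hfix : FixT m X.dvd a y₀) (l : Pr m) (x : X.H (coind a ρ)) :
    S.shap ρ (X.T (coind a ρ) l x) = X₂.T ρ l (S.shap ρ x) :=
  S.shap_map S (X.corrT l) (X₂.corrT l) (Equiv.refl _) (fun _ => 1) (fun y => by
    rw [map_one, one_mul]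
    rfl) (fun y => hfix l y) x

/-- Shapiro's isomorphism -/
def shapH (hfix : FixT m X.dvd a y₀) : X.H (coind a ρ) ≃ₗ[TPoly m R] X₂.H ρ :=
  polyEquiv (X := X) (X' := X₂) (ρ := coind a ρ) (ρ' := ρ) S.shapEquiv
    (fun l x => shap_T X X₂ S ρ hfix l x)

theorem shapH_apply (hfix : FixT m X.dvd a y₀) (x : X.H (coind a ρ)) :
    shapH X X₂ S ρ hfix x = S.shap ρ x := rfl

theorem shapH_natural (hfix : FixT m X.dvd a y₀) {W : Type} [AddCommGroup W] [Module R W]
    {σ : Representation R (Gp M) W} (φ : CHom ρ σ) (x : X.H (coind a ρ)) :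
    shapH X X₂ S σ hfix (X.map (coindMap a ρ φ) x) = X₂.map φ (shapH X X₂ S ρ hfix x) :=
  S.shap_natural φ x

end

/-! ### change of the ambient group -/

section Res

variable {R : Type} [CommRing R] {𝒢 𝒢' : Type} [Group 𝒢] [Group 𝒢'] {V : Type} [AddCommGroup V]
  [Module R V] {Γ Γ' : Type} [Group Γ] [Group Γ'] (c : 𝒢' →* 𝒢) {ι : Γ →* 𝒢} {ι' : Γ →* 𝒢'}
  (hι : ∀ g, c (ι' g) = ι g) (ρ : Representation R 𝒢 V)

/-- restriction of a representation -/
def resRep : Representation R 𝒢' V := MonoidHom.comp ρ c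

theorem resRep_apply (g : 𝒢') (v : V) : resRep c ρ g v = ρ (c g) v := rfl

include hι in
theorem mem_Z1_iff (f : Γ → V) : f ∈ Z1 ι' (resRep c ρ) ↔ f ∈ Z1 ι ρ := by
  change (∀ g h, f (g * h) = f g + resRep c ρ (ι' g) (f h)) ↔
    ∀ g h, f (g * h) = f g + ρ (ι g) (f h)
  simp only [resRep_apply, hι]

/-- restriction on crossed homomorphisms -/
def resZ : Z1 ι' (resRep c ρ) ≃ₗ[R] Z1 ι ρ where
  toFun f := ⟨f.1, (mem_Z1_iff c hι ρ f.1).mp f.2⟩
  invFun f := ⟨f.1, (mem_Z1_iff c hι ρ f.1).mpr f.2⟩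
  map_add' _ _ := rfl
  map_smul' _ _ := rfl
  left_inv _ := rfl
  right_inv _ := rfl

theorem resZ_apply (f : Z1 ι' (resRep c ρ)) (g : Γ) : (resZ c hι ρ f).1 g = f.1 g := rfl

theorem resZ_cob (v : V) : resZ c hι ρ (cobLin ι' (resRep c ρ) v) = cobLin ι ρ v := by
  ext g
  rw [resZ_apply, cobLin_apply, cobLin_apply, resRep_apply, hι]

/-- restriction on cohomology -/
def resH : H1 ι' (resRep c ρ) ≃ₗ[R] H1 ι ρ :=
  Submodule.Quotient.equiv _ _ (resZ c hι ρ) (by
    ext f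
    constructor
    · rintro ⟨_, ⟨v, rfl⟩, rfl⟩
      exact ⟨v, (resZ_cob c hι ρ v).symm⟩
    · rintro ⟨v, rfl⟩
      exact ⟨_, ⟨v, rfl⟩, resZ_cob c hι ρ v⟩)

@[simp] theorem resH_mk (f : Z1 ι' (resRep c ρ)) :
    resH c hι ρ (H1.mk _ _ f) = H1.mk _ _ (resZ c hι ρ f) := rfl

/-- morphisms of restricted representations -/
def resMap {W : Type} [AddCommGroup W] [Module R W] {σ : Representation R 𝒢 W} (φ : CHom ρ σ) :
    CHom (resRep c ρ) (resRep c σ) :=
  { φ.toLinearMap with comm' := fun g v => φ.comm (c g) v }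

theorem resH_natural {W : Type} [AddCommGroup W] [Module R W] {σ : Representation R 𝒢 W}
    (φ : CHom ρ σ) (x : H1 ι' (resRep c ρ)) :
    resH c hι σ (H1.map ι' (resMap c ρ φ) x) = H1.map ι φ (resH c hι ρ x) := by
  obtain ⟨f, rfl⟩ := H1.mk_surjective x
  rfl

variable {κ : Γ' →* 𝒢} {κ' : Γ' →* 𝒢'} (hκ : ∀ g, c (κ' g) = κ g)

theorem resH_map (D : Corr ι κ) (D' : Corr ι' κ') (e : D'.X ≃ D.X) (h : D'.X → Γ)
    (he : ∀ x, c (D'.α x) = ι (h x) * D.α (e x)) (x : H1 ι' (resRep c ρ)) :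
    resH c hκ ρ (D'.map (resRep c ρ) x) = D.map ρ (resH c hι ρ x) := by
  obtain ⟨f, rfl⟩ := H1.mk_surjective x
  rw [Corr.map_mk, resH_mk, resH_mk, Corr.map_mk]
  refine H1.mk_eq (-∑ z, ρ (c (D'.α z))⁻¹ (f.1 (h z))) fun g => ?_
  have key := D.compare (resZ c hι ρ f) (fun z => c (D'.α z)) g (D'.perm g) (D'.perm g).bijective
    (fun z => D'.coc g z) (fun z => by
      rw [← hκ, ← map_mul, D'.spec, map_mul, hι]
      rfl) e h he
  rw [resZ_apply, Corr.zmap_apply, Corr.zmap_apply, map_neg]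
  have h1 : ∀ z, (resRep c ρ) (D'.α z)⁻¹ (f.1 (D'.coc g z)) =
      ρ (c (D'.α z))⁻¹ ((resZ c hι ρ f).1 (D'.coc g z)) := by
    intro z
    rw [resRep_apply, map_inv]
    rfl
  rw [Finset.sum_congr rfl fun z _ => h1 z, key, Equiv.sum_comp e (fun z => ρ (D.α z)⁻¹
    ((resZ c hι ρ f).1 (D.coc g z)))]
  simp only [resZ_apply]
  abel

end Res

/-! ### change of modulus -/

section Modulus

variable {M M' : ℕ}

/-- reduction of the modulus -/
def castGp (h : M ∣ M') : Gp M' →* Gp M :=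
  (MonoidHom.id _).prodMap (Matrix.GeneralLinearGroup.map (ZMod.castHom h (ZMod M)))

theorem castGp_toGp (h : M ∣ M') {A : M2Z} (hA : IsGd M' A) (hA' : IsGd M A) :
    castGp h (toGp M' A hA) = toGp M A hA' := by
  refine Prod.ext rfl (Units.ext ?_)
  change (A.map (Int.castRingHom (ZMod M'))).map (ZMod.castHom h (ZMod M)) =
    A.map (Int.castRingHom (ZMod M))
  ext i j
  simp

theorem castGp_iM (h : M ∣ M') (g : SL(2, ℤ)) : castGp h (iM M' g) = iM M g := by
  rw [← toGp_SL, ← toGp_SL, castGp_toGp h _ (isGd_SL M g)]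

variable {m : ℕ} {Γ : Type} [Group Γ] {R : Type} [CommRing R] {V : Type} [AddCommGroup V]
  [Module R V] (h : M ∣ M') (X : Stg m M Γ) (hM' : M' ∣ m) (ρ : Representation R (Gp M) V)

/-- the same level with another modulus -/
def chM : Stg m M' Γ := ⟨X.L, hM', X.ok⟩

theorem chM_ι (g : Γ) : castGp h (((chM X hM').L).ι M' g) = X.L.ι M g := castGp_iM h _

/-- change of modulus -/
def modH : (chM X hM').H (resRep (castGp h) ρ) ≃ₗ[TPoly m R] X.H ρ :=
  polyEquiv (X := chM X hM') (X' := X) (ρ := resRep (castGp h) ρ) (ρ' := ρ)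
    (resH (castGp h) (chM_ι h X hM') ρ)
    (fun l x => resH_map (castGp h) (chM_ι h X hM') ρ (chM_ι h X hM') (X.corrT l)
      ((chM X hM').corrT l) (Equiv.refl _) (fun _ => 1) (fun y => by
        rw [map_one, one_mul]
        exact castGp_toGp h (isGd_bI l.2.1 (l.coprime hM') y)
          (isGd_bI l.2.1 (l.coprime X.dvd) y)) x)

theorem modH_apply (x : (chM X hM').H (resRep (castGp h) ρ)) :
    modH h X hM' ρ x = resH (castGp h) (chM_ι h X hM') ρ x := rfl

theorem modH_natural {W : Type} [AddCommGroup W] [Module R W] {σ : Representation R (Gp M) W}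
    (φ : CHom ρ σ) (x : (chM X hM').H (resRep (castGp h) ρ)) :
    modH h X hM' σ ((chM X hM').map (resMap (castGp h) ρ φ) x) =
      X.map φ (modH h X hM' ρ x) :=
  resH_natural (castGp h) (chM_ι h X hM') ρ φ x

end Modulus

/-! ### isomorphic coefficients -/

section Iso

variable {m M : ℕ} {Γ : Type} [Group Γ] {R : Type} [CommRing R] {V W : Type} [AddCommGroup V]
  [Module R V] [AddCommGroup W] [Module R W] (X : Stg m M Γ) {ρ : Representation R (Gp M) V}
  {σ : Representation R (Gp M) W}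

/-- isomorphic coefficients give isomorphic modules -/
def isoH (φ : CHom ρ σ) (ψ : CHom σ ρ) (h1 : ∀ v, ψ.toLinearMap (φ.toLinearMap v) = v)
    (h2 : ∀ w, φ.toLinearMap (ψ.toLinearMap w) = w) : X.H ρ ≃ₗ[TPoly m R] X.H σ :=
  LinearEquiv.ofLinearMap (X.map φ) (X.map ψ)
    (LinearMap.ext fun x => by
      obtain ⟨f, rfl⟩ := X.mk_surj x
      rw [LinearMap.comp_apply, X.map_mk, X.map_mk]
      change H1.mk (X.L.ι M) σ _ = H1.mk (X.L.ι M) σ _
      congr 1
      ext g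
      exact h2 _)
    (LinearMap.ext fun x => by
      obtain ⟨f, rfl⟩ := X.mk_surj x
      rw [LinearMap.comp_apply, X.map_mk, X.map_mk]
      change H1.mk (X.L.ι M) ρ _ = H1.mk (X.L.ι M) ρ _
      congr 1
      ext g
      exact h1 _)

@[simp] theorem isoH_apply (φ : CHom ρ σ) (ψ : CHom σ ρ)
    (h1 : ∀ v, ψ.toLinearMap (φ.toLinearMap v) = v)
    (h2 : ∀ w, φ.toLinearMap (ψ.toLinearMap w) = w) (x : X.H ρ) :
    isoH X φ ψ h1 h2 x = X.map φ x := rfl

end Iso

end Fermat.Agent.TWDeg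

end
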