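import Fermat.Agent.TWDeg.Chi
import Fermat.Agent.TWDeg.DegTW

/-!
# Twisting eigenvectors of Taylor-Wiles modules to torus level
-/

set_option autoImplicit false
set_option linter.unusedSectionVars false

noncomputable section

namespace Fermat.Agent.TWDeg

open Fermat.Agent.TW HeckeHom
open Matrix.SpecialLinearGroup CongruenceSubgroup
open scoped MatrixGroups

section Conj

variable {B N₁ N₂ N₁' N₂' : Type} [CommRing B] [AddCommGroup N₁] [Module B N₁]
    [AddCommGroup N₂] [Module B N₂] [AddCommGroup N₁'] [Module B N₁']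
    [AddCommGroup N₂'] [Module B N₂'] (D : DegData B N₁ N₂) (e₁ : N₁' ≃ₗ[B] N₁)
    (e₂ : N₂' ≃ₗ[B] N₂)

theorem DegData.conj_hom : DegHom (D.conj e₁ e₂) D e₁.toLinearMap e₂.toLinearMap where
  q := rfl
  I x := (e₂.apply_symm_apply _).symm
  W x := (e₂.apply_symm_apply _).symm
  J x := (e₁.apply_symm_apply _).symm

theorem DegData.conj_down (x : N₂') : (D.conj e₁ e₂).down x = 0 ↔ D.down (e₂ x) = 0 := by
  have h := (D.conj_hom e₁ e₂).down x
  constructor
  · intro hx
    refine h.trans ?_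
    rw [hx]
    exact Prod.ext (map_zero e₁) (map_zero e₁)
  · intro hx
    have h1 := h.symm.trans hx
    refine Prod.ext ?_ ?_
    · exact (LinearEquiv.map_eq_zero_iff e₁).mp (Prod.mk.inj h1).1
    · exact (LinearEquiv.map_eq_zero_iff e₁).mp (Prod.mk.inj h1).2

end Conj

section EigX

variable {m M : ℕ} {Γ : Type} [Group Γ] (X : Stg m M Γ) {O E Y : Type} [CommRing O] [Field E]
  [Algebra O E] [MulAction (GL (Fin 2) (ZMod M)) Y]

/-- eigenvectors -/
structure EigX (v : X.H (funRep (M := M) O E Y)) (χ : TPoly m O →ₐ[O] E) : Prop where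
  ne : v ≠ 0
  eig : ∀ t : TPoly m O, t • v = eAct X (χ t) v

theorem eActX_ne {e : E} (he : e ≠ 0) {v : X.H (funRep (M := M) O E Y)} (hv : v ≠ 0) :
    eAct X e v ≠ 0 := by
  intro h
  have h1 : eRing X (e⁻¹ * e) v = 0 := by
    rw [map_mul, Module.End.mul_apply]
    change eRing X e⁻¹ (eAct X e v) = 0
    rw [h, map_zero]
  rw [inv_mul_cancel₀ he, map_one] at h1
  exact hv h1

variable {X} in
theorem EigX.eq_zero {v : X.H (funRep (M := M) O E Y)} {χ : TPoly m O →ₐ[O] E} (h : EigX X v χ)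
    {t : TPoly m O} (ht : t • v = 0) : χ t = 0 := by
  by_contra hne
  rw [h.eig] at ht
  exact eActX_ne X hne h.ne ht

variable {X} in
theorem EigX.map {Y' : Type} [MulAction (GL (Fin 2) (ZMod M)) Y']
    {v : X.H (funRep (M := M) O E Y)} {χ : TPoly m O →ₐ[O] E} (h : EigX X v χ)
    (φ : CHom (funRep (M := M) O E Y) (funRep (M := M) O E Y'))
    (hφ : ∀ (e : E) (F : Y → E), φ.toLinearMap (fun y => e * F y) =
      fun y => e * φ.toLinearMap F y) (hne : X.map φ v ≠ 0) : EigX X (X.map φ v) χ :=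
  ⟨hne, fun t => by rw [← map_smul, h.eig, map_eAct X φ hφ]⟩

end EigX

section Step

variable {m M : ℕ} {Γ : Type} [Group Γ] (X : Stg m M Γ) (hT : ∃ t, X.L.j t = ModularGroup.T)
  {O E : Type} [CommRing O] [Field E] [Algebra O E] [CharZero E] [IsAlgClosed E]
  {D : Type} [CommGroup D] [Fintype D] {q : ℕ} [Fact q.Prime]
  {K0 Kχ KT : Subgroup (GL (Fin 2) (ZMod M))}
  (TD : TwistData (GL (Fin 2) (ZMod M)) K0 Kχ KT D q)

include hT in
/-- the twisting step for eigenvectors -/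
theorem exists_twist_ne (hodd : Odd (Nat.card D)) (hχ : Function.Surjective TD.χ)
    {v : X.H (funRep (M := M) O E (GL (Fin 2) (ZMod M) ⧸ Kχ))} {χ : TPoly m O →ₐ[O] E}
    (hv : EigX X v χ) (l : Pr m) (hl : ((l : ℕ) : ZMod M) = 1) (hlχ : χ (eis O l) ≠ 0) :
    ∃ ψ : D →* Eˣ, X.map (TD.twistC O ψ) v ≠ 0 := by
  by_contra hcon
  push Not at hcon
  have h1 : X.map (TD.allC O (E := E)) v = 0 := by
    refine X.pi_ext _ fun ψ => ?_
    rw [← hcon ψ]
    exact X.map_comp' _ _ _ (fun _ => rfl) v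
  have h2 := X.eisenstein (infl_piRep infl_funRep) (TD.allC O (E := E))
    (TD.allC_injective O hodd hχ) hT l hl v h1
  apply hlχ
  apply hv.eq_zero
  rw [sub_smul, X.X_smul, X.C_smul, h2, ← Nat.cast_succ, Nat.cast_smul_eq_nsmul, sub_self]

theorem twistC_lin (ψ : D →* Eˣ) (e : E) (F : GL (Fin 2) (ZMod M) ⧸ Kχ → E) :
    (TD.twistC O ψ).toLinearMap (fun y => e * F y) =
      fun y => e * (TD.twistC O ψ).toLinearMap F y := by
  funext y
  induction y using QuotientGroup.induction_on with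
  | H g => exact TD.Ψ_smul (R := E) ψ e (fun x => F (x : GL (Fin 2) (ZMod M) ⧸ Kχ)) g

end Step

section Iter

variable {D : Type} [CommGroup D] [Fintype D] (W : TWD D) {l : ℕ} (hl : l.Prime) (hlQ : l ∉ W.Q)
  {m : ℕ} (hM : W.M ∣ m) (hM' : (raise W hl hlQ).M ∣ m) (hlN : ¬ l ∣ W.N)
  {O E : Type} [CommRing O] [Field E] [Algebra O E] [CharZero E] [IsAlgClosed E]
  (χ : TPoly m O →ₐ[O] E)

/-- the stage of level `N l` -/
abbrev XNl : Stg m (one W).M (Gamma0 (W.N * l)) :=
  Stg.gamma0 (W.N * l) (N_dvd_m (raise W hl hlQ) hM') (one_dvd_m W hM)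

/-- existence of a new eigenvector with coefficients in functions on `GL₂/K` -/
def NewV (K : Subgroup (GL (Fin 2) (ZMod (one W).M))) : Prop :=
  ∃ (hρ : funRep (M := (one W).M) O E (GL (Fin 2) (ZMod (one W).M) ⧸ K) (scal hl
      ((coprime_M W hl hlQ hlN).coprime_dvd_right (one_M_dvd W))) = 1)
    (v : (XNl W hl hlQ hM hM').H (funRep (M := (one W).M) O E (GL (Fin 2) (ZMod (one W).M) ⧸ K))),
    EigX (XNl W hl hlQ hM hM') v χ ∧
      (degData (funRep (M := (one W).M) O E (GL (Fin 2) (ZMod (one W).M) ⧸ K)) hl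
        ((Nat.Prime.coprime_iff_not_dvd hl).mpr hlN)
        ((coprime_M W hl hlQ hlN).coprime_dvd_right (one_M_dvd W)) (N_dvd_m W hM)
        (N_dvd_m (raise W hl hlQ) hM') (one_dvd_m W hM) hρ).down v = 0

variable {χ} (l₀ : Pr m) (hl₀ : ((l₀ : ℕ) : ZMod (one W).M) = 1) (hχ : χ (eis O l₀) ≠ 0)

theorem exists_T_gamma0 (n : ℕ) : ∃ t : Gamma0 n, (t : SL(2, ℤ)) = ModularGroup.T :=
  ⟨⟨ModularGroup.T, by rw [Gamma0_mem]; simp [ModularGroup.T]⟩, rfl⟩

include hl₀ hχ in
theorem NewV.step {t : ℕ → LT} {q : ℕ} (hq : q ∈ W.Q)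
    (h : NewV W hl hlQ hM hM' hlN χ ((one W).K (Function.update t q .chi))) :
    NewV W hl hlQ hM hM' hlN χ ((one W).K (Function.update t q .tor)) := by
  obtain ⟨hρ, v, hv, hd⟩ := h
  have : Fact q.Prime := ⟨W.tws.prime q hq⟩
  let TD := mkTwist (t := t) (χ := W.χ) (one W).tws hq (W.surj q hq)
  have hT : ∃ t, (XNl W hl hlQ hM hM').L.j t = ModularGroup.T := exists_T_gamma0 _
  obtain ⟨ψ, hψ⟩ := exists_twist_ne (XNl W hl hlQ hM hM') hT TD W.odd (W.surj q hq) hv l₀ hl₀ hχ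
  have hρ' := scal_funRep (one W) hl O E (Function.update t q .tor)
    ((coprime_M W hl hlQ hlN).coprime_dvd_right (one_M_dvd W))
  refine ⟨hρ', _, hv.map (TD.twistC O ψ) (twistC_lin TD ψ) hψ, ?_⟩
  have h1 := degData_hom hl ((Nat.Prime.coprime_iff_not_dvd hl).mpr hlN)
        ((coprime_M W hl hlQ hlN).coprime_dvd_right (one_M_dvd W)) (N_dvd_m W hM)
        (N_dvd_m (raise W hl hlQ) hM') (one_dvd_m W hM) hρ hρ' (TD.twistC O ψ)
  have h2 := h1.down v
  rw [hd] at h2
  refine h2.trans ?_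
  rw [Prod.fst_zero, Prod.snd_zero, map_zero]
  rfl

include hl₀ hχ in
theorem NewV.iter (C : Finset ℕ) (hC : C ⊆ W.Q)
    (h : NewV W hl hlQ hM hM' hlN χ ((one W).K (mixT C))) :
    NewV W hl hlQ hM hM' hlN χ ((one W).K fun _ => .tor) := by
  classical
  induction C using Finset.induction_on with
  | empty =>
    rw [mixT_empty] at h
    exact h
  | insert q C hq ih =>
    have hqQ : q ∈ W.Q := hC (Finset.mem_insert_self _ _)
    apply ih fun x hx => hC (Finset.mem_insert_of_mem hx)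
    rw [mixT_insert] at h
    have h1 := NewV.step W hl hlQ hM hM' hlN l₀ hl₀ hχ hqQ h
    rwa [mixT_update C hq] at h1

theorem lvlH_eAct (t : ℕ → LT) (e : E) (x : (XF hM).H (funRep (M := W.M) O E (W.Yt t))) :
    lvlH W hM O E t (eAct (XF hM) e x) = eAct (XN W hM) e (lvlH W hM O E t x) :=
  lvlH_coef W hM t (LinearMap.mulLeft O e) x

include hl₀ hχ in
/-- **A new eigenvector of Taylor-Wiles level gives a new eigenvector of torus level.** -/
theorem exists_tor (v : (XF hM').H (funRep (M := (raise W hl hlQ).M) O E (raise W hl hlQ).YQ))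
    (hv : IsEig hM' v χ)
    (hd : (degTW W hl hlQ O E (fun _ => .chi) hM hM' hlN).down v = 0) :
    ∃ v' : (XF hM').H (funRep (M := (raise W hl hlQ).M) O E
        ((raise W hl hlQ).Yt fun _ => .tor)), IsEig hM' v' χ ∧
      (degTW W hl hlQ O E (fun _ => .tor) hM hM' hlN).down v' = 0 := by
  have h0 : NewV W hl hlQ hM hM' hlN χ ((one W).K fun _ => .chi) := by
    refine ⟨scal_funRep (one W) hl O E _ _, lvlH' W hl hlQ O E (fun _ => .chi) hM hM' v, ⟨?_, ?_⟩,
      ?_⟩
    · intro h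
      exact hv.ne ((LinearEquiv.map_eq_zero_iff _).mp h)
    · intro t
      rw [← map_smul, hv.eig]
      exact lvlH_eAct (raise W hl hlQ) hM' _ _ _
    · exact (DegData.conj_down _ _ _ v).mp hd
  have hK : (one W).K (mixT W.Q) = (one W).K fun _ => .chi := Yt_congr (one W) fun q hq =>
    if_pos hq
  rw [← hK] at h0
  obtain ⟨hρ, v', hv', hd'⟩ := NewV.iter W hl hlQ hM hM' hlN l₀ hl₀ hχ W.Q (Finset.Subset.refl _) h0
  obtain ⟨z, rfl⟩ := (lvlH' W hl hlQ O E (fun _ => .tor) hM hM').surjective v'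
  refine ⟨z, ⟨?_, ?_⟩, ?_⟩
  · intro h
    apply hv'.ne
    rw [h, map_zero]
  · intro t
    apply (lvlH' W hl hlQ O E (fun _ => .tor) hM hM').injective
    rw [map_smul, hv'.eig]
    exact (lvlH_eAct (raise W hl hlQ) hM' (fun _ => .tor) (χ t) z).symm
  · exact (DegData.conj_down _ _ _ z).mpr hd'

end Iter

end Fermat.Agent.TWDeg

end
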